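import Mathlib

set_option autoImplicit false

namespace Fermat.Agent.S10.H42

open Finset

/-- The cofactor `(u^p + v^p)/(u + v)` for odd `p`. -/
def phi (p : ℕ) (u v : ℤ) : ℤ := ∑ i ∈ range p, u ^ i * (-v) ^ (p - 1 - i)

theorem phi_mul {p : ℕ} (hp : Odd p) (u v : ℤ) : phi p u v * (u + v) = u ^ p + v ^ p := by
  have h := geom_sum₂_mul u (-v) p
  rw [hp.neg_pow, sub_neg_eq_add, sub_neg_eq_add] at h
  exact h

/-- Reduction of `phi` modulo a number dividing `u + v`. -/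
theorem phi_cast_of_add_eq_zero {p : ℕ} (hp : 0 < p) {R : Type*} [CommRing R] (u v : ℤ)
    (h : (u : R) + (v : R) = 0) : ((phi p u v : ℤ) : R) = (p : R) * (u : R) ^ (p - 1) := by
  have hv : (-(v : R)) = (u : R) := by linear_combination (-1 : R) * h
  unfold phi
  push_cast
  rw [hv]
  have : ∀ i ∈ range p, (u : R) ^ i * (u : R) ^ (p - 1 - i) = (u : R) ^ (p - 1) := by
    intro i hi
    rw [← pow_add]
    congr 1
    have := mem_range.mp hi
    omega
  rw [sum_congr rfl this, sum_const, card_range, nsmul_eq_mul]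

/-- Reduction of `phi` modulo a number dividing `u`. -/
theorem phi_cast_of_eq_zero {p : ℕ} (hp : Odd p) {R : Type*} [CommRing R] (u v : ℤ)
    (h : (u : R) = 0) : ((phi p u v : ℤ) : R) = (v : R) ^ (p - 1) := by
  unfold phi
  push_cast
  rw [h]
  obtain ⟨k, hk⟩ := hp
  have hp0 : 0 < p := by omega
  rw [sum_eq_single_of_mem 0 (mem_range.mpr hp0)]
  · have e1 : p - 1 - 0 = 2 * k := by omega
    have e2 : p - 1 = 2 * k := by omega
    rw [pow_zero, one_mul, e1, e2, pow_mul, pow_mul, neg_sq]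
  · intro i _ hi
    rw [zero_pow hi, zero_mul]

theorem isCoprime_add_phi {p : ℕ} (hp : p.Prime) (hp2 : p ≠ 2) {u v w : ℤ}
    (huv : IsCoprime u v) (h : u ^ p + v ^ p + w ^ p = 0) (hw : ¬ (p : ℤ) ∣ w) :
    IsCoprime (u + v) (phi p u v) := by
  have hodd : Odd p := hp.odd_of_ne_two hp2
  have hmul := phi_mul hodd u v
  apply isCoprime_of_prime_dvd
  · rintro ⟨h1, h2⟩
    apply hw
    have : w ^ p = 0 := by
      have : u ^ p + v ^ p = 0 := by rw [← hmul, h1, mul_zero]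
      linarith
    rw [pow_eq_zero_iff hp.ne_zero] at this
    rw [this]; exact dvd_zero _
  · intro r hr hr1 hr2
    -- work in ZMod r.natAbs
    have hrp : r.natAbs.Prime := Int.prime_iff_natAbs_prime.mp hr
    have : Fact r.natAbs.Prime := ⟨hrp⟩
    have hdvd : ∀ t : ℤ, r ∣ t ↔ ((t : ℤ) : ZMod r.natAbs) = 0 := by
      intro t
      rw [ZMod.intCast_zmod_eq_zero_iff_dvd, Int.natAbs_dvd]
    have e1 : ((u : ℤ) : ZMod r.natAbs) + ((v : ℤ) : ZMod r.natAbs) = 0 := by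
      have := (hdvd _).mp hr1
      push_cast at this
      exact this
    have e2 := phi_cast_of_add_eq_zero (R := ZMod r.natAbs) hp.pos u v e1
    rw [(hdvd _).mp hr2] at e2
    rcases mul_eq_zero.mp e2.symm with h3 | h3
    · -- r ∣ p, so r.natAbs = p, so p ∣ u + v ∣ u^p + v^p = -w^p
      have h4 : r.natAbs ∣ p := (ZMod.natCast_eq_zero_iff _ _).mp h3
      have h5 : r.natAbs = p := (Nat.prime_dvd_prime_iff_eq hrp hp).mp h4
      apply hw
      have h6 : (p : ℤ) ∣ u + v := by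
        rw [← h5, Int.natAbs_dvd]; exact hr1
      have h7 : (p : ℤ) ∣ w ^ p := by
        have : w ^ p = - (phi p u v * (u + v)) := by rw [hmul]; linarith
        rw [this]
        exact (Dvd.dvd.mul_left h6 _).neg_right
      exact (Nat.prime_iff_prime_int.mp hp).dvd_of_dvd_pow h7
    · -- r ∣ u, hence r ∣ v
      have h4 : ((u : ℤ) : ZMod r.natAbs) = 0 := by
        exact pow_eq_zero_iff (Nat.sub_ne_zero_of_lt hp.one_lt) |>.mp h3
      have h5 : ((v : ℤ) : ZMod r.natAbs) = 0 := by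
        rw [h4, zero_add] at e1; exact e1
      have h6 : r ∣ u := (hdvd _).mpr h4
      have h7 : r ∣ v := (hdvd _).mpr h5
      exact hr.not_isUnit (huv.isUnit_of_dvd' h6 h7)

/-- The factorisation step of Sophie Germain's argument. -/
theorem key {p : ℕ} (hp : p.Prime) (hp2 : p ≠ 2) {u v w : ℤ}
    (huv : IsCoprime u v) (h : u ^ p + v ^ p + w ^ p = 0) (hw : ¬ (p : ℤ) ∣ w) :
    ∃ a α : ℤ, u + v = a ^ p ∧ phi p u v = α ^ p ∧ w = -(a * α) := by
  have hodd : Odd p := hp.odd_of_ne_two hp2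
  have hcop := isCoprime_add_phi hp hp2 huv h hw
  have hmul : (u + v) * phi p u v = (-w) ^ p := by
    rw [mul_comm, phi_mul hodd, hodd.neg_pow]; linarith
  obtain ⟨a, ha⟩ := Int.eq_pow_of_mul_eq_pow_odd_left hcop hodd hmul
  obtain ⟨α, hα⟩ := Int.eq_pow_of_mul_eq_pow_odd_right hcop hodd hmul
  refine ⟨a, α, ha, hα, ?_⟩
  have : (a * α) ^ p = (-w) ^ p := by rw [mul_pow, ← ha, ← hα, hmul]
  have := hodd.strictMono_pow.injective this
  linarith

/-- Sophie Germain, assuming the auxiliary prime divides `x`. -/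
theorem sophie_germain_aux {p q : ℕ} (hp : p.Prime) (hp2 : p ≠ 2) [Fact q.Prime]
    (h1 : ∀ x y z : ZMod q, x ^ p + y ^ p + z ^ p = 0 → x * y * z = 0)
    (h2 : ∀ x : ZMod q, x ^ p ≠ (p : ZMod q))
    (x y z : ℤ) (hxy : IsCoprime x y) (hyz : IsCoprime y z) (hzx : IsCoprime z x)
    (h : x ^ p + y ^ p + z ^ p = 0) (hqx : ((x : ℤ) : ZMod q) = 0)
    (hpx : ¬ (p : ℤ) ∣ x) (hpy : ¬ (p : ℤ) ∣ y) (hpz : ¬ (p : ℤ) ∣ z) : False := by
  have hq : q.Prime := Fact.out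
  have hodd : Odd p := hp.odd_of_ne_two hp2
  obtain ⟨a, α, ha, hα, hx⟩ := key hp hp2 hyz (by linarith) hpx
  obtain ⟨b, β, hb, hβ, hy⟩ := key hp hp2 hzx (by linarith) hpy
  obtain ⟨c, γ, hc, hγ, hz⟩ := key hp hp2 hxy h hpz
  have hqdvd : ∀ t : ℤ, (q : ℤ) ∣ t ↔ ((t : ℤ) : ZMod q) = 0 := fun t =>
    (ZMod.intCast_zmod_eq_zero_iff_dvd t q).symm
  have hqnot : ¬ IsUnit (q : ℤ) := (Nat.prime_iff_prime_int.mp hq).not_isUnit
  have hy0 : ((y : ℤ) : ZMod q) ≠ 0 := fun hy0 =>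
    hqnot (hxy.isUnit_of_dvd' ((hqdvd _).mpr hqx) ((hqdvd _).mpr hy0))
  have hz0 : ((z : ℤ) : ZMod q) ≠ 0 := fun hz0 =>
    hqnot (hzx.isUnit_of_dvd' ((hqdvd _).mpr hz0) ((hqdvd _).mpr hqx))
  -- b^p + c^p + (-a)^p = 2x ≡ 0
  have e : ((b : ℤ) : ZMod q) ^ p + ((c : ℤ) : ZMod q) ^ p + (-((a : ℤ) : ZMod q)) ^ p = 0 := by
    have : b ^ p + c ^ p + (-a) ^ p = 2 * x := by
      rw [hodd.neg_pow, ← ha, ← hb, ← hc]; ring
    have := congrArg (Int.cast : ℤ → ZMod q) this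
    push_cast at this
    rw [this, hqx, mul_zero]
  have e' := h1 _ _ _ e
  rcases mul_eq_zero.mp e' with e' | e'
  · rcases mul_eq_zero.mp e' with e' | e'
    · apply hy0
      rw [hy]; push_cast; rw [e']; ring
    · apply hz0
      rw [hz]; push_cast; rw [e']; ring
  · have ha0 : ((a : ℤ) : ZMod q) = 0 := neg_eq_zero.mp e'
    have hyz0 : ((y : ℤ) : ZMod q) + ((z : ℤ) : ZMod q) = 0 := by
      have := congrArg (Int.cast : ℤ → ZMod q) ha
      push_cast at this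
      rw [this, ha0, zero_pow hp.ne_zero]
    have e3 := phi_cast_of_add_eq_zero (R := ZMod q) hp.pos y z hyz0
    have e4 := phi_cast_of_eq_zero (R := ZMod q) hodd x y hqx
    rw [hα] at e3
    rw [hγ] at e4
    push_cast at e3 e4
    have hγ0 : ((γ : ℤ) : ZMod q) ≠ 0 := by
      intro h0
      rw [h0, zero_pow hp.ne_zero] at e4
      exact hy0 (pow_eq_zero_iff (Nat.sub_ne_zero_of_lt hp.one_lt) |>.mp e4.symm)
    apply h2 (((α : ℤ) : ZMod q) / ((γ : ℤ) : ZMod q))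
    rw [div_pow, e3, e4]
    field_simp

theorem sophie_germain {p q : ℕ} (hp : p.Prime) (hp2 : p ≠ 2) (hq : q.Prime)
    (h1 : ∀ x y z : ZMod q, x ^ p + y ^ p + z ^ p = 0 → x * y * z = 0)
    (h2 : ∀ x : ZMod q, x ^ p ≠ (p : ZMod q))
    (x y z : ℤ) (hxy : IsCoprime x y) (hyz : IsCoprime y z) (hzx : IsCoprime z x)
    (h : x ^ p + y ^ p + z ^ p = 0) : (p : ℤ) ∣ x * y * z := by
  have : Fact q.Prime := ⟨hq⟩
  by_contra hnot
  have hpx : ¬ (p : ℤ) ∣ x := fun hd => hnot ((hd.mul_right y).mul_right z)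
  have hpy : ¬ (p : ℤ) ∣ y := fun hd => hnot ((hd.mul_left x).mul_right z)
  have hpz : ¬ (p : ℤ) ∣ z := fun hd => hnot (hd.mul_left (x * y))
  have e : ((x : ℤ) : ZMod q) ^ p + ((y : ℤ) : ZMod q) ^ p + ((z : ℤ) : ZMod q) ^ p = 0 := by
    have := congrArg (Int.cast : ℤ → ZMod q) h
    push_cast at this
    exact this
  rcases mul_eq_zero.mp (h1 _ _ _ e) with e' | e'
  · rcases mul_eq_zero.mp e' with e' | e'
    · exact sophie_germain_aux hp hp2 h1 h2 x y z hxy hyz hzx h e' hpx hpy hpz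
    · exact sophie_germain_aux hp hp2 h1 h2 y z x hyz hzx hxy (by linarith) e' hpy hpz hpx
  · exact sophie_germain_aux hp hp2 h1 h2 z x y hzx hxy hyz (by linarith) e' hpz hpx hpy

theorem h1_of {p q : ℕ} [Fact q.Prime] (hp : p ≠ 0) (S : Finset (ZMod q))
    (hS : ∀ x : ZMod q, x ^ p ∈ S)
    (hsum : ∀ a ∈ S, ∀ b ∈ S, ∀ c ∈ S, a + b + c = 0 → a = 0 ∨ b = 0 ∨ c = 0) :
    ∀ x y z : ZMod q, x ^ p + y ^ p + z ^ p = 0 → x * y * z = 0 := by
  intro x y z h
  rcases hsum _ (hS x) _ (hS y) _ (hS z) h with h0 | h0 | h0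
  · rw [(pow_eq_zero_iff hp).mp h0]; ring
  · rw [(pow_eq_zero_iff hp).mp h0]; ring
  · rw [(pow_eq_zero_iff hp).mp h0]; ring

set_option maxRecDepth 100000 in
theorem hS_5 : ∀ x : ZMod 11, x ^ 5 ∈ ({0, 1, 10} : Finset (ZMod 11)) := by decide

set_option maxRecDepth 100000 in
theorem hsum_5 : ∀ a ∈ ({0, 1, 10} : Finset (ZMod 11)), ∀ b ∈ ({0, 1, 10} : Finset (ZMod 11)),
    ∀ c ∈ ({0, 1, 10} : Finset (ZMod 11)), a + b + c = 0 → a = 0 ∨ b = 0 ∨ c = 0 := by decide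

theorem h1_5 : ∀ x y z : ZMod 11, x ^ 5 + y ^ 5 + z ^ 5 = 0 → x * y * z = 0 := by
  have : Fact (Nat.Prime 11) := ⟨by norm_num⟩
  exact h1_of (by norm_num) _ hS_5 hsum_5

set_option maxRecDepth 100000 in
theorem h2_5 : ∀ x : ZMod 11, x ^ 5 ≠ ((5 : ℕ) : ZMod 11) := by decide

set_option maxRecDepth 100000 in
theorem hS_11 : ∀ x : ZMod 23, x ^ 11 ∈ ({0, 1, 22} : Finset (ZMod 23)) := by decide

set_option maxRecDepth 100000 in
theorem hsum_11 : ∀ a ∈ ({0, 1, 22} : Finset (ZMod 23)), ∀ b ∈ ({0, 1, 22} : Finset (ZMod 23)),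
    ∀ c ∈ ({0, 1, 22} : Finset (ZMod 23)), a + b + c = 0 → a = 0 ∨ b = 0 ∨ c = 0 := by decide

theorem h1_11 : ∀ x y z : ZMod 23, x ^ 11 + y ^ 11 + z ^ 11 = 0 → x * y * z = 0 := by
  have : Fact (Nat.Prime 23) := ⟨by norm_num⟩
  exact h1_of (by norm_num) _ hS_11 hsum_11

set_option maxRecDepth 100000 in
theorem h2_11 : ∀ x : ZMod 23, x ^ 11 ≠ ((11 : ℕ) : ZMod 23) := by decide

set_option maxRecDepth 100000 in
theorem hS_7 : ∀ x : ZMod 29, x ^ 7 ∈ ({0, 1, 28, 12, 17} : Finset (ZMod 29)) := by decide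

set_option maxRecDepth 100000 in
theorem hsum_7 : ∀ a ∈ ({0, 1, 28, 12, 17} : Finset (ZMod 29)), ∀ b ∈ ({0, 1, 28, 12, 17} : Finset (ZMod 29)),
    ∀ c ∈ ({0, 1, 28, 12, 17} : Finset (ZMod 29)), a + b + c = 0 → a = 0 ∨ b = 0 ∨ c = 0 := by decide

theorem h1_7 : ∀ x y z : ZMod 29, x ^ 7 + y ^ 7 + z ^ 7 = 0 → x * y * z = 0 := by
  have : Fact (Nat.Prime 29) := ⟨by norm_num⟩
  exact h1_of (by norm_num) _ hS_7 hsum_7

set_option maxRecDepth 100000 in
theorem h2_7 : ∀ x : ZMod 29, x ^ 7 ≠ ((7 : ℕ) : ZMod 29) := by decide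

set_option maxRecDepth 100000 in
theorem hS_13 : ∀ x : ZMod 53, x ^ 13 ∈ ({0, 1, 52, 23, 30} : Finset (ZMod 53)) := by decide

set_option maxRecDepth 100000 in
theorem hsum_13 : ∀ a ∈ ({0, 1, 52, 23, 30} : Finset (ZMod 53)), ∀ b ∈ ({0, 1, 52, 23, 30} : Finset (ZMod 53)),
    ∀ c ∈ ({0, 1, 52, 23, 30} : Finset (ZMod 53)), a + b + c = 0 → a = 0 ∨ b = 0 ∨ c = 0 := by decide

theorem h1_13 : ∀ x y z : ZMod 53, x ^ 13 + y ^ 13 + z ^ 13 = 0 → x * y * z = 0 := by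
  have : Fact (Nat.Prime 53) := ⟨by norm_num⟩
  exact h1_of (by norm_num) _ hS_13 hsum_13

set_option maxRecDepth 100000 in
theorem h2_13 : ∀ x : ZMod 53, x ^ 13 ≠ ((13 : ℕ) : ZMod 53) := by decide

/-- Case I from Sophie Germain's criterion, in the form `a^p + b^p = c^p`. -/
theorem caseI_of {p q : ℕ} (hp : p.Prime) (hp2 : p ≠ 2) (hq : q.Prime)
    (h1 : ∀ x y z : ZMod q, x ^ p + y ^ p + z ^ p = 0 → x * y * z = 0)
    (h2 : ∀ x : ZMod q, x ^ p ≠ (p : ZMod q))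
    (a b c : ℤ) (hab : IsCoprime a b) (h : a ^ p + b ^ p = c ^ p) : (p : ℤ) ∣ a * b * c := by
  have hodd : Odd p := hp.odd_of_ne_two hp2
  have hbc : IsCoprime b c := by
    rw [← IsCoprime.pow_iff hp.pos hp.pos, ← h]
    have := (hab.symm.pow (m := p) (n := p)).add_mul_left_right 1
    rwa [mul_one] at this
  have hca : IsCoprime c a := by
    rw [← IsCoprime.pow_iff hp.pos hp.pos, ← h]
    have := (hab.symm.pow (m := p) (n := p)).symm.add_mul_left_right 1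
    rw [mul_one, add_comm] at this
    exact this.symm
  have := sophie_germain hp hp2 hq h1 h2 a b (-c) hab hbc.neg_right hca.neg_left
    (by rw [hodd.neg_pow]; linarith)
  have h3 : a * b * -c = -(a * b * c) := by ring
  rw [h3, dvd_neg] at this
  exact this

theorem caseI {p : ℕ} (hp : p = 5 ∨ p = 7 ∨ p = 11 ∨ p = 13) (a b c : ℤ)
    (hab : IsCoprime a b) (h : a ^ p + b ^ p = c ^ p) : (p : ℤ) ∣ a * b * c := by
  rcases hp with rfl | rfl | rfl | rfl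
  · exact caseI_of (q := 11) (by norm_num) (by norm_num) (by norm_num) h1_5 h2_5 a b c hab h
  · exact caseI_of (q := 29) (by norm_num) (by norm_num) (by norm_num) h1_7 h2_7 a b c hab h
  · exact caseI_of (q := 23) (by norm_num) (by norm_num) (by norm_num) h1_11 h2_11 a b c hab h
  · exact caseI_of (q := 53) (by norm_num) (by norm_num) (by norm_num) h1_13 h2_13 a b c hab h

end Fermat.Agent.S10.H42
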