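import Mathlib

set_option autoImplicit false

namespace Fermat.Agent.S10.H68

/-- Independence certificate for the logarithmic derivatives of the cyclotomic units, `p = 11`. -/
theorem dlog_indep_11 {R : Type*} [CommRing R] [Algebra (ZMod 11) R] (y : R)
    (hy : (y - 1) ^ 9 = 0)
    (hli : LinearIndependent (ZMod 11) (fun i : Fin 9 => y ^ (i : ℕ)))
    (a : Fin 5 → R) (h0 : y * a 0 = 1)
    (hk : ∀ k : Fin 5, (k : ℕ) ≠ 0 →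
      (∑ j ∈ Finset.range ((k : ℕ) + 1), y ^ j) * a k
        = ∑ j ∈ Finset.range ((k : ℕ) + 1), (j : R) * y ^ (j - 1)) :
    LinearIndependent (ZMod 11) a := by
  have hp : ((11 : ℕ) : R) = 0 := by
    have h : algebraMap (ZMod 11) R ((11 : ℕ) : ZMod 11) = 0 := by
      rw [show ((11 : ℕ) : ZMod 11) = 0 from by decide, map_zero]
    rwa [map_natCast] at h
  have hp' : (11 : R) = 0 := by exact_mod_cast hp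
  have hk0 : y * a 0 = 1 := h0
  have e0 : a 0 = 9 + 8 * y + 7 * y ^ 2 + 6 * y ^ 3 + 5 * y ^ 4 + 4 * y ^ 5 + 3 * y ^ 6 + 2 * y ^ 7 + y ^ 8 := by
    linear_combination (9 + 8 * y + 7 * y ^ 2 + 6 * y ^ 3 + 5 * y ^ 4 + 4 * y ^ 5 + 3 * y ^ 6 + 2 * y ^ 7 + y ^ 8) * hk0
      - (a 0 * (1) - (0)) * hy
      - (a 0 * (4 * y ^ 2 - 7 * y ^ 3 + 12 * y ^ 4 - 11 * y ^ 5 + 8 * y ^ 6 - 3 * y ^ 7 + y ^ 8) - (0)) * hp'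
  have hk1 := hk 1 (by decide)
  norm_num [Finset.sum_range_succ] at hk1
  have e1 : a 1 = 10 + 8 * y + 8 * y ^ 2 + 6 * y ^ 3 + 6 * y ^ 4 + 4 * y ^ 5 + 4 * y ^ 6 + 2 * y ^ 7 + 2 * y ^ 8 := by
    linear_combination (10 + 8 * y + 8 * y ^ 2 + 6 * y ^ 3 + 6 * y ^ 4 + 4 * y ^ 5 + 4 * y ^ 6 + 2 * y ^ 7 + 2 * y ^ 8) * hk1
      - (a 1 * (2) - (0)) * hy
      - (a 1 * (1 + 8 * y ^ 2 - 14 * y ^ 3 + 24 * y ^ 4 - 22 * y ^ 5 + 16 * y ^ 6 - 6 * y ^ 7 + 2 * y ^ 8) - (0)) * hp'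
  have hk2 := hk 2 (by decide)
  norm_num [Finset.sum_range_succ] at hk2
  have e2 : a 2 = 9 + 9 * y + 6 * y ^ 2 + 6 * y ^ 3 + 6 * y ^ 4 + 3 * y ^ 5 + 3 * y ^ 6 + 3 * y ^ 7 := by
    linear_combination (2 + 2 * y + 3 * y ^ 2 + 5 * y ^ 3 + 5 * y ^ 4 + 6 * y ^ 5 + 8 * y ^ 6 + 8 * y ^ 7 + 9 * y ^ 8) * hk2
      - (a 2 * (98 + 9 * y) - (18)) * hy
      - (a 2 * (9 - 79 * y + 314 * y ^ 2 - 718 * y ^ 3 + 1055 * y ^ 4 - 1018 * y ^ 5 + 647 * y ^ 6 - 250 * y ^ 7 + 53 * y ^ 8) - (1 - 15 * y + 59 * y ^ 2 - 137 * y ^ 3 + 207 * y ^ 4 - 205 * y ^ 5 + 139 * y ^ 6 - 57 * y ^ 7 + 17 * y ^ 8)) * hp'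
  have hk3 := hk 3 (by decide)
  norm_num [Finset.sum_range_succ] at hk3
  have e3 : a 3 = 8 + 8 * y + 8 * y ^ 2 + 4 * y ^ 3 + 4 * y ^ 4 + 4 * y ^ 5 + 4 * y ^ 6 := by
    linear_combination (1 + y ^ 4 + y ^ 8) * hk3
      - (a 3 * (55 + 10 * y + y ^ 2) - (29 + 3 * y)) * hy
      - (a 3 * (5 - 44 * y + 172 * y ^ 2 - 388 * y ^ 3 + 557 * y ^ 4 - 523 * y ^ 5 + 317 * y ^ 6 - 115 * y ^ 7 + 20 * y ^ 8) - (2 - 24 * y + 92 * y ^ 2 - 212 * y ^ 3 + 309 * y ^ 4 - 298 * y ^ 5 + 187 * y ^ 6 - 72 * y ^ 7 + 14 * y ^ 8)) * hp'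
  have hk4 := hk 4 (by decide)
  norm_num [Finset.sum_range_succ] at hk4
  have e4 : a 4 = 7 + 2 * y + 8 * y ^ 2 + 3 * y ^ 3 + 9 * y ^ 4 + 9 * y ^ 5 + 4 * y ^ 6 + 10 * y ^ 7 + 5 * y ^ 8 := by
    linear_combination (10 * y + 10 * y ^ 6) * hk4
      - (a 4 * (100 + 10 * y) - (40)) * hy
      - (a 4 * (9 - 80 * y + 320 * y ^ 2 - 730 * y ^ 3 + 1070 * y ^ 4 - 1030 * y ^ 5 + 650 * y ^ 6 - 250 * y ^ 7 + 50 * y ^ 8) - (3 - 32 * y + 132 * y ^ 2 - 303 * y ^ 3 + 461 * y ^ 4 - 459 * y ^ 5 + 306 * y ^ 6 - 130 * y ^ 7 + 35 * y ^ 8)) * hp'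
  rw [Fintype.linearIndependent_iff]
  intro c hc
  have hli' := Fintype.linearIndependent_iff.mp hli
    ![c 0 * 9 + c 1 * 10 + c 2 * 9 + c 3 * 8 + c 4 * 7, c 0 * 8 + c 1 * 8 + c 2 * 9 + c 3 * 8 + c 4 * 2, c 0 * 7 + c 1 * 8 + c 2 * 6 + c 3 * 8 + c 4 * 8, c 0 * 6 + c 1 * 6 + c 2 * 6 + c 3 * 4 + c 4 * 3, c 0 * 5 + c 1 * 6 + c 2 * 6 + c 3 * 4 + c 4 * 9, c 0 * 4 + c 1 * 4 + c 2 * 3 + c 3 * 4 + c 4 * 9, c 0 * 3 + c 1 * 4 + c 2 * 3 + c 3 * 4 + c 4 * 4, c 0 * 2 + c 1 * 2 + c 2 * 3 + c 3 * 0 + c 4 * 10, c 0 * 1 + c 1 * 2 + c 2 * 0 + c 3 * 0 + c 4 * 5]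
  have hzero : ∀ i : Fin 9, (![c 0 * 9 + c 1 * 10 + c 2 * 9 + c 3 * 8 + c 4 * 7, c 0 * 8 + c 1 * 8 + c 2 * 9 + c 3 * 8 + c 4 * 2, c 0 * 7 + c 1 * 8 + c 2 * 6 + c 3 * 8 + c 4 * 8, c 0 * 6 + c 1 * 6 + c 2 * 6 + c 3 * 4 + c 4 * 3, c 0 * 5 + c 1 * 6 + c 2 * 6 + c 3 * 4 + c 4 * 9, c 0 * 4 + c 1 * 4 + c 2 * 3 + c 3 * 4 + c 4 * 9, c 0 * 3 + c 1 * 4 + c 2 * 3 + c 3 * 4 + c 4 * 4, c 0 * 2 + c 1 * 2 + c 2 * 3 + c 3 * 0 + c 4 * 10, c 0 * 1 + c 1 * 2 + c 2 * 0 + c 3 * 0 + c 4 * 5] : Fin 9 → ZMod 11) i = 0 := by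
    apply hli'
    have hc2 := hc
    rw [Fin.sum_univ_five, e0, e1, e2, e3, e4] at hc2
    simp only [Algebra.smul_def] at hc2
    simp [Fin.sum_univ_succ, Algebra.smul_def, map_ofNat]
    linear_combination hc2
  have hpz : (11 : ZMod 11) = 0 := by decide
  have hz0 := hzero 0
  have hz1 := hzero 1
  have hz2 := hzero 2
  have hz3 := hzero 3
  have hz4 := hzero 4
  simp at hz0 hz1 hz2 hz3 hz4
  intro i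
  fin_cases i
  · show c 0 = 0
    linear_combination 9 * hz0 + 0 * hz1 + 1 * hz2 + 2 * hz3 + 0 * hz4 - (9 * c 0 + 10 * c 1 + 9 * c 2 + 8 * c 3 + 7 * c 4) * hpz
  · show c 1 = 0
    linear_combination 6 * hz0 + 5 * hz1 + 0 * hz2 + 5 * hz3 + 6 * hz4 - (14 * c 0 + 15 * c 1 + 15 * c 2 + 12 * c 3 + 11 * c 4) * hpz
  · show c 2 = 0
    linear_combination 0 * hz0 + 4 * hz1 + 7 * hz2 + 7 * hz3 + 4 * hz4 - (13 * c 0 + 14 * c 1 + 13 * c 2 + 12 * c 3 + 11 * c 4) * hpz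
  · show c 3 = 0
    linear_combination 8 * hz0 + 3 * hz1 + 3 * hz2 + 8 * hz3 + 0 * hz4 - (15 * c 0 + 16 * c 1 + 15 * c 2 + 13 * c 3 + 10 * c 4) * hpz
  · show c 4 = 0
    linear_combination 7 * hz0 + 0 * hz1 + 2 * hz2 + 2 * hz3 + 2 * hz4 - (9 * c 0 + 10 * c 1 + 9 * c 2 + 8 * c 3 + 8 * c 4) * hpz

end Fermat.Agent.S10.H68

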