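import Mathlib

set_option autoImplicit false

namespace Fermat.Agent.S10.H68

/-- Independence certificate for the logarithmic derivatives of the cyclotomic units, `p = 13`. -/
theorem dlog_indep_13 {R : Type*} [CommRing R] [Algebra (ZMod 13) R] (y : R)
    (hy : (y - 1) ^ 11 = 0)
    (hli : LinearIndependent (ZMod 13) (fun i : Fin 11 => y ^ (i : ℕ)))
    (a : Fin 6 → R) (h0 : y * a 0 = 1)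
    (hk : ∀ k : Fin 6, (k : ℕ) ≠ 0 →
      (∑ j ∈ Finset.range ((k : ℕ) + 1), y ^ j) * a k
        = ∑ j ∈ Finset.range ((k : ℕ) + 1), (j : R) * y ^ (j - 1)) :
    LinearIndependent (ZMod 13) a := by
  have hp : ((13 : ℕ) : R) = 0 := by
    have h : algebraMap (ZMod 13) R ((13 : ℕ) : ZMod 13) = 0 := by
      rw [show ((13 : ℕ) : ZMod 13) = 0 from by decide, map_zero]
    rwa [map_natCast] at h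
  have hp' : (13 : R) = 0 := by exact_mod_cast hp
  have hk0 : y * a 0 = 1 := h0
  have e0 : a 0 = 11 + 10 * y + 9 * y ^ 2 + 8 * y ^ 3 + 7 * y ^ 4 + 6 * y ^ 5 + 5 * y ^ 6 + 4 * y ^ 7 + 3 * y ^ 8 + 2 * y ^ 9 + y ^ 10 := by
    linear_combination (11 + 10 * y + 9 * y ^ 2 + 8 * y ^ 3 + 7 * y ^ 4 + 6 * y ^ 5 + 5 * y ^ 6 + 4 * y ^ 7 + 3 * y ^ 8 + 2 * y ^ 9 + y ^ 10) * hk0
      - (a 0 * (1) - (0)) * hy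
      - (a 0 * (5 * y ^ 2 - 12 * y ^ 3 + 26 * y ^ 4 - 35 * y ^ 5 + 36 * y ^ 6 - 25 * y ^ 7 + 13 * y ^ 8 - 4 * y ^ 9 + y ^ 10) - (0)) * hp'
  have hk1 := hk 1 (by decide)
  norm_num [Finset.sum_range_succ] at hk1
  have e1 : a 1 = 12 + 10 * y + 10 * y ^ 2 + 8 * y ^ 3 + 8 * y ^ 4 + 6 * y ^ 5 + 6 * y ^ 6 + 4 * y ^ 7 + 4 * y ^ 8 + 2 * y ^ 9 + 2 * y ^ 10 := by
    linear_combination (12 + 10 * y + 10 * y ^ 2 + 8 * y ^ 3 + 8 * y ^ 4 + 6 * y ^ 5 + 6 * y ^ 6 + 4 * y ^ 7 + 4 * y ^ 8 + 2 * y ^ 9 + 2 * y ^ 10) * hk1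
      - (a 1 * (2) - (0)) * hy
      - (a 1 * (1 + 10 * y ^ 2 - 24 * y ^ 3 + 52 * y ^ 4 - 70 * y ^ 5 + 72 * y ^ 6 - 50 * y ^ 7 + 26 * y ^ 8 - 8 * y ^ 9 + 2 * y ^ 10) - (0)) * hp'
  have hk2 := hk 2 (by decide)
  norm_num [Finset.sum_range_succ] at hk2
  have e2 : a 2 = 11 + 8 * y + 5 * y ^ 2 + 5 * y ^ 3 + 2 * y ^ 4 + 12 * y ^ 5 + 12 * y ^ 6 + 9 * y ^ 7 + 6 * y ^ 8 + 6 * y ^ 9 + 3 * y ^ 10 := by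
    linear_combination (12 * y + 12 * y ^ 4 + 12 * y ^ 7 + 12 * y ^ 10) * hk2
      - (a 2 * (144 + 12 * y) - (24)) * hy
      - (a 2 * (11 - 120 * y + 600 * y ^ 2 - 1776 * y ^ 3 + 3504 * y ^ 4 - 4812 * y ^ 5 + 4692 * y ^ 6 - 3228 * y ^ 7 + 1524 * y ^ 8 - 456 * y ^ 9 + 72 * y ^ 10) - (1 - 20 * y + 103 * y ^ 2 - 305 * y ^ 3 + 610 * y ^ 4 - 852 * y ^ 5 + 852 * y ^ 6 - 609 * y ^ 7 + 306 * y ^ 8 - 102 * y ^ 9 + 21 * y ^ 10)) * hp'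
  have hk3 := hk 3 (by decide)
  norm_num [Finset.sum_range_succ] at hk3
  have e3 : a 3 = 10 + 6 * y + 2 * y ^ 2 + 11 * y ^ 3 + 11 * y ^ 4 + 7 * y ^ 5 + 3 * y ^ 6 + 12 * y ^ 7 + 12 * y ^ 8 + 8 * y ^ 9 + 4 * y ^ 10 := by
    linear_combination (12 * y + 12 * y ^ 5 + 12 * y ^ 9) * hk3
      - (a 3 * (144 + 12 * y) - (36)) * hy
      - (a 3 * (11 - 120 * y + 600 * y ^ 2 - 1776 * y ^ 3 + 3504 * y ^ 4 - 4812 * y ^ 5 + 4692 * y ^ 6 - 3228 * y ^ 7 + 1524 * y ^ 8 - 456 * y ^ 9 + 72 * y ^ 10) - (2 - 30 * y + 154 * y ^ 2 - 455 * y ^ 3 + 913 * y ^ 4 - 1279 * y ^ 5 + 1281 * y ^ 6 - 912 * y ^ 7 + 456 * y ^ 8 - 152 * y ^ 9 + 32 * y ^ 10)) * hp'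
  have hk4 := hk 4 (by decide)
  norm_num [Finset.sum_range_succ] at hk4
  have e4 : a 4 = 9 + 4 * y + 4 * y ^ 2 + 12 * y ^ 3 + 7 * y ^ 4 + 7 * y ^ 5 + 2 * y ^ 6 + 2 * y ^ 7 + 10 * y ^ 8 + 5 * y ^ 9 + 5 * y ^ 10 := by
    linear_combination (12 + 10 * y + 10 * y ^ 2 + 8 * y ^ 3 + 8 * y ^ 4 + 7 * y ^ 5 + 5 * y ^ 6 + 5 * y ^ 7 + 3 * y ^ 8 + 3 * y ^ 9 + 2 * y ^ 10) * hk4
      - (a 4 * (1003 + 195 * y + 27 * y ^ 2 + 2 * y ^ 3) - (751 + 106 * y + 8 * y ^ 2)) * hy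
      - (a 4 * (78 - 832 * y + 4083 * y ^ 2 - 11925 * y ^ 3 + 23102 * y ^ 4 - 31026 * y ^ 5 + 29378 * y ^ 6 - 19437 * y ^ 7 + 8671 * y ^ 8 - 2381 * y ^ 9 + 317 * y ^ 10) - (58 - 625 * y + 3093 * y ^ 2 - 9083 * y ^ 3 + 17759 * y ^ 4 - 24094 * y ^ 5 + 23131 * y ^ 6 - 15576 * y ^ 7 + 7129 * y ^ 8 - 2032 * y ^ 9 + 291 * y ^ 10)) * hp'
  have hk5 := hk 5 (by decide)
  norm_num [Finset.sum_range_succ] at hk5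
  have e5 : a 5 = 8 + 2 * y + 9 * y ^ 2 + 3 * y ^ 3 + 10 * y ^ 4 + 4 * y ^ 5 + 4 * y ^ 6 + 11 * y ^ 7 + 5 * y ^ 8 + 12 * y ^ 9 + 6 * y ^ 10 := by
    linear_combination (12 * y + 12 * y ^ 7) * hk5
      - (a 5 * (144 + 12 * y) - (60)) * hy
      - (a 5 * (11 - 120 * y + 600 * y ^ 2 - 1776 * y ^ 3 + 3504 * y ^ 4 - 4812 * y ^ 5 + 4692 * y ^ 6 - 3228 * y ^ 7 + 1524 * y ^ 8 - 456 * y ^ 9 + 72 * y ^ 10) - (4 - 50 * y + 255 * y ^ 2 - 759 * y ^ 3 + 1526 * y ^ 4 - 2128 * y ^ 5 + 2132 * y ^ 6 - 1523 * y ^ 7 + 763 * y ^ 8 - 252 * y ^ 9 + 54 * y ^ 10)) * hp'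
  rw [Fintype.linearIndependent_iff]
  intro c hc
  have hli' := Fintype.linearIndependent_iff.mp hli
    ![c 0 * 11 + c 1 * 12 + c 2 * 11 + c 3 * 10 + c 4 * 9 + c 5 * 8, c 0 * 10 + c 1 * 10 + c 2 * 8 + c 3 * 6 + c 4 * 4 + c 5 * 2, c 0 * 9 + c 1 * 10 + c 2 * 5 + c 3 * 2 + c 4 * 4 + c 5 * 9, c 0 * 8 + c 1 * 8 + c 2 * 5 + c 3 * 11 + c 4 * 12 + c 5 * 3, c 0 * 7 + c 1 * 8 + c 2 * 2 + c 3 * 11 + c 4 * 7 + c 5 * 10, c 0 * 6 + c 1 * 6 + c 2 * 12 + c 3 * 7 + c 4 * 7 + c 5 * 4, c 0 * 5 + c 1 * 6 + c 2 * 12 + c 3 * 3 + c 4 * 2 + c 5 * 4, c 0 * 4 + c 1 * 4 + c 2 * 9 + c 3 * 12 + c 4 * 2 + c 5 * 11, c 0 * 3 + c 1 * 4 + c 2 * 6 + c 3 * 12 + c 4 * 10 + c 5 * 5, c 0 * 2 + c 1 * 2 + c 2 * 6 + c 3 * 8 + c 4 * 5 + c 5 * 12, c 0 * 1 + c 1 * 2 + c 2 * 3 + c 3 * 4 + c 4 * 5 + c 5 * 6]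
  have hzero : ∀ i : Fin 11, (![c 0 * 11 + c 1 * 12 + c 2 * 11 + c 3 * 10 + c 4 * 9 + c 5 * 8, c 0 * 10 + c 1 * 10 + c 2 * 8 + c 3 * 6 + c 4 * 4 + c 5 * 2, c 0 * 9 + c 1 * 10 + c 2 * 5 + c 3 * 2 + c 4 * 4 + c 5 * 9, c 0 * 8 + c 1 * 8 + c 2 * 5 + c 3 * 11 + c 4 * 12 + c 5 * 3, c 0 * 7 + c 1 * 8 + c 2 * 2 + c 3 * 11 + c 4 * 7 + c 5 * 10, c 0 * 6 + c 1 * 6 + c 2 * 12 + c 3 * 7 + c 4 * 7 + c 5 * 4, c 0 * 5 + c 1 * 6 + c 2 * 12 + c 3 * 3 + c 4 * 2 + c 5 * 4, c 0 * 4 + c 1 * 4 + c 2 * 9 + c 3 * 12 + c 4 * 2 + c 5 * 11, c 0 * 3 + c 1 * 4 + c 2 * 6 + c 3 * 12 + c 4 * 10 + c 5 * 5, c 0 * 2 + c 1 * 2 + c 2 * 6 + c 3 * 8 + c 4 * 5 + c 5 * 12, c 0 * 1 + c 1 * 2 + c 2 * 3 + c 3 * 4 + c 4 * 5 + c 5 * 6] : Fin 11 → ZMod 13) i = 0 := by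
    apply hli'
    have hc2 := hc
    rw [Fin.sum_univ_six, e0, e1, e2, e3, e4, e5] at hc2
    simp only [Algebra.smul_def] at hc2
    simp [Fin.sum_univ_succ, Algebra.smul_def, map_ofNat]
    linear_combination hc2
  have hpz : (13 : ZMod 13) = 0 := by decide
  have hz0 := hzero 0
  have hz1 := hzero 1
  have hz2 := hzero 2
  have hz3 := hzero 3
  have hz4 := hzero 4
  have hz5 := hzero 5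
  simp at hz0 hz1 hz2 hz3 hz4 hz5
  intro i
  fin_cases i
  · show c 0 = 0
    linear_combination 10 * hz0 + 1 * hz1 + 1 * hz2 + 1 * hz3 + 1 * hz4 + 0 * hz5 - (11 * c 0 + 12 * c 1 + 10 * c 2 + 10 * c 3 + 9 * c 4 + 8 * c 5) * hpz
  · show c 1 = 0
    linear_combination 0 * hz0 + 6 * hz1 + 7 * hz2 + 0 * hz3 + 7 * hz4 + 6 * hz5 - (16 * c 0 + 17 * c 1 + 13 * c 2 + 13 * c 3 + 11 * c 4 + 13 * c 5) * hpz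
  · show c 2 = 0
    linear_combination 9 * hz0 + 4 * hz1 + 4 * hz2 + 9 * hz3 + 0 * hz4 + 0 * hz5 - (19 * c 0 + 20 * c 1 + 15 * c 2 + 17 * c 3 + 17 * c 4 + 11 * c 5) * hpz
  · show c 3 = 0
    linear_combination 10 * hz0 + 0 * hz1 + 3 * hz2 + 3 * hz3 + 0 * hz4 + 10 * hz5 - (17 * c 0 + 18 * c 1 + 20 * c 2 + 16 * c 3 + 16 * c 4 + 12 * c 5) * hpz
  · show c 4 = 0
    linear_combination 8 * hz0 + 5 * hz1 + 0 * hz2 + 0 * hz3 + 5 * hz4 + 8 * hz5 - (17 * c 0 + 18 * c 1 + 18 * c 2 + 17 * c 3 + 14 * c 4 + 12 * c 5) * hpz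
  · show c 5 = 0
    linear_combination 11 * hz0 + 11 * hz1 + 0 * hz2 + 2 * hz3 + 2 * hz4 + 2 * hz5 - (21 * c 0 + 22 * c 1 + 19 * c 2 + 18 * c 3 + 15 * c 4 + 11 * c 5) * hpz

end Fermat.Agent.S10.H68

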