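import Mathlib

set_option autoImplicit false

namespace Fermat.Agent.S10.H68

/-- Independence certificate for the logarithmic derivatives of the cyclotomic units, `p = 7`. -/
theorem dlog_indep_7 {R : Type*} [CommRing R] [Algebra (ZMod 7) R] (y : R)
    (hy : (y - 1) ^ 5 = 0)
    (hli : LinearIndependent (ZMod 7) (fun i : Fin 5 => y ^ (i : ℕ)))
    (a : Fin 3 → R) (h0 : y * a 0 = 1)
    (hk : ∀ k : Fin 3, (k : ℕ) ≠ 0 →
      (∑ j ∈ Finset.range ((k : ℕ) + 1), y ^ j) * a k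
        = ∑ j ∈ Finset.range ((k : ℕ) + 1), (j : R) * y ^ (j - 1)) :
    LinearIndependent (ZMod 7) a := by
  have hp : ((7 : ℕ) : R) = 0 := by
    have h : algebraMap (ZMod 7) R ((7 : ℕ) : ZMod 7) = 0 := by
      rw [show ((7 : ℕ) : ZMod 7) = 0 from by decide, map_zero]
    rwa [map_natCast] at h
  have hp' : (7 : R) = 0 := by exact_mod_cast hp
  have hk0 : y * a 0 = 1 := h0
  have e0 : a 0 = 5 + 4 * y + 3 * y ^ 2 + 2 * y ^ 3 + y ^ 4 := by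
    linear_combination (5 + 4 * y + 3 * y ^ 2 + 2 * y ^ 3 + y ^ 4) * hk0
      - (a 0 * (1) - (0)) * hy
      - (a 0 * (2 * y ^ 2 - y ^ 3 + y ^ 4) - (0)) * hp'
  have hk1 := hk 1 (by decide)
  norm_num [Finset.sum_range_succ] at hk1
  have e1 : a 1 = 6 + 4 * y + 4 * y ^ 2 + 2 * y ^ 3 + 2 * y ^ 4 := by
    linear_combination (6 + 4 * y + 4 * y ^ 2 + 2 * y ^ 3 + 2 * y ^ 4) * hk1
      - (a 1 * (2) - (0)) * hy
      - (a 1 * (1 + 4 * y ^ 2 - 2 * y ^ 3 + 2 * y ^ 4) - (0)) * hp'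
  have hk2 := hk 2 (by decide)
  norm_num [Finset.sum_range_succ] at hk2
  have e2 : a 2 = 5 + 2 * y + 6 * y ^ 2 + 6 * y ^ 3 + 3 * y ^ 4 := by
    linear_combination (6 * y + 6 * y ^ 4) * hk2
      - (a 2 * (36 + 6 * y) - (12)) * hy
      - (a 2 * (5 - 24 * y + 48 * y ^ 2 - 42 * y ^ 3 + 18 * y ^ 4) - (1 - 8 * y + 18 * y ^ 2 - 18 * y ^ 3 + 9 * y ^ 4)) * hp'
  rw [Fintype.linearIndependent_iff]
  intro c hc
  have hli' := Fintype.linearIndependent_iff.mp hli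
    ![c 0 * 5 + c 1 * 6 + c 2 * 5, c 0 * 4 + c 1 * 4 + c 2 * 2, c 0 * 3 + c 1 * 4 + c 2 * 6, c 0 * 2 + c 1 * 2 + c 2 * 6, c 0 * 1 + c 1 * 2 + c 2 * 3]
  have hzero : ∀ i : Fin 5, (![c 0 * 5 + c 1 * 6 + c 2 * 5, c 0 * 4 + c 1 * 4 + c 2 * 2, c 0 * 3 + c 1 * 4 + c 2 * 6, c 0 * 2 + c 1 * 2 + c 2 * 6, c 0 * 1 + c 1 * 2 + c 2 * 3] : Fin 5 → ZMod 7) i = 0 := by
    apply hli'
    have hc2 := hc
    rw [Fin.sum_univ_three, e0, e1, e2] at hc2
    simp only [Algebra.smul_def] at hc2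
    simp [Fin.sum_univ_succ, Algebra.smul_def, map_ofNat]
    linear_combination hc2
  have hpz : (7 : ZMod 7) = 0 := by decide
  have hz0 := hzero 0
  have hz1 := hzero 1
  have hz2 := hzero 2
  simp at hz0 hz1 hz2
  intro i
  fin_cases i
  · show c 0 = 0
    linear_combination 5 * hz0 + 2 * hz1 + 1 * hz2 - (5 * c 0 + 6 * c 1 + 5 * c 2) * hpz
  · show c 1 = 0
    linear_combination 4 * hz0 + 6 * hz1 + 4 * hz2 - (8 * c 0 + 9 * c 1 + 8 * c 2) * hpz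
  · show c 2 = 0
    linear_combination 3 * hz0 + 2 * hz1 + 4 * hz2 - (5 * c 0 + 6 * c 1 + 6 * c 2) * hpz

end Fermat.Agent.S10.H68

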