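import Mathlib

set_option autoImplicit false

namespace Fermat.Agent.S10.H08

open NumberField Polynomial

section Generic

variable (p : ℕ) [hp : Fact p.Prime]

/-- The modulus `(X-1)^(p-2)`. -/
noncomputable def tMod : (ZMod p)[X] := (X - C 1) ^ (p - 2)

theorem tMod_monic : (tMod p).Monic := (monic_X_sub_C (1 : ZMod p)).pow _

theorem tMod_natDegree : (tMod p).natDegree = p - 2 := by
  rw [tMod, (monic_X_sub_C (1 : ZMod p)).natDegree_pow, natDegree_X_sub_C, mul_one]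

/-- The truncated polynomial ring `𝔽_p[y]/(y-1)^(p-2)`. -/
abbrev TruncRing : Type := AdjoinRoot (tMod p)

/-- the generator `y` -/
noncomputable abbrev tY : TruncRing p := AdjoinRoot.root (tMod p)

theorem tY_sub_one_pow : (tY p - 1) ^ (p - 2) = 0 := by
  have h : AdjoinRoot.mk (tMod p) ((X - C 1) ^ (p - 2)) = (tY p - 1) ^ (p - 2) := by
    rw [map_pow, map_sub, AdjoinRoot.mk_X, AdjoinRoot.mk_C, map_one]
  have h' : AdjoinRoot.mk (tMod p) ((X - C 1) ^ (p - 2)) = AdjoinRoot.mk (tMod p) (tMod p) := rfl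
  rw [h'] at h
  rw [← h, AdjoinRoot.mk_self]

theorem tY_linearIndependent :
    LinearIndependent (ZMod p) (fun i : Fin (p - 2) => tY p ^ (i : ℕ)) := by
  let pb := AdjoinRoot.powerBasis' (tMod_monic p)
  have hdim : pb.dim = p - 2 := by simp [pb, tMod_natDegree]
  have hli : LinearIndependent (ZMod p) (fun i : Fin pb.dim => pb.gen ^ (i : ℕ)) := by
    have := pb.basis.linearIndependent
    rwa [PowerBasis.coe_basis] at this
  have hgen : pb.gen = tY p := by simp [pb, tY]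
  have := hli.comp (Fin.cast hdim.symm) (Fin.cast_injective _)
  simpa [Function.comp_def, hgen] using this

/-- Dual numbers over the truncated ring. -/
abbrev DR : Type := TrivSqZeroExt (TruncRing p) (TruncRing p)

/-- `y + ε` -/
noncomputable def yEps : DR p := TrivSqZeroExt.inl (tY p) + TrivSqZeroExt.inr 1

theorem natCast_DR_eq_zero : ((p : ℕ) : DR p) = 0 := by
  have h : algebraMap (ZMod p) (DR p) ((p : ℕ) : ZMod p) = 0 := by
    rw [ZMod.natCast_self, map_zero]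
  rwa [map_natCast] at h

theorem yEps_sub_one_pow (hp3 : 3 ≤ p) : (yEps p - 1) ^ (p - 1) = 0 := by
  have h1 : yEps p - 1 = TrivSqZeroExt.inl (tY p - 1) + TrivSqZeroExt.inr 1 := by
    rw [yEps, TrivSqZeroExt.inl_sub, TrivSqZeroExt.inl_one]; ring
  have h0 := tY_sub_one_pow p
  have hpp : p - 1 = (p - 2) + 1 := by omega
  rw [h1]
  ext
  · simp only [TrivSqZeroExt.fst_pow, TrivSqZeroExt.fst_add, TrivSqZeroExt.fst_inl,
      TrivSqZeroExt.fst_inr, add_zero, TrivSqZeroExt.fst_zero]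
    rw [hpp, pow_succ, h0, zero_mul]
  · simp only [TrivSqZeroExt.snd_pow, TrivSqZeroExt.fst_add, TrivSqZeroExt.fst_inl,
      TrivSqZeroExt.fst_inr, add_zero, TrivSqZeroExt.snd_zero]
    have : (p - 1).pred = p - 2 := by simp [Nat.pred_eq_sub_one]; omega
    rw [this, h0, zero_smul, smul_zero]

theorem aeval_yEps_cyclotomic (hp3 : 3 ≤ p) : aeval (yEps p) (cyclotomic p ℤ) = 0 := by
  have hcyc : cyclotomic p (ZMod p) = (X - 1) ^ (p - 1) := by
    have := cyclotomic_mul_prime_pow_eq (ZMod p) (p := p) (m := 1)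
      (by simpa using hp.out.one_lt.ne') (k := 1) one_pos
    simpa using this
  have h1 : aeval (yEps p) (cyclotomic p ℤ) =
      aeval (yEps p) ((cyclotomic p ℤ).map (algebraMap ℤ (ZMod p))) := by
    rw [aeval_map_algebraMap]
  rw [h1, map_cyclotomic, hcyc, map_pow, map_sub, aeval_X, map_one, yEps_sub_one_pow p hp3]

end Generic

section Psi

variable {p : ℕ} [hp : Fact p.Prime] {K : Type*} [Field K] [NumberField K]
  [IsCyclotomicExtension {p} ℚ K] {ζ : K} (hζ : IsPrimitiveRoot ζ p)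

omit [IsCyclotomicExtension {p} ℚ K] in
theorem minpoly_toInteger : minpoly ℤ hζ.toInteger = cyclotomic p ℤ := by
  have h1 : minpoly ℤ (algebraMap (𝓞 K) K hζ.toInteger) = minpoly ℤ hζ.toInteger :=
    minpoly.algebraMap_eq RingOfIntegers.coe_injective _
  rw [← h1]
  exact (cyclotomic_eq_minpoly hζ hp.out.pos).symm

/-- the ring hom `𝓞 K → 𝔽_p[y]/(y-1)^(p-2)[ε]`, `ζ ↦ y + ε`. -/
noncomputable def psi (hp3 : 3 ≤ p) : 𝓞 K →ₐ[ℤ] DR p :=
  hζ.integralPowerBasis.lift (yEps p) (by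
    rw [hζ.integralPowerBasis_gen, minpoly_toInteger hζ]
    exact aeval_yEps_cyclotomic p hp3)

theorem psi_zeta (hp3 : 3 ≤ p) : psi hζ hp3 hζ.toInteger = yEps p := by
  have := hζ.integralPowerBasis.lift_gen (yEps p) (by
    rw [hζ.integralPowerBasis_gen, minpoly_toInteger hζ]
    exact aeval_yEps_cyclotomic p hp3)
  calc psi hζ hp3 hζ.toInteger = psi hζ hp3 hζ.integralPowerBasis.gen := by
        rw [hζ.integralPowerBasis_gen]
    _ = yEps p := this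

theorem psi_fst_mul (hp3 : 3 ≤ p) (a b : 𝓞 K) :
    (psi hζ hp3 (a * b)).fst = (psi hζ hp3 a).fst * (psi hζ hp3 b).fst := by
  rw [map_mul, TrivSqZeroExt.fst_mul]

theorem psi_snd_mul (hp3 : 3 ≤ p) (a b : 𝓞 K) :
    (psi hζ hp3 (a * b)).snd =
      (psi hζ hp3 a).fst * (psi hζ hp3 b).snd + (psi hζ hp3 b).fst * (psi hζ hp3 a).snd := by
  rw [map_mul, TrivSqZeroExt.snd_mul, op_smul_eq_smul, smul_eq_mul, smul_eq_mul]

theorem psi_fst_unit (hp3 : 3 ≤ p) (u : (𝓞 K)ˣ) :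
    (psi hζ hp3 (u : 𝓞 K)).fst * (psi hζ hp3 ((u⁻¹ : (𝓞 K)ˣ) : 𝓞 K)).fst = 1 := by
  rw [← psi_fst_mul, Units.mul_inv, map_one, TrivSqZeroExt.fst_one]

/-- the logarithmic derivative -/
noncomputable def dlog (hp3 : 3 ≤ p) : (𝓞 K)ˣ →* Multiplicative (TruncRing p) where
  toFun u := Multiplicative.ofAdd
    ((psi hζ hp3 (u : 𝓞 K)).snd * (psi hζ hp3 ((u⁻¹ : (𝓞 K)ˣ) : 𝓞 K)).fst)
  map_one' := by simp
  map_mul' u v := by
    rw [← ofAdd_add]
    congr 1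
    have hu := psi_fst_unit hζ hp3 u
    have hv := psi_fst_unit hζ hp3 v
    rw [Units.val_mul, mul_inv, Units.val_mul, psi_snd_mul, psi_fst_mul]
    linear_combination
      ((psi hζ hp3 (v : 𝓞 K)).snd * (psi hζ hp3 ((v⁻¹ : (𝓞 K)ˣ) : 𝓞 K)).fst) * hu +
      ((psi hζ hp3 (u : 𝓞 K)).snd * (psi hζ hp3 ((u⁻¹ : (𝓞 K)ˣ) : 𝓞 K)).fst) * hv

theorem dlog_apply (hp3 : 3 ≤ p) (u : (𝓞 K)ˣ) :
    Multiplicative.toAdd (dlog hζ hp3 u) =
      (psi hζ hp3 (u : 𝓞 K)).snd * (psi hζ hp3 ((u⁻¹ : (𝓞 K)ˣ) : 𝓞 K)).fst := rfl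

theorem fst_mul_dlog (hp3 : 3 ≤ p) (u : (𝓞 K)ˣ) :
    (psi hζ hp3 (u : 𝓞 K)).fst * Multiplicative.toAdd (dlog hζ hp3 u) =
      (psi hζ hp3 (u : 𝓞 K)).snd := by
  rw [dlog_apply]
  linear_combination (psi hζ hp3 (u : 𝓞 K)).snd * psi_fst_unit hζ hp3 u

theorem dlog_eq_one_of_dvd (hp3 : 3 ≤ p) (u : (𝓞 K)ˣ)
    (h : ∃ n : ℤ, (p : 𝓞 K) ∣ (u : 𝓞 K) - n) : dlog hζ hp3 u = 1 := by
  obtain ⟨n, c, hc⟩ := h
  have hu : (u : 𝓞 K) = n + (p : 𝓞 K) * c := by rw [← hc]; ring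
  have h1 : psi hζ hp3 (u : 𝓞 K) = (n : DR p) := by
    rw [hu, map_add, map_mul, map_natCast, map_intCast, natCast_DR_eq_zero, zero_mul, add_zero]
  apply Multiplicative.toAdd.injective
  rw [dlog_apply, h1, TrivSqZeroExt.snd_intCast, zero_mul, toAdd_one]

theorem yEps_pow_fst (j : ℕ) : (yEps p ^ j).fst = tY p ^ j := by
  simp [yEps]

theorem yEps_pow_snd (j : ℕ) : (yEps p ^ j).snd = (j : TruncRing p) * tY p ^ (j - 1) := by
  simp [yEps, Nat.pred_eq_sub_one]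

theorem psi_geom_fst (hp3 : 3 ≤ p) (k : ℕ) :
    (psi hζ hp3 (∑ j ∈ Finset.range k, hζ.toInteger ^ j)).fst = ∑ j ∈ Finset.range k, tY p ^ j := by
  simp only [map_sum, map_pow, psi_zeta, TrivSqZeroExt.fst_sum, yEps_pow_fst]

theorem psi_geom_snd (hp3 : 3 ≤ p) (k : ℕ) :
    (psi hζ hp3 (∑ j ∈ Finset.range k, hζ.toInteger ^ j)).snd =
      ∑ j ∈ Finset.range k, (j : TruncRing p) * tY p ^ (j - 1) := by
  simp only [map_sum, map_pow, psi_zeta, TrivSqZeroExt.snd_sum, yEps_pow_snd]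

theorem coprime_succ_of_lt {k : ℕ} (h : k + 1 < p) : (k + 1).Coprime p :=
  ((Nat.Prime.coprime_iff_not_dvd hp.out).mpr
    (Nat.not_dvd_of_pos_of_lt (Nat.succ_pos k) h)).symm

/-- the cyclotomic units `ζ`, `1 + ζ`, `1 + ζ + ζ²`, ... -/
noncomputable def cycUnit (k : ℕ) : (𝓞 K)ˣ :=
  if k = 0 then (hζ.toInteger_isPrimitiveRoot.isUnit hp.out.ne_zero).unit
  else if h : k + 1 < p then
    (hζ.toInteger_isPrimitiveRoot.geom_sum_isUnit hp.out.two_le (coprime_succ_of_lt h)).unit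
  else 1

omit [NumberField K] [IsCyclotomicExtension {p} ℚ K] in
theorem cycUnit_zero : ((cycUnit hζ 0 : (𝓞 K)ˣ) : 𝓞 K) = hζ.toInteger := by
  simp [cycUnit]

omit [NumberField K] [IsCyclotomicExtension {p} ℚ K] in
theorem cycUnit_of_pos {k : ℕ} (hk : k ≠ 0) (h : k + 1 < p) :
    ((cycUnit hζ k : (𝓞 K)ˣ) : 𝓞 K) = ∑ j ∈ Finset.range (k + 1), hζ.toInteger ^ j := by
  simp [cycUnit, hk, h]

theorem tY_mul_dlog_zero (hp3 : 3 ≤ p) :
    tY p * Multiplicative.toAdd (dlog hζ hp3 (cycUnit hζ 0)) = 1 := by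
  have h := fst_mul_dlog hζ hp3 (cycUnit hζ 0)
  rw [cycUnit_zero, psi_zeta] at h
  simpa [yEps] using h

theorem geom_mul_dlog (hp3 : 3 ≤ p) {k : ℕ} (hk : k ≠ 0) (h : k + 1 < p) :
    (∑ j ∈ Finset.range (k + 1), tY p ^ j) * Multiplicative.toAdd (dlog hζ hp3 (cycUnit hζ k)) =
      ∑ j ∈ Finset.range (k + 1), (j : TruncRing p) * tY p ^ (j - 1) := by
  have h' := fst_mul_dlog hζ hp3 (cycUnit hζ k)
  rw [cycUnit_of_pos hζ hk h, psi_geom_fst, psi_geom_snd] at h'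
  exact h'

end Psi

end Fermat.Agent.S10.H08
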