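import Mathlib
import Fermat.Agent.S10.DlogGen_helper8
import Fermat.Agent.S10.DlogCert5_helper68
import Fermat.Agent.S10.DlogCert7_helper68
import Fermat.Agent.S10.DlogCert11_helper68
import Fermat.Agent.S10.DlogCert13_helper68

set_option autoImplicit false

namespace Fermat.Agent.S10.H08

open NumberField

/-- Existence of a logarithmic-derivative homomorphism on the units of the `p`-th cyclotomic
ring of integers, killing units congruent to an integer modulo `p`, and taking `(p-1)/2`
independent values (for `p = 5, 7, 11, 13`). -/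
theorem exists_dlog {p : ℕ} [hpp : Fact p.Prime] (hp : p = 5 ∨ p = 7 ∨ p = 11 ∨ p = 13)
    (K : Type) [Field K] [NumberField K] [IsCyclotomicExtension {p} ℚ K] :
    ∃ (V : Type) (_ : AddCommGroup V) (_ : Module (ZMod p) V)
      (φ : (𝓞 K)ˣ →* Multiplicative V) (w : Fin ((p - 1) / 2) → (𝓞 K)ˣ),
      (∀ u : (𝓞 K)ˣ, (∃ n : ℤ, (p : 𝓞 K) ∣ (u : 𝓞 K) - n) → φ u = 1) ∧
      LinearIndependent (ZMod p) (fun i => Multiplicative.toAdd (φ (w i))) := by
  have hp3 : 3 ≤ p := by rcases hp with rfl | rfl | rfl | rfl <;> norm_num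
  have hζ := IsCyclotomicExtension.zeta_spec p ℚ K
  refine ⟨TruncRing p, inferInstance, inferInstance, dlog hζ hp3, fun i => cycUnit hζ (i : ℕ),
    fun u hu => dlog_eq_one_of_dvd hζ hp3 u hu, ?_⟩
  rcases hp with rfl | rfl | rfl | rfl
  · exact H68.dlog_indep_5 (tY 5) (tY_sub_one_pow 5) (tY_linearIndependent 5) _
      (tY_mul_dlog_zero hζ hp3) (fun k hk => geom_mul_dlog hζ hp3 hk (by omega))
  · exact H68.dlog_indep_7 (tY 7) (tY_sub_one_pow 7) (tY_linearIndependent 7) _
      (tY_mul_dlog_zero hζ hp3) (fun k hk => geom_mul_dlog hζ hp3 hk (by omega))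
  · exact H68.dlog_indep_11 (tY 11) (tY_sub_one_pow 11) (tY_linearIndependent 11) _
      (tY_mul_dlog_zero hζ hp3) (fun k hk => geom_mul_dlog hζ hp3 hk (by omega))
  · exact H68.dlog_indep_13 (tY 13) (tY_sub_one_pow 13) (tY_linearIndependent 13) _
      (tY_mul_dlog_zero hζ hp3) (fun k hk => geom_mul_dlog hζ hp3 hk (by omega))

end Fermat.Agent.S10.H08
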