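import Mathlib

open Polynomial Finset

namespace Fermat.Agent.S10.H60

section Descent

variable {O : Type*} [CommRing O] [IsDomain O] {p : ℕ} {ζ : O}

/-- The descent predicate. -/
def Sol (p : ℕ) (ζ : O) (m : ℕ) : Prop :=
  ∃ x y z : O, ∃ ε : Oˣ, IsCoprime x y ∧ ¬ (ζ - 1) ∣ z ∧
    x ^ p + y ^ p = ε * ((ζ - 1) ^ m * z) ^ p

theorem all_dvd (hp : p.Prime) (hp2 : p ≠ 2) (hζ : IsPrimitiveRoot ζ p) (hl : Prime (ζ - 1))
    {x y : O} (h : ζ - 1 ∣ x ^ p + y ^ p) :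
    ∀ η ∈ nthRootsFinset p (1 : O), ζ - 1 ∣ x + η * y := by
  have hodd : Odd p := hp.odd_of_ne_two hp2
  rw [hζ.pow_add_pow_eq_prod_add_mul x y hodd] at h
  obtain ⟨η₁, hη₁, h1⟩ := hl.exists_mem_finset_dvd h
  intro η hη
  have h2 : ζ - 1 ∣ η - η₁ := hζ.sub_one_dvd_sub hp hη hη₁
  have : x + η * y = (x + η₁ * y) + (η - η₁) * y := by ring
  rw [this]
  exact dvd_add h1 (dvd_mul_of_dvd_left h2 _)

theorem exists_pow_of_prod [IsPrincipalIdealRing O] {ι : Type*} [DecidableEq ι]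
    {s : Finset ι} {f : ι → O} {w : O} {ε : Oˣ} {k : ℕ}
    (hcop : ∀ i ∈ s, ∀ j ∈ s, i ≠ j → IsCoprime (f i) (f j))
    (hprod : ∏ i ∈ s, f i = ε * w ^ k) : ∀ i ∈ s, ∃ d : O, ∃ u : Oˣ, f i = u * d ^ k := by
  intro i hi
  have h1 : f i * ∏ j ∈ s.erase i, f j = ε * w ^ k := by
    rw [Finset.mul_prod_erase s f hi, hprod]
  have h2 : IsCoprime (f i) (∏ j ∈ s.erase i, f j) :=
    IsCoprime.prod_right fun j hj =>
      hcop i hi j (Finset.mem_of_mem_erase hj) (Finset.ne_of_mem_erase hj).symm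
  have h3 : Associated (w ^ k) (f i * ∏ j ∈ s.erase i, f j) := ⟨ε, by rw [h1]; ring⟩
  obtain ⟨d, u, hu⟩ := exists_associated_pow_of_associated_pow_mul h2 h3
  exact ⟨d, u, by rw [← hu]; ring⟩

theorem exists_sq_dvd (hp : p.Prime) (hζ : IsPrimitiveRoot ζ p) (hl : Prime (ζ - 1))
    (hcard : Nat.card (O ⧸ Ideal.span {ζ - 1}) = p)
    {x y : O} (hy : ¬ ζ - 1 ∣ y)
    (hall : ∀ η ∈ nthRootsFinset p (1 : O), ζ - 1 ∣ x + η * y) :
    ∃ η ∈ nthRootsFinset p (1 : O), (ζ - 1) ^ 2 ∣ x + η * y := by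
  classical
  choose! c hc using hall
  have hfin : Finite (O ⧸ Ideal.span {ζ - 1}) :=
    Nat.finite_of_card_ne_zero (by rw [hcard]; exact hp.ne_zero)
  let := Fintype.ofFinite (O ⧸ Ideal.span {ζ - 1})
  let g : O → O ⧸ Ideal.span {ζ - 1} := fun η => Ideal.Quotient.mk _ (c η)
  have hinj : Set.InjOn g (nthRootsFinset p (1 : O)) := by
    intro η hη η' hη' hgg
    by_contra hne
    obtain ⟨u, hu⟩ := hζ.nthRootsFinset_pairwise_associated_sub_one_sub_of_prime hp hη hη' hne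
    have h1 : ζ - 1 ∣ c η - c η' := by
      rw [← Ideal.mem_span_singleton, ← Ideal.Quotient.eq]
      exact hgg
    have h2 : (ζ - 1) * (c η - c η') = (ζ - 1) * (u * y) := by
      have e1 := hc η hη
      have e2 := hc η' hη'
      linear_combination e2 - e1 - y * hu
    have h3 : c η - c η' = u * y := mul_left_cancel₀ hl.ne_zero h2
    rw [h3] at h1
    exact hy ((Units.dvd_mul_left).mp h1)
  have hcardmu : (nthRootsFinset p (1 : O)).card = p := hζ.card_nthRootsFinset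
  have hsurj : Set.SurjOn g (nthRootsFinset p (1 : O)) (Finset.univ : Finset (O ⧸ Ideal.span {ζ - 1})) := by
    apply Finset.surjOn_of_injOn_of_card_le g
    · intro a _; simp
    · exact hinj
    · rw [hcardmu, Finset.card_univ, ← Nat.card_eq_fintype_card, hcard]
  obtain ⟨η, hη, hgη⟩ := hsurj (Finset.mem_coe.mpr (Finset.mem_univ (0 : O ⧸ Ideal.span {ζ - 1})))
  refine ⟨η, hη, ?_⟩
  have h1 : ζ - 1 ∣ c η := by
    rw [← Ideal.mem_span_singleton, ← Ideal.Quotient.eq_zero_iff_mem]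
    exact hgη
  rw [hc η hη, pow_two]
  exact mul_dvd_mul_left _ h1

theorem descent_step [IsPrincipalIdealRing O] (hp : p.Prime) (hp2 : p ≠ 2)
    (hζ : IsPrimitiveRoot ζ p) (hl : Prime (ζ - 1))
    (hass : Associated ((ζ - 1) ^ (p - 1)) (p : O))
    (hpow : ∀ x : O, ∃ n : ℤ, (p : O) ∣ x ^ p - n)
    (hK : ∀ u : Oˣ, (∃ n : ℤ, (p : O) ∣ (u : O) - n) → ∃ v : Oˣ, u = v ^ p)
    {x y z : O} {ε : Oˣ} {m : ℕ} (hm : 1 ≤ m) (hxy : IsCoprime x y) (hz : ¬ ζ - 1 ∣ z)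
    (hy : ¬ ζ - 1 ∣ y) (hsq : (ζ - 1) ^ 2 ∣ x + y)
    (h : x ^ p + y ^ p = ε * ((ζ - 1) ^ m * z) ^ p) :
    2 ≤ m ∧ Sol p ζ (m - 1) := by
  classical
  have hodd : Odd p := hp.odd_of_ne_two hp2
  have hppos : 0 < p := hp.pos
  have h1mem : (1 : O) ∈ nthRootsFinset p (1 : O) := by
    rw [mem_nthRootsFinset hppos]; exact one_pow p
  have hdvd : ζ - 1 ∣ x ^ p + y ^ p := by
    rw [h]
    exact dvd_mul_of_dvd_right
      (dvd_pow (dvd_mul_of_dvd_left (dvd_pow_self _ (by omega)) _) hp.ne_zero) _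
  have hall := all_dvd hp hp2 hζ hl hdvd
  choose! c hc using hall
  have hc1 : ζ - 1 ∣ c 1 := by
    have h1 := hc 1 h1mem
    rw [one_mul] at h1
    rw [h1, pow_two] at hsq
    exact (mul_dvd_mul_iff_left hl.ne_zero).mp hsq
  have hcη : ∀ η ∈ nthRootsFinset p (1 : O), η ≠ 1 → ¬ ζ - 1 ∣ c η := by
    intro η hη hne hdiv
    obtain ⟨u, hu⟩ :=
      hζ.nthRootsFinset_pairwise_associated_sub_one_sub_of_prime hp hη h1mem hne
    have e1 := hc η hη
    have e2 := hc 1 h1mem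
    have h3 : c η - c 1 = u * y :=
      mul_left_cancel₀ hl.ne_zero (by linear_combination e2 - e1 - y * hu)
    have h4 : ζ - 1 ∣ (u : O) * y := h3 ▸ dvd_sub hdiv hc1
    exact hy ((Units.dvd_mul_left).mp h4)
  have hcop : ∀ η ∈ nthRootsFinset p (1 : O), ∀ η' ∈ nthRootsFinset p (1 : O), η ≠ η' →
      IsCoprime (c η) (c η') := by
    intro η hη η' hη' hne
    obtain ⟨u, hu⟩ :=
      hζ.nthRootsFinset_pairwise_associated_sub_one_sub_of_prime hp hη hη' hne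
    have e1 := hc η hη
    have e2 := hc η' hη'
    have h3 : c η - c η' = u * y :=
      mul_left_cancel₀ hl.ne_zero (by linear_combination e2 - e1 - y * hu)
    have h4 : η' * c η - η * c η' = - (u * x) :=
      mul_left_cancel₀ hl.ne_zero (by linear_combination (-η') * e1 + η * e2 + x * hu)
    obtain ⟨a, b, hab⟩ := hxy
    refine ⟨-(a * ↑u⁻¹ * η') + b * ↑u⁻¹, a * ↑u⁻¹ * η - b * ↑u⁻¹, ?_⟩
    have hu1 : (u : O) * ↑u⁻¹ = 1 := u.mul_inv
    linear_combination (-(a * ↑u⁻¹)) * h4 + (b * ↑u⁻¹) * h3 + (a * x + b * y) * hu1 + hab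
  have hcard : (nthRootsFinset p (1 : O)).card = p := hζ.card_nthRootsFinset
  have hprod : ∏ η ∈ nthRootsFinset p (1 : O), c η = ε * ((ζ - 1) ^ (m - 1) * z) ^ p := by
    have h0 : (ζ - 1) ^ p = ∏ _η ∈ nthRootsFinset p (1 : O), (ζ - 1) := by
      rw [Finset.prod_const, hcard]
    have h1 : ∏ η ∈ nthRootsFinset p (1 : O), (x + η * y) =
        (ζ - 1) ^ p * ∏ η ∈ nthRootsFinset p (1 : O), c η := by
      rw [h0, ← Finset.prod_mul_distrib]
      exact Finset.prod_congr rfl (fun η hη => hc η hη)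
    have h2 : x ^ p + y ^ p = ∏ η ∈ nthRootsFinset p (1 : O), (x + η * y) :=
      hζ.pow_add_pow_eq_prod_add_mul x y hodd
    have h3 : (ζ - 1) ^ p * ∏ η ∈ nthRootsFinset p (1 : O), c η =
        (ζ - 1) ^ p * (ε * ((ζ - 1) ^ (m - 1) * z) ^ p) := by
      rw [← h1, ← h2, h]
      obtain ⟨k, rfl⟩ : ∃ k, m = k + 1 := ⟨m - 1, by omega⟩
      simp only [Nat.add_sub_cancel]
      generalize ζ - 1 = l
      ring
    exact mul_left_cancel₀ (pow_ne_zero _ hl.ne_zero) h3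
  have hm2 : 2 ≤ m := by
    by_contra hlt
    have hm1 : m = 1 := by omega
    subst hm1
    have h5 : ζ - 1 ∣ ∏ η ∈ nthRootsFinset p (1 : O), c η :=
      dvd_trans hc1 (Finset.dvd_prod_of_mem c h1mem)
    rw [hprod] at h5
    simp only [Nat.sub_self, pow_zero, one_mul] at h5
    exact hz (hl.dvd_of_dvd_pow ((Units.dvd_mul_left).mp h5))
  refine ⟨hm2, ?_⟩
  set Q := ∏ η ∈ (nthRootsFinset p (1 : O)).erase 1, c η with hQ
  have hprod' : c 1 * Q = ε * ((ζ - 1) ^ (m - 1) * z) ^ p := by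
    rw [hQ, Finset.mul_prod_erase _ c h1mem, hprod]
  have hQl : ¬ ζ - 1 ∣ Q := by
    intro hdiv
    obtain ⟨η, hη, hdη⟩ := hl.exists_mem_finset_dvd hdiv
    exact hcη η (Finset.mem_of_mem_erase hη) (Finset.ne_of_mem_erase hη) hdη
  have hlc1 : (ζ - 1) ^ ((m - 1) * p) ∣ c 1 := by
    apply hl.pow_dvd_of_dvd_mul_right _ hQl
    rw [hprod']
    exact ⟨ε * z ^ p, by ring⟩
  obtain ⟨c1', hc1'⟩ := hlc1
  have hprod'' : c1' * Q = ε * z ^ p := by
    apply mul_left_cancel₀ (pow_ne_zero ((m - 1) * p) hl.ne_zero)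
    calc (ζ - 1) ^ ((m - 1) * p) * (c1' * Q) = c 1 * Q := by rw [hc1']; ring
      _ = ε * ((ζ - 1) ^ (m - 1) * z) ^ p := hprod'
      _ = (ζ - 1) ^ ((m - 1) * p) * (ε * z ^ p) := by ring
  have hc1'l : ¬ ζ - 1 ∣ c1' := by
    intro hdiv
    have h6 : ζ - 1 ∣ (ε : O) * z ^ p := hprod'' ▸ dvd_mul_of_dvd_left hdiv Q
    exact hz (hl.dvd_of_dvd_pow ((Units.dvd_mul_left).mp h6))
  -- the modified family
  set f : O → O := Function.update c 1 c1' with hf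
  have hf1 : f 1 = c1' := by rw [hf, Function.update_self]
  have hfη : ∀ η, η ≠ 1 → f η = c η := fun η hη => by rw [hf, Function.update_of_ne hη]
  have hfprod : ∏ η ∈ nthRootsFinset p (1 : O), f η = ε * z ^ p := by
    rw [hf, Finset.prod_update_of_mem h1mem, Finset.sdiff_singleton_eq_erase, ← hQ, hprod'']
  have hfcop : ∀ η ∈ nthRootsFinset p (1 : O), ∀ η' ∈ nthRootsFinset p (1 : O), η ≠ η' →
      IsCoprime (f η) (f η') := by
    intro η hη η' hη' hne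
    have hcc := hcop η hη η' hη' hne
    by_cases h1 : η = 1
    · have h1' : η' ≠ 1 := fun h => hne (h1.trans h.symm)
      rw [h1, hf1, hfη η' h1']
      rw [h1, hc1'] at hcc
      exact hcc.of_mul_left_right
    · by_cases h1' : η' = 1
      · rw [h1', hf1, hfη η h1]
        rw [h1', hc1'] at hcc
        exact hcc.of_mul_right_right
      · rw [hfη η h1, hfη η' h1']
        exact hcc
  have hpowall := exists_pow_of_prod hfcop hfprod
  -- the three roots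
  have hζmem : ζ ∈ nthRootsFinset p (1 : O) := hζ.mem_nthRootsFinset hppos
  have hζ1 : ζ ≠ 1 := hζ.ne_one hp.one_lt
  have hζζ : ζ * ζ ^ (p - 1) = 1 := by rw [mul_pow_sub_one hp.ne_zero, hζ.pow_eq_one]
  have hp3 : 3 ≤ p := by
    have := hp.two_le
    omega
  have hinvmem : ζ ^ (p - 1) ∈ nthRootsFinset p (1 : O) := by
    rw [mem_nthRootsFinset hppos, ← pow_mul, mul_comm, pow_mul, hζ.pow_eq_one, one_pow]
  have hinv1 : ζ ^ (p - 1) ≠ 1 := by
    intro h7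
    have := hζ.dvd_of_pow_eq_one _ h7
    have := Nat.le_of_dvd (by omega) this
    omega
  have hinvζ : ζ ≠ ζ ^ (p - 1) := by
    intro h7
    have h8 : ζ ^ 2 = 1 := by rw [pow_two]; nth_rewrite 2 [h7]; exact hζζ
    have := hζ.dvd_of_pow_eq_one _ h8
    have := Nat.le_of_dvd (by omega) this
    omega
  obtain ⟨d₁, u₁, hd₁⟩ := hpowall ζ hζmem
  obtain ⟨d₂, u₂, hd₂⟩ := hpowall (ζ ^ (p - 1)) hinvmem
  obtain ⟨d₀, u₀, hd₀⟩ := hpowall 1 h1mem
  rw [hfη ζ hζ1] at hd₁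
  rw [hfη _ hinv1] at hd₂
  rw [hf1] at hd₀
  -- the linear relation
  have hrel : ζ * c (ζ ^ (p - 1)) + c ζ = (1 + ζ) * c 1 := by
    have e1 := hc ζ hζmem
    have e2 := hc _ hinvmem
    have e0 := hc 1 h1mem
    apply mul_left_cancel₀ hl.ne_zero
    linear_combination (-ζ) * e2 - e1 + (1 + ζ) * e0 + y * hζζ
  obtain ⟨ζu, hζu⟩ := hζ.isUnit hp.ne_zero
  have hsunit : IsUnit (1 + ζ) := by
    have h2p : Nat.Coprime 2 p := (Nat.coprime_primes Nat.prime_two hp).mpr (Ne.symm hp2)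
    have := hζ.geom_sum_isUnit hp.two_le h2p
    simpa [Finset.sum_range_succ] using this
  obtain ⟨su, hsu⟩ := hsunit
  set ε₁ : Oˣ := ζu * u₂ * u₁⁻¹ with hε₁
  set ε₂ : Oˣ := su * u₀ * u₁⁻¹ with hε₂
  have hu1 : (↑u₁⁻¹ : O) * u₁ = 1 := u₁.inv_mul
  have hE : d₁ ^ p + ε₁ * d₂ ^ p = ε₂ * ((ζ - 1) ^ (m - 1) * d₀) ^ p := by
    have hE1 : (ε₁ : O) = ζ * u₂ * ↑u₁⁻¹ := by rw [hε₁]; push_cast; rw [hζu]
    have hE2 : (ε₂ : O) = (1 + ζ) * u₀ * ↑u₁⁻¹ := by rw [hε₂]; push_cast; rw [hsu]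
    rw [hE1, hE2, mul_pow, ← pow_mul]
    rw [hd₁, hd₂, hc1', hd₀] at hrel
    linear_combination (↑u₁⁻¹ : O) * hrel - d₁ ^ p * hu1
  -- mod p
  have hpdvd : (p : O) ∣ d₁ ^ p + ε₁ * d₂ ^ p := by
    rw [hE, mul_pow, ← pow_mul]
    have hle : p - 1 ≤ (m - 1) * p :=
      le_trans (Nat.sub_le p 1) (Nat.le_mul_of_pos_left p (by omega))
    have : (p : O) ∣ (ζ - 1) ^ ((m - 1) * p) := hass.dvd_iff_dvd_left.mp (pow_dvd_pow _ hle)
    exact dvd_mul_of_dvd_right (dvd_mul_of_dvd_left this _) _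
  have hlp : ζ - 1 ∣ (p : O) :=
    dvd_trans (dvd_pow_self _ (by omega)) hass.dvd
  have hd₂l : ¬ ζ - 1 ∣ d₂ := by
    intro hdiv
    apply hcη _ hinvmem hinv1
    rw [hd₂]
    exact dvd_mul_of_dvd_right (dvd_pow hdiv hp.ne_zero) _
  obtain ⟨n₁, r₁, hr₁⟩ := hpow d₁
  obtain ⟨n₂, r₂, hr₂⟩ := hpow d₂
  have hn₂ : ¬ (p : ℤ) ∣ n₂ := by
    rintro ⟨k, hk⟩
    apply hd₂l
    apply hl.dvd_of_dvd_pow (n := p)
    have : d₂ ^ p = (p : O) * (r₂ + k) := by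
      have hk' : (n₂ : O) = (p : O) * k := by rw [hk]; push_cast; ring
      linear_combination hr₂ + hk'
    rw [this]
    exact dvd_mul_of_dvd_left hlp _
  have hcopZ : IsCoprime (p : ℤ) n₂ :=
    (Nat.prime_iff_prime_int.mp hp).coprime_iff_not_dvd.mpr hn₂
  obtain ⟨s, t, hst⟩ := hcopZ
  have hst' : (s : O) * (p : O) + (t : O) * (n₂ : O) = 1 := by exact_mod_cast congrArg (Int.cast : ℤ → O) hst
  obtain ⟨q, hq⟩ := hpdvd
  have hKum : ∃ n : ℤ, (p : O) ∣ (ε₁ : O) - n := by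
    refine ⟨-(t * n₁), t * q - t * r₁ + ε₁ * s - ε₁ * t * r₂, ?_⟩
    push_cast
    linear_combination t * hq - t * hr₁ - ε₁ * t * hr₂ - ε₁ * hst'
  obtain ⟨v, hv⟩ := hK ε₁ hKum
  refine ⟨d₁, v * d₂, d₀, ε₂, ?_, ?_, ?_⟩
  · have hcc := hcop ζ hζmem _ hinvmem hinvζ
    rw [hd₁, hd₂] at hcc
    have h9 : IsCoprime (d₁ ^ p) (d₂ ^ p) :=
      (isCoprime_mul_unit_left_left u₁.isUnit _ _).mp
        ((isCoprime_mul_unit_left_right u₂.isUnit _ _).mp hcc)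
    have h10 : IsCoprime d₁ d₂ := (IsCoprime.pow_iff hppos hppos).mp h9
    exact (isCoprime_mul_unit_left_right v.isUnit _ _).mpr h10
  · intro hdiv
    apply hc1'l
    rw [hd₀]
    exact dvd_mul_of_dvd_right (dvd_pow hdiv hp.ne_zero) _
  · rw [mul_pow, ← hE, hv]
    push_cast
    ring

theorem not_sol [IsPrincipalIdealRing O] (hp : p.Prime) (hp2 : p ≠ 2)
    (hζ : IsPrimitiveRoot ζ p) (hl : Prime (ζ - 1))
    (hass : Associated ((ζ - 1) ^ (p - 1)) (p : O))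
    (hcard : Nat.card (O ⧸ Ideal.span {ζ - 1}) = p)
    (hpow : ∀ x : O, ∃ n : ℤ, (p : O) ∣ x ^ p - n)
    (hK : ∀ u : Oˣ, (∃ n : ℤ, (p : O) ∣ (u : O) - n) → ∃ v : Oˣ, u = v ^ p) :
    ∀ m, 1 ≤ m → ¬ Sol p ζ m := by
  intro m
  induction m with
  | zero => intro h; omega
  | succ k ih =>
    intro _ hsol
    obtain ⟨x, y, z, ε, hxy, hz, h⟩ := hsol
    have h1mem : (1 : O) ∈ nthRootsFinset p (1 : O) := by
      rw [mem_nthRootsFinset hp.pos]; exact one_pow p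
    have hdvd : ζ - 1 ∣ x ^ p + y ^ p := by
      rw [h]
      exact dvd_mul_of_dvd_right
        (dvd_pow (dvd_mul_of_dvd_left (dvd_pow_self _ (by omega)) _) hp.ne_zero) _
    have hall := all_dvd hp hp2 hζ hl hdvd
    have hy : ¬ ζ - 1 ∣ y := by
      intro hdiv
      have h1 := hall 1 h1mem
      have hx : ζ - 1 ∣ x := by
        have h2 : x = (x + 1 * y) - y := by ring
        rw [h2]; exact dvd_sub h1 hdiv
      exact hl.not_isUnit (hxy.isUnit_of_dvd' hx hdiv)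
    obtain ⟨η, hη, hsq⟩ := exists_sq_dvd hp hζ hl hcard hy hall
    have hηp : η ^ p = 1 := (mem_nthRootsFinset hp.pos (1 : O)).mp hη
    have hηu : IsUnit η := IsUnit.of_pow_eq_one hηp hp.ne_zero
    obtain ⟨h2, hsol'⟩ := descent_step hp hp2 hζ hl hass hpow hK (x := x) (y := η * y) (z := z)
      (ε := ε) (m := k + 1) (by omega) ((isCoprime_mul_unit_left_right hηu _ _).mpr hxy) hz
      (fun hd => hy ((hηu.dvd_mul_left).mp hd)) hsq (by rw [mul_pow, hηp, one_mul]; exact h)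
    simp only [Nat.add_sub_cancel] at hsol'
    exact ih (by omega) hsol'

end Descent

end Fermat.Agent.S10.H60
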