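import Mathlib
import Fermat.Agent.S10.CaseIIDescent_helper60

open NumberField Polynomial Finset

namespace Fermat.Agent.S10.H60

section NF

variable {p : ℕ} [hp : Fact p.Prime] {K : Type*} [Field K] [NumberField K]
  [hK : IsCyclotomicExtension {p} ℚ K] {ζ : K} (hζ : IsPrimitiveRoot ζ p)

include hζ in
theorem exists_int_sub_pow_prime_dvd (x : 𝓞 K) : ∃ n : ℤ, (p : 𝓞 K) ∣ x ^ p - n := by
  have hgen : Algebra.adjoin ℤ ({hζ.toInteger} : Set (𝓞 K)) = ⊤ := by
    have := hζ.integralPowerBasis.adjoin_gen_eq_top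
    rwa [hζ.integralPowerBasis_gen] at this
  have hx : x ∈ Algebra.adjoin ℤ ({hζ.toInteger} : Set (𝓞 K)) := hgen ▸ Algebra.mem_top
  induction hx using Algebra.adjoin_induction with
  | mem y hy =>
    rw [Set.mem_singleton_iff] at hy
    subst hy
    refine ⟨1, ?_⟩
    have h1 : hζ.toInteger ^ p = 1 := hζ.toInteger_isPrimitiveRoot.pow_eq_one
    simp [h1]
  | algebraMap r =>
    refine ⟨r ^ p, ?_⟩
    simp
  | add y z _ _ hy hz =>
    obtain ⟨n, hn⟩ := hy
    obtain ⟨m, hm⟩ := hz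
    obtain ⟨r, hr⟩ := exists_add_pow_prime_eq hp.out y z
    refine ⟨n + m, ?_⟩
    rw [hr]
    have : y ^ p + z ^ p + (p : 𝓞 K) * y * z * r - ((n + m : ℤ) : 𝓞 K) =
        (y ^ p - n) + (z ^ p - m) + (p : 𝓞 K) * (y * z * r) := by push_cast; ring
    rw [this]
    exact dvd_add (dvd_add hn hm) (dvd_mul_right _ _)
  | mul y z _ _ hy hz =>
    obtain ⟨n, hn⟩ := hy
    obtain ⟨m, hm⟩ := hz
    refine ⟨n * m, ?_⟩
    have : (y * z) ^ p - ((n * m : ℤ) : 𝓞 K) = (y ^ p - n) * z ^ p + n * (z ^ p - m) := by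
      push_cast; ring
    rw [this]
    exact dvd_add (dvd_mul_of_dvd_left hn _) (dvd_mul_of_dvd_right hm _)

include hζ in
theorem card_quot (hp2 : p ≠ 2) : Nat.card (𝓞 K ⧸ Ideal.span {hζ.toInteger - 1}) = p := by
  rw [hζ.card_quotient_toInteger_sub_one, hζ.norm_toInteger_sub_one_of_prime_ne_two' hp2]
  simp

/-- Case II of Fermat's last theorem for exponent `p`, when the `p`-th cyclotomic ring of
integers is a PID and Kummer's lemma holds: `p ∣ c`. -/
theorem caseII_dvd_c (hp2 : p ≠ 2) [IsPrincipalIdealRing (𝓞 K)]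
    (hKummer : ∀ u : (𝓞 K)ˣ, (∃ n : ℤ, (p : 𝓞 K) ∣ (u : 𝓞 K) - n) → ∃ v : (𝓞 K)ˣ, u = v ^ p)
    (a b c : ℤ) (hab : IsCoprime a b) (hc : c ≠ 0) (hpc : (p : ℤ) ∣ c)
    (h : a ^ p + b ^ p = c ^ p) : False := by
  have hζ : IsPrimitiveRoot (IsCyclotomicExtension.zeta p ℚ K) p :=
    IsCyclotomicExtension.zeta_spec p ℚ K
  have hζ' := hζ.toInteger_isPrimitiveRoot
  have hl : Prime (hζ.toInteger - 1) := hζ.zeta_sub_one_prime'
  have hass := IsCyclotomicExtension.Rat.associated_zeta_sub_one_pow_prime p hζ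
  have hcard := card_quot hζ hp2
  have hpow := exists_int_sub_pow_prime_dvd hζ
  have hns := not_sol hp.out hp2 hζ' hl hass hcard hpow hKummer
  -- extract the power of p from c
  have hfin : FiniteMultiplicity (p : ℤ) c := by
    rw [Int.finiteMultiplicity_iff]
    refine ⟨?_, hc⟩
    simp only [Int.natAbs_natCast]
    exact hp.out.ne_one
  obtain ⟨c', hc', hpc'⟩ := hfin.exists_eq_pow_mul_and_not_dvd
  set k := multiplicity (p : ℤ) c with hk
  have hk1 : 1 ≤ k := by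
    by_contra hlt
    have hk0 : k = 0 := by omega
    rw [hk0, pow_zero, one_mul] at hc'
    exact hpc' (hc' ▸ hpc)
  obtain ⟨w, hw⟩ := hass
  apply hns ((p - 1) * k) (Nat.mul_pos (by have := hp.out.two_le; omega) hk1)
  refine ⟨(a : 𝓞 K), (b : 𝓞 K), (c' : 𝓞 K), (w ^ k) ^ p, hab.intCast, ?_, ?_⟩
  · rw [IsCyclotomicExtension.Rat.zeta_sub_one_dvd_intCast_iff' p hζ]
    exact hpc'
  · have h1 : ((a : 𝓞 K)) ^ p + (b : 𝓞 K) ^ p = (c : 𝓞 K) ^ p := by exact_mod_cast congrArg (Int.cast : ℤ → 𝓞 K) h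
    rw [h1, hc']
    push_cast
    rw [← hw]
    ring

/-- Case II of Fermat's last theorem for exponent `p` (any position of the multiple of `p`),
when the `p`-th cyclotomic ring of integers is a PID and Kummer's lemma holds. -/
theorem caseII (hp2 : p ≠ 2) [IsPrincipalIdealRing (𝓞 K)]
    (hKummer : ∀ u : (𝓞 K)ˣ, (∃ n : ℤ, (p : 𝓞 K) ∣ (u : 𝓞 K) - n) → ∃ v : (𝓞 K)ˣ, u = v ^ p)
    (a b c : ℤ) (ha : a ≠ 0) (hb : b ≠ 0) (hc : c ≠ 0) (hab : IsCoprime a b)
    (hdiv : (p : ℤ) ∣ a * b * c) (h : a ^ p + b ^ p = c ^ p) : False := by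
  have hodd : Odd p := hp.out.odd_of_ne_two hp2
  have hppos : 0 < p := hp.out.pos
  have hpz : Prime (p : ℤ) := Nat.prime_iff_prime_int.mp hp.out
  have hbp : b ^ p = b * b ^ (p - 1) := (mul_pow_sub_one hp.out.ne_zero b).symm
  have hap : a ^ p = a * a ^ (p - 1) := (mul_pow_sub_one hp.out.ne_zero a).symm
  have hbc : IsCoprime b c := by
    rw [← IsCoprime.pow_right_iff hppos, ← h, hbp]
    exact (IsCoprime.add_mul_left_right_iff).mpr (hab.symm.pow_right)
  have hac : IsCoprime a c := by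
    rw [← IsCoprime.pow_right_iff hppos, ← h, hap, add_comm]
    exact (IsCoprime.add_mul_left_right_iff).mpr (hab.pow_right)
  rcases hpz.dvd_or_dvd hdiv with h1 | h1
  · rcases hpz.dvd_or_dvd h1 with h2 | h2
    · -- p ∣ a
      refine caseII_dvd_c (K := K) hp2 hKummer c (-b) a hbc.symm.neg_right ha h2 ?_
      rw [hodd.neg_pow]
      linear_combination -h
    · -- p ∣ b
      refine caseII_dvd_c (K := K) hp2 hKummer c (-a) b hac.symm.neg_right hb h2 ?_
      rw [hodd.neg_pow]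
      linear_combination -h
  · exact caseII_dvd_c (K := K) hp2 hKummer a b c hab hc h1 h

/-- Fermat's last theorem for exponent `p` over `ℤ` (coprime form), given Case I, the PID
property of the `p`-th cyclotomic ring of integers and Kummer's lemma. -/
theorem flt_of_caseI (hp2 : p ≠ 2) [IsPrincipalIdealRing (𝓞 K)]
    (hKummer : ∀ u : (𝓞 K)ˣ, (∃ n : ℤ, (p : 𝓞 K) ∣ (u : 𝓞 K) - n) → ∃ v : (𝓞 K)ˣ, u = v ^ p)
    (hI : ∀ a b c : ℤ, IsCoprime a b → a ^ p + b ^ p = c ^ p → (p : ℤ) ∣ a * b * c)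
    (a b c : ℤ) (ha : a ≠ 0) (hb : b ≠ 0) (hc : c ≠ 0) (hab : IsCoprime a b)
    (h : a ^ p + b ^ p = c ^ p) : False :=
  caseII (K := K) hp2 hKummer a b c ha hb hc hab (hI a b c hab h) h

end NF

end Fermat.Agent.S10.H60
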