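import Mathlib
import Fermat.Prelude.Def_FLTPrelim_FreyPackage
import Fermat.Agent.S10.CaseII_helper60

open NumberField

namespace Fermat.Agent.S10.H60

/-- A Frey package whose exponent is a prime `p` for which the `p`-th cyclotomic ring of integers
is a PID, Kummer's lemma holds and Case I is known, cannot exist. -/
theorem freyPackage_false (P : FreyPackage) {p : ℕ} [hp : Fact p.Prime] (hPp : P.p = p)
    {K : Type*} [Field K] [NumberField K] [IsCyclotomicExtension {p} ℚ K]
    [IsPrincipalIdealRing (𝓞 K)]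
    (hKummer : ∀ u : (𝓞 K)ˣ, (∃ n : ℤ, (p : 𝓞 K) ∣ (u : 𝓞 K) - n) → ∃ v : (𝓞 K)ˣ, u = v ^ p)
    (hI : ∀ a b c : ℤ, IsCoprime a b → a ^ p + b ^ p = c ^ p → (p : ℤ) ∣ a * b * c) : False := by
  have hp2 : p ≠ 2 := by
    have := P.hp5
    omega
  have hab : IsCoprime P.a P.b := by
    rw [Int.isCoprime_iff_gcd_eq_one]
    have h := P.hgcdab
    rw [← Int.coe_gcd] at h
    exact_mod_cast h
  have h := P.hFLT
  rw [hPp] at h
  exact flt_of_caseI (K := K) hp2 hKummer hI P.a P.b P.c P.ha0 P.hb0 P.hc0 hab h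

end Fermat.Agent.S10.H60
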