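import Mathlib

set_option autoImplicit false

namespace Fermat.Agent.S10.H08

open NumberField

/-- Abstract counting lemma: if `φ : G →* Multiplicative V` (with `V` an `𝔽_p`-vector space) takes
`m` linearly independent values and `G` has at most `p ^ m` classes modulo `p`-th powers, then
the kernel of `φ` consists of `p`-th powers. -/
theorem exists_pow_eq_of_map_eq_one {G : Type*} [CommGroup G] {p m : ℕ} [Fact p.Prime]
    {V : Type*} [AddCommGroup V] [Module (ZMod p) V]
    (φ : G →* Multiplicative V) (g : Fin m → G)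
    (hind : LinearIndependent (ZMod p) (fun i => Multiplicative.toAdd (φ (g i))))
    (S : Finset G) (hS : S.card ≤ p ^ m) (hrep : ∀ u : G, ∃ s ∈ S, ∃ v : G, u = s * v ^ p)
    (u : G) (hu : φ u = 1) : ∃ v : G, u = v ^ p := by
  classical
  have hp : (p : ZMod p) = 0 := ZMod.natCast_self p
  -- `φ` kills `p`-th powers
  have hpow : ∀ v : G, φ (v ^ p) = 1 := by
    intro v
    rw [map_pow]
    apply Multiplicative.toAdd.injective
    rw [toAdd_pow, toAdd_one, ← Nat.cast_smul_eq_nsmul (ZMod p), hp, zero_smul]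
  -- the elements `h a`
  let h : (Fin m → ZMod p) → G := fun a => ∏ i, g i ^ (a i).val
  have hφh : ∀ a, Multiplicative.toAdd (φ (h a)) =
      ∑ i, a i • Multiplicative.toAdd (φ (g i)) := by
    intro a
    simp only [h, map_prod, map_pow, toAdd_prod, toAdd_pow]
    refine Finset.sum_congr rfl fun i _ => ?_
    rw [← Nat.cast_smul_eq_nsmul (ZMod p), ZMod.natCast_zmod_val]
  choose s hsS w hw using hrep
  have hφs : ∀ x : G, φ (s x) = φ x := by
    intro x
    conv_rhs => rw [hw x, map_mul, hpow, mul_one]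
  -- injectivity of `a ↦ s (h a)`
  have hinj : Function.Injective (fun a : Fin m → ZMod p => s (h a)) := by
    intro a b hab
    have h1 : φ (h a) = φ (h b) := by
      rw [← hφs (h a), ← hφs (h b)]; exact congrArg φ hab
    have h2 := congrArg Multiplicative.toAdd h1
    rw [hφh, hφh] at h2
    have h3 := Fintype.linearIndependent_iff.mp hind (fun i => a i - b i) (by
      simp only [sub_smul, Finset.sum_sub_distrib, h2, sub_self])
    funext i
    exact sub_eq_zero.mp (h3 i)
  -- hence surjectivity onto `S`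
  have hcard : Fintype.card (Fin m → ZMod p) = p ^ m := by
    simp [ZMod.card]
  have himg : (Finset.univ.image (fun a : Fin m → ZMod p => s (h a))) = S := by
    apply Finset.eq_of_subset_of_card_le
    · intro x hx
      obtain ⟨a, -, rfl⟩ := Finset.mem_image.mp hx
      exact hsS _
    · rw [Finset.card_image_of_injective _ hinj, Finset.card_univ, hcard]
      exact hS
  obtain ⟨a, -, ha⟩ := Finset.mem_image.mp (himg ▸ hsS u)
  -- `a = 0`
  have h4 : φ (h a) = 1 := by
    rw [← hφs (h a), ha, hφs u, hu]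
  have h5 := congrArg Multiplicative.toAdd h4
  rw [hφh, toAdd_one] at h5
  have h6 := Fintype.linearIndependent_iff.mp hind a h5
  have h7 : h a = 1 := by
    simp only [h]
    refine Finset.prod_eq_one fun i _ => ?_
    rw [h6 i, ZMod.val_zero, pow_zero]
  -- conclude
  have h8 : (1 : G) = s u * w (h a) ^ p := by
    have := hw (h a)
    rw [h7] at this
    rw [← ha]
    exact h7 ▸ this
  refine ⟨w u * (w (h a))⁻¹, ?_⟩
  have h9 : s u = (w (h a) ^ p)⁻¹ := eq_inv_of_mul_eq_one_left h8.symm
  conv_lhs => rw [hw u, h9]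
  rw [mul_pow, inv_pow, mul_comm]

/-- Dirichlet: the units of a number field have at most `p ^ (rank + 1)` classes modulo
`p`-th powers. -/
theorem exists_unit_reps (K : Type*) [Field K] [NumberField K] (p : ℕ) [NeZero p] :
    ∃ S : Finset (𝓞 K)ˣ, S.card ≤ p ^ (Units.rank K + 1) ∧
      ∀ u : (𝓞 K)ˣ, ∃ s ∈ S, ∃ v : (𝓞 K)ˣ, u = s * v ^ p := by
  classical
  obtain ⟨τ, hτ⟩ := IsCyclic.exists_generator (α := Units.torsion K)
  let f := Units.fundSystem K
  let F : Fin p × (Fin (Units.rank K) → Fin p) → (𝓞 K)ˣ :=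
    fun je => (τ : (𝓞 K)ˣ) ^ (je.1 : ℕ) * ∏ i, f i ^ ((je.2 i : ℕ))
  refine ⟨Finset.univ.image F, ?_, ?_⟩
  · refine Finset.card_image_le.trans ?_
    simp [pow_succ, mul_comm]
  · intro u
    obtain ⟨⟨t, e⟩, hte, -⟩ := Units.exist_unique_eq_mul_prod K u
    obtain ⟨k, hk⟩ := Subgroup.mem_zpowers_iff.mp (hτ t)
    have hp0 : (p : ℤ) ≠ 0 := by exact_mod_cast NeZero.ne p
    have hppos : (0 : ℤ) < p := by exact_mod_cast Nat.pos_of_ne_zero (NeZero.ne p)
    have hmod : ∀ z : ℤ, (z % p).toNat < p := by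
      intro z
      have h1 := Int.emod_lt_of_pos z hppos
      have h2 := Int.emod_nonneg z hp0
      omega
    refine ⟨F (⟨(k % p).toNat, hmod k⟩, fun i => ⟨(e i % p).toNat, hmod (e i)⟩),
      Finset.mem_image_of_mem _ (Finset.mem_univ _),
      (τ : (𝓞 K)ˣ) ^ (k / p) * ∏ i, f i ^ (e i / p), ?_⟩
    have key : ∀ (x : (𝓞 K)ˣ) (z : ℤ), x ^ z = x ^ ((z % p).toNat) * (x ^ (z / p)) ^ p := by
      intro x z
      have h2 := Int.emod_nonneg z hp0
      rw [← zpow_natCast x ((z % p).toNat), Int.toNat_of_nonneg h2, ← zpow_natCast (x ^ (z / p)) p,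
        ← zpow_mul, ← zpow_add, mul_comm (z / (p : ℤ)), Int.emod_add_mul_ediv]
    rw [hte]
    simp only [F]
    rw [mul_pow, ← Finset.prod_pow, mul_mul_mul_comm, ← Finset.prod_mul_distrib]
    congr 1
    · rw [← key, ← hk]; simp
    · exact Finset.prod_congr rfl fun i _ => key _ _

theorem rank_add_one_of_cyclotomic {p : ℕ} [hp : Fact p.Prime] (hp2 : 2 < p) (K : Type*) [Field K]
    [NumberField K] [IsCyclotomicExtension {p} ℚ K] : Units.rank K + 1 = (p - 1) / 2 := by
  have : NeZero p := ⟨hp.out.ne_zero⟩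
  rw [Units.rank, InfinitePlace.card_eq_nrRealPlaces_add_nrComplexPlaces,
    IsCyclotomicExtension.Rat.nrRealPlaces_eq_zero K hp2,
    IsCyclotomicExtension.Rat.nrComplexPlaces_eq_totient_div_two p K, Nat.totient_prime hp.out,
    zero_add]
  have : 0 < (p - 1) / 2 := by omega
  omega

end Fermat.Agent.S10.H08
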