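import Mathlib

set_option autoImplicit false

namespace Fermat.Agent.S10.H39

open Polynomial NumberField

section generic

variable {n : ℕ} [NeZero n] {K : Type*} [Field K] [NumberField K]
  [IsCyclotomicExtension {n} ℚ K]

theorem aeval_root_int {l : ℕ} (cbar : (ZMod l)[X]) (q : ℤ[X]) :
    aeval (AdjoinRoot.root cbar) q =
      AdjoinRoot.mk cbar (q.map (Int.castRingHom (ZMod l))) := by
  rw [← AdjoinRoot.aeval_eq, ← algebraMap_int_eq, aeval_map_algebraMap]

theorem exists_principal_prime_of_cert (l : ℕ) [hl : Fact l.Prime]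
    (c a g h u v d e q1 q2 q3 : ℤ[X]) (hc : c.Monic)
    (hirr : Irreducible (c.map (Int.castRingHom (ZMod l))))
    (hΦ : cyclotomic n ℤ = c * d + C (l : ℤ) * e)
    (h1 : a * g = C (l : ℤ) + q1 * cyclotomic n ℤ)
    (h2 : a * h = c + q2 * cyclotomic n ℤ)
    (h3 : a = C (l : ℤ) * u + c * v + q3 * cyclotomic n ℤ) :
    ∃ P ∈ Ideal.primesOver (Ideal.span {(l : ℤ)}) (𝓞 K), Submodule.IsPrincipal P := by
  classical
  have hζ := IsCyclotomicExtension.zeta_spec n ℚ K
  have hzprim : IsPrimitiveRoot hζ.toInteger n := hζ.toInteger_isPrimitiveRoot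
  obtain ⟨z, hzdef⟩ : ∃ z : 𝓞 K, z = hζ.toInteger := ⟨_, rfl⟩
  rw [← hzdef] at hzprim
  have hgen : hζ.integralPowerBasis.gen = z := by rw [hzdef]; exact hζ.integralPowerBasis_gen
  have hmin : cyclotomic n ℤ = minpoly ℤ z := by
    rw [hzdef, ← minpoly.algebraMap_eq (B := 𝓞 K) (B' := K) RingOfIntegers.coe_injective]
    exact cyclotomic_eq_minpoly hζ (NeZero.pos n)
  have hcyc : aeval z (cyclotomic n ℤ) = 0 := by rw [hmin]; exact minpoly.aeval ℤ z
  set cbar : (ZMod l)[X] := c.map (Int.castRingHom (ZMod l)) with hcbar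
  have : Fact (Irreducible cbar) := ⟨hirr⟩
  have hchar : CharP (AdjoinRoot cbar) l :=
    charP_of_injective_algebraMap (algebraMap (ZMod l) (AdjoinRoot cbar)).injective l
  have hlF : ((l : ℤ) : AdjoinRoot cbar) = 0 := by
    rw [Int.cast_natCast]; exact CharP.cast_eq_zero _ l
  have hrootc : aeval (AdjoinRoot.root cbar) c = 0 := by
    rw [aeval_root_int, ← hcbar, AdjoinRoot.mk_self]
  have hroot : aeval (AdjoinRoot.root cbar) (minpoly ℤ hζ.integralPowerBasis.gen) = 0 := by
    rw [hgen, ← hmin, hΦ]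
    simp only [map_add, map_mul, hrootc, aeval_C, zero_mul, zero_add]
    rw [eq_intCast, hlF, zero_mul]
  let φ : 𝓞 K →ₐ[ℤ] AdjoinRoot cbar := hζ.integralPowerBasis.lift (AdjoinRoot.root cbar) hroot
  have hφz : φ z = AdjoinRoot.root cbar := by
    rw [← hgen]; exact hζ.integralPowerBasis.lift_gen _ _
  have hφ : ∀ q : ℤ[X], φ (aeval z q) =
      AdjoinRoot.mk cbar (q.map (Int.castRingHom (ZMod l))) := by
    intro q
    rw [← aeval_algHom_apply, hφz, aeval_root_int]
  -- identities in the ring of integers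
  have hlz : aeval z (C (l : ℤ)) = ((l : ℤ) : 𝓞 K) := by
    rw [aeval_C, eq_intCast]
  have E1 : aeval z a * aeval z g = ((l : ℤ) : 𝓞 K) := by
    rw [← map_mul, h1, map_add, map_mul, hcyc, mul_zero, add_zero, hlz]
  have E2 : aeval z a * aeval z h = aeval z c := by
    rw [← map_mul, h2, map_add, map_mul, hcyc, mul_zero, add_zero]
  have E3 : aeval z a = ((l : ℤ) : 𝓞 K) * aeval z u + aeval z c * aeval z v := by
    conv_lhs => rw [h3]
    rw [map_add, map_add, map_mul, map_mul, map_mul, hcyc, mul_zero, add_zero, hlz]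
  have hφl : φ ((l : ℤ) : 𝓞 K) = 0 := by
    rw [map_intCast, hlF]
  have hφc : φ (aeval z c) = 0 := by
    rw [hφ, ← hcbar, AdjoinRoot.mk_self]
  have hφa : φ (aeval z a) = 0 := by
    rw [E3, map_add, map_mul, map_mul, hφl, hφc, zero_mul, zero_mul, add_zero]
  refine ⟨RingHom.ker (φ : 𝓞 K →+* AdjoinRoot cbar), ⟨RingHom.ker_isPrime _, ⟨?_⟩⟩, ⟨aeval z a, ?_⟩⟩
  · -- lies over
    ext m
    rw [Ideal.mem_span_singleton, Ideal.under, Ideal.mem_comap, RingHom.mem_ker]
    rw [eq_intCast]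
    change _ ↔ φ ((m : ℤ) : 𝓞 K) = 0
    rw [map_intCast, CharP.intCast_eq_zero_iff (AdjoinRoot cbar) l m]
  · -- principal
    apply le_antisymm
    · intro x hx
      rw [RingHom.mem_ker] at hx
      change φ x = 0 at hx
      obtain ⟨q, hq⟩ := hζ.integralPowerBasis.exists_eq_aeval' x
      rw [hgen] at hq
      rw [hq, hφ, AdjoinRoot.mk_eq_zero] at hx
      have hmod : (q %ₘ c).map (Int.castRingHom (ZMod l)) = 0 := by
        rw [map_modByMonic _ hc, ← hcbar]
        exact (modByMonic_eq_zero_iff_dvd (hc.map _)).mpr hx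
      have hdvd : C (l : ℤ) ∣ q %ₘ c := by
        rw [C_dvd_iff_dvd_coeff]
        intro i
        have := congrArg (fun r => r.coeff i) hmod
        simp only [coeff_map, coeff_zero, eq_intCast] at this
        exact (ZMod.intCast_zmod_eq_zero_iff_dvd _ _).mp this
      obtain ⟨w, hw⟩ := hdvd
      have hx' : x = ((l : ℤ) : 𝓞 K) * aeval z w + aeval z c * aeval z (q /ₘ c) := by
        rw [hq]
        conv_lhs => rw [← modByMonic_add_div q c, hw]
        rw [map_add, map_mul, map_mul, hlz]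
      rw [hx']
      have hmem1 : ((l : ℤ) : 𝓞 K) ∈ Submodule.span (𝓞 K) {aeval z a} :=
        Submodule.mem_span_singleton.mpr ⟨aeval z g, by rw [smul_eq_mul, mul_comm, E1]⟩
      have hmem2 : aeval z c ∈ Submodule.span (𝓞 K) {aeval z a} :=
        Submodule.mem_span_singleton.mpr ⟨aeval z h, by rw [smul_eq_mul, mul_comm, E2]⟩
      exact Submodule.add_mem _ (Ideal.mul_mem_right _ _ hmem1) (Ideal.mul_mem_right _ _ hmem2)
    · rw [Submodule.span_singleton_le_iff_mem]
      exact hφa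

end generic

end Fermat.Agent.S10.H39
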