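import Mathlib
import Fermat.Agent.S10.PrimeGen_helper39

set_option autoImplicit false
set_option linter.unusedSimpArgs false
set_option linter.unusedTactic false

namespace Fermat.Agent.S10.H39

open Polynomial NumberField

theorem cyclotomic_11 : cyclotomic 11 ℤ =
    1 + X + X ^ 2 + X ^ 3 + X ^ 4 + X ^ 5 + X ^ 6 + X ^ 7 + X ^ 8 + X ^ 9 + X ^ 10 := by
  have : Fact (Nat.Prime 11) := ⟨by norm_num⟩
  rw [cyclotomic_prime]
  simp only [Finset.sum_range_succ, Finset.sum_range_zero, pow_zero, pow_one, zero_add]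

theorem principal_11_11 (K : Type*) [Field K] [NumberField K] [IsCyclotomicExtension {11} ℚ K] :
    ∃ P ∈ Ideal.primesOver (Ideal.span {((11 : ℕ) : ℤ)}) (𝓞 K), Submodule.IsPrincipal P := by
  have : Fact (Nat.Prime 11) := ⟨by norm_num⟩
  refine exists_principal_prime_of_cert (n := 11) (K := K) 11
    (X - C 1) (-1 + X) (-10 - 9 * X - 8 * X ^ 2 - 7 * X ^ 3 - 6 * X ^ 4 - 5 * X ^ 5 - 4 * X ^ 6 - 3 * X ^ 7 - 2 * X ^ 8 - X ^ 9) (1) (0) (1) (-1 - 2 * X - 3 * X ^ 2 - 4 * X ^ 3 - 5 * X ^ 4 + 5 * X ^ 5 + 4 * X ^ 6 + 3 * X ^ 7 + 2 * X ^ 8 + X ^ 9) (X ^ 5) (-1) (0) (0)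
    ?_ ?_ ?_ ?_ ?_ ?_
  · exact monic_X_sub_C _
  · rw [Polynomial.map_sub, map_X, map_C]; exact irreducible_X_sub_C _
  · rw [cyclotomic_11]; (try simp only [map_ofNat, map_one, Nat.cast_ofNat, Nat.cast_one]); ring
  · rw [cyclotomic_11]; (try simp only [map_ofNat, map_one, Nat.cast_ofNat, Nat.cast_one]); ring
  · rw [cyclotomic_11]; (try simp only [map_ofNat, map_one, Nat.cast_ofNat, Nat.cast_one]); ring
  · rw [cyclotomic_11]; (try simp only [map_ofNat, map_one, Nat.cast_ofNat, Nat.cast_one]); ring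

theorem principal_11_23 (K : Type*) [Field K] [NumberField K] [IsCyclotomicExtension {11} ℚ K] :
    ∃ P ∈ Ideal.primesOver (Ideal.span {((23 : ℕ) : ℤ)}) (𝓞 K), Submodule.IsPrincipal P := by
  have : Fact (Nat.Prime 23) := ⟨by norm_num⟩
  refine exists_principal_prime_of_cert (n := 11) (K := K) 23
    (X - C 13) (1 - X + X ^ 3) (8 - 2 * X - X ^ 2 - 8 * X ^ 3 - 5 * X ^ 4 - 3 * X ^ 5 + 6 * X ^ 6 + 12 * X ^ 7 + 16 * X ^ 8 + 11 * X ^ 9) (-5 + X + 4 * X ^ 3 + 2 * X ^ 4 + X ^ 5 - 4 * X ^ 6 - 7 * X ^ 7 - 9 * X ^ 8 - 6 * X ^ 9) (95) (168 + 13 * X + X ^ 2) (7 + 4 * X + 2 * X ^ 2 - 7 * X ^ 3 + 10 * X ^ 4 + 6 * X ^ 5 + 11 * X ^ 6 - X ^ 7 - 9 * X ^ 8 + X ^ 9) (4 + 2 * X + X ^ 2 - 4 * X ^ 3 + 6 * X ^ 4 + 3 * X ^ 5 + 6 * X ^ 6 - X ^ 7 - 5 * X ^ 8 + X ^ 9) (-15 + 5 * X + 11 * X ^ 2) (8 - 3 * X - 6 * X ^ 2) (0)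
    ?_ ?_ ?_ ?_ ?_ ?_
  · exact monic_X_sub_C _
  · rw [Polynomial.map_sub, map_X, map_C]; exact irreducible_X_sub_C _
  · rw [cyclotomic_11]; (try simp only [map_ofNat, map_one, Nat.cast_ofNat, Nat.cast_one]); ring
  · rw [cyclotomic_11]; (try simp only [map_ofNat, map_one, Nat.cast_ofNat, Nat.cast_one]); ring
  · rw [cyclotomic_11]; (try simp only [map_ofNat, map_one, Nat.cast_ofNat, Nat.cast_one]); ring
  · rw [cyclotomic_11]; (try simp only [map_ofNat, map_one, Nat.cast_ofNat, Nat.cast_one]); ring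

theorem exists_principal_prime_over_eleven (K : Type*) [Field K] [NumberField K]
    [IsCyclotomicExtension {11} ℚ K] (l : ℕ) (hl : l = 11 ∨ l = 23) :
    ∃ P ∈ Ideal.primesOver (Ideal.span {(l : ℤ)}) (𝓞 K), Submodule.IsPrincipal P := by
  rcases hl with rfl | rfl
  · exact principal_11_11 K
  · exact principal_11_23 K

end Fermat.Agent.S10.H39
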