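import Mathlib
import Fermat.Agent.S10.PrimeGen11_helper39

set_option autoImplicit false
set_option linter.unnecessarySeqFocus false
set_option linter.unreachableTactic false
set_option linter.unusedTactic false

namespace Fermat.Agent.S10.H39

open NumberField Module InfinitePlace Nat Real

theorem eq_of_prime_dvd_pow_11 {p f q : ℕ} (hp : p.Prime) (hq : q.Prime) (h : q ∣ p ^ f) :
    q = p :=
  (Nat.prime_dvd_prime_iff_eq hq hp).mp (hq.dvd_of_dvd_pow h)

theorem key_11 (p f : ℕ) (hp : p.Prime) (hf : 0 < f) (hmod : p ^ f % 11 = 1)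
    (hle : p ^ f ≤ 58) : p = 23 := by
  have h2 : 2 ≤ p ^ f := le_trans hp.two_le (Nat.le_self_pow hf.ne' p)
  obtain ⟨k, hk⟩ : ∃ k, p ^ f = 11 * k + 1 := ⟨p ^ f / 11, by omega⟩
  have hk1 : 1 ≤ k := by omega
  have hk2 : k ≤ 5 := by omega
  interval_cases k
  · have h1 := eq_of_prime_dvd_pow_11 hp (by norm_num : Nat.Prime 2) (by rw [hk] <;> norm_num)
    have h2 := eq_of_prime_dvd_pow_11 hp (by norm_num : Nat.Prime 3) (by rw [hk] <;> norm_num)
    omega
  · have h := eq_of_prime_dvd_pow_11 hp (by norm_num : Nat.Prime 23) (by rw [hk] <;> norm_num)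
    omega
  · have h1 := eq_of_prime_dvd_pow_11 hp (by norm_num : Nat.Prime 2) (by rw [hk] <;> norm_num)
    have h2 := eq_of_prime_dvd_pow_11 hp (by norm_num : Nat.Prime 17) (by rw [hk] <;> norm_num)
    omega
  · have h1 := eq_of_prime_dvd_pow_11 hp (by norm_num : Nat.Prime 3) (by rw [hk] <;> norm_num)
    have h2 := eq_of_prime_dvd_pow_11 hp (by norm_num : Nat.Prime 5) (by rw [hk] <;> norm_num)
    omega
  · have h1 := eq_of_prime_dvd_pow_11 hp (by norm_num : Nat.Prime 2) (by rw [hk] <;> norm_num)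
    have h2 := eq_of_prime_dvd_pow_11 hp (by norm_num : Nat.Prime 7) (by rw [hk] <;> norm_num)
    omega

theorem minkowski_11_lt (K : Type*) [Field K] [NumberField K] [IsCyclotomicExtension {11} ℚ K] :
    (4 / π) ^ nrComplexPlaces K *
      ((finrank ℚ K)! / (finrank ℚ K) ^ (finrank ℚ K) * √|discr K|) < 59 := by
  have : Fact (Nat.Prime 11) := ⟨by norm_num⟩
  rw [IsCyclotomicExtension.Rat.discr_prime 11 K, IsCyclotomicExtension.finrank (n := 11) K
    (Polynomial.cyclotomic.irreducible_rat (by norm_num)),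
    IsCyclotomicExtension.Rat.nrComplexPlaces_eq_totient_div_two 11, totient_prime (by norm_num)]
  norm_num [Nat.factorial]
  have hsqrt : √(2357947691 : ℝ) ≤ 48559 := by
    rw [Real.sqrt_le_iff]
    constructor <;> norm_num
  have hpi : (4 / π) ^ 5 ≤ (4 / 3.1415) ^ 5 := by
    gcongr
    exact pi_gt_d4.le
  calc (4 / π) ^ 5 * (567 / 1562500 * √(2357947691 : ℝ))
      ≤ (4 / 3.1415) ^ 5 * (567 / 1562500 * 48559) := by
        gcongr
    _ < 59 := by norm_num

theorem eleven_pid (K : Type*) [Field K] [NumberField K] [IsCyclotomicExtension {11} ℚ K] :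
    IsPrincipalIdealRing (𝓞 K) := by
  have : IsGalois ℚ K := IsCyclotomicExtension.isGalois {11} ℚ K
  have hqprime : Fact (Nat.Prime 11) := ⟨by norm_num⟩
  apply RingOfIntegers.isPrincipalIdealRing_of_isPrincipal_of_lt_or_isPrincipal_of_mem_primesOver_of_mem_Icc
  intro p hp hpprime
  have hM : ⌊(4 / π) ^ nrComplexPlaces K *
      ((finrank ℚ K)! / (finrank ℚ K) ^ (finrank ℚ K) * √|discr K|)⌋₊ ≤ 58 := by
    have h := minkowski_11_lt K
    have h' : ⌊(4 / π) ^ nrComplexPlaces K *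
      ((finrank ℚ K)! / (finrank ℚ K) ^ (finrank ℚ K) * √|discr K|)⌋₊ < 59 := by
      rw [Nat.floor_lt (by positivity)]
      exact_mod_cast h
    omega
  rw [Finset.mem_Icc] at hp
  have hpb : p ≤ 58 := hp.2.trans hM
  by_cases hsp : p = 11 ∨ p = 23
  · obtain ⟨P, hP, hprinc⟩ := exists_principal_prime_over_eleven K p hsp
    exact ⟨P, hP, Or.inr hprinc⟩
  · have : Fact p.Prime := ⟨hpprime⟩
    have hpq : p ≠ 11 := fun h => hsp (by omega)
    obtain ⟨⟨P, hP1, hP2⟩⟩ := (Ideal.span {(p : ℤ)}).nonempty_primesOver (S := 𝓞 K)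
    refine ⟨P, ⟨hP1, hP2⟩, Or.inl ?_⟩
    have hndvd : ¬ p ∣ 11 := by
      intro h
      exact hpq ((Nat.prime_dvd_prime_iff_eq hpprime (by norm_num : Nat.Prime 11)).mp h)
    rw [IsCyclotomicExtension.Rat.inertiaDeg_eq_of_not_dvd p K P hndvd]
    apply lt_of_le_of_lt hM
    by_contra hcon
    rw [not_lt] at hcon
    have hne0 : (p : ZMod 11) ≠ 0 := by
      rw [Ne, ZMod.natCast_eq_zero_iff]
      intro h
      exact hpq ((Nat.prime_dvd_prime_iff_eq (by norm_num : Nat.Prime 11) hpprime).mp h).symm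
    have hfin : IsOfFinOrder ((p : ZMod 11)) :=
      isOfFinOrder_iff_pow_eq_one.mpr ⟨10, by norm_num, ZMod.pow_card_sub_one_eq_one hne0⟩
    have hpos : 0 < orderOf (p : ZMod 11) := hfin.orderOf_pos
    have hpow : ((p : ZMod 11)) ^ orderOf (p : ZMod 11) = 1 := pow_orderOf_eq_one _
    have hmod : p ^ orderOf (p : ZMod 11) % 11 = 1 := by
      have h1 : ((p ^ orderOf (p : ZMod 11) : ℕ) : ZMod 11) = ((1 : ℕ) : ZMod 11) := by
        push_cast
        exact hpow
      rw [ZMod.natCast_eq_natCast_iff'] at h1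
      exact h1
    have := key_11 p _ hpprime hpos hmod hcon
    exact hsp (by tauto)

end Fermat.Agent.S10.H39
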