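import Mathlib
import Fermat.Agent.S10.PrimeGen_helper39

set_option autoImplicit false

set_option linter.unusedSimpArgs false
set_option linter.unusedTactic false
namespace Fermat.Agent.S10.H39

open Polynomial NumberField

theorem cyclotomic_13 : cyclotomic 13 ℤ =
    1 + X + X ^ 2 + X ^ 3 + X ^ 4 + X ^ 5 + X ^ 6 + X ^ 7 + X ^ 8 + X ^ 9 + X ^ 10 + X ^ 11
      + X ^ 12 := by
  have : Fact (Nat.Prime 13) := ⟨by norm_num⟩
  rw [cyclotomic_prime]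
  simp only [Finset.sum_range_succ, Finset.sum_range_zero, pow_zero, pow_one, zero_add]

theorem irr_principal_13_3 :
    Irreducible ((X ^ 3 - X - 1 : ℤ[X]).map (Int.castRingHom (ZMod 3))) := by
  have hmap : (X ^ 3 - X - 1 : ℤ[X]).map (Int.castRingHom (ZMod 3)) = X ^ 3 - X - 1 := by
    simp only [Polynomial.map_sub, Polynomial.map_pow, Polynomial.map_one, map_X]
  rw [hmap]
  have hmonic : (X ^ 3 - X - 1 : (ZMod 3)[X]).Monic := by monicity!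
  have hdeg : (X ^ 3 - X - 1 : (ZMod 3)[X]).natDegree = 3 := by compute_degree!
  rw [hmonic.irreducible_iff_roots_eq_zero_of_degree_le_three (by rw [hdeg]; norm_num)
    (by rw [hdeg])]
  rw [Multiset.eq_zero_iff_forall_notMem]
  intro a ha
  rw [mem_roots hmonic.ne_zero] at ha
  simp only [IsRoot.def, eval_sub, eval_pow, eval_X, eval_one] at ha
  revert ha
  revert a
  decide

theorem principal_13_3 (K : Type*) [Field K] [NumberField K] [IsCyclotomicExtension {13} ℚ K] :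
    ∃ P ∈ Ideal.primesOver (Ideal.span {((3 : ℕ) : ℤ)}) (𝓞 K), Submodule.IsPrincipal P := by
  have : Fact (Nat.Prime 3) := ⟨by norm_num⟩
  refine exists_principal_prime_of_cert (n := 13) (K := K) 3
    (X ^ 3 - X - 1) (1 + X - X ^ 3) (-1 - X ^ 2 - X ^ 3 - 2 * X ^ 5 - X ^ 7 - 2 * X ^ 8 + X ^ 9 - 3 * X ^ 10) (-1) (0) (-1) (-1 - X ^ 2 - X ^ 3 + X ^ 5 - X ^ 7 + X ^ 8 + X ^ 9) (X ^ 5 + X ^ 6 + X ^ 9 + X ^ 10) (-4 + 3 * X) (0) (0)
    ?_ ?_ ?_ ?_ ?_ ?_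
  · monicity!
  · exact irr_principal_13_3
  · rw [cyclotomic_13]; (try simp only [map_ofNat, map_one, Nat.cast_ofNat, Nat.cast_one]); ring
  · rw [cyclotomic_13]; (try simp only [map_ofNat, map_one, Nat.cast_ofNat, Nat.cast_one]); ring
  · rw [cyclotomic_13]; (try simp only [map_ofNat, map_one, Nat.cast_ofNat, Nat.cast_one]); ring
  · rw [cyclotomic_13]; (try simp only [map_ofNat, map_one, Nat.cast_ofNat, Nat.cast_one]); ring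

theorem principal_13_13 (K : Type*) [Field K] [NumberField K] [IsCyclotomicExtension {13} ℚ K] :
    ∃ P ∈ Ideal.primesOver (Ideal.span {((13 : ℕ) : ℤ)}) (𝓞 K), Submodule.IsPrincipal P := by
  have : Fact (Nat.Prime 13) := ⟨by norm_num⟩
  refine exists_principal_prime_of_cert (n := 13) (K := K) 13
    (X - C 1) (-1 + X) (-12 - 11 * X - 10 * X ^ 2 - 9 * X ^ 3 - 8 * X ^ 4 - 7 * X ^ 5 - 6 * X ^ 6 - 5 * X ^ 7 - 4 * X ^ 8 - 3 * X ^ 9 - 2 * X ^ 10 - X ^ 11) (1) (0) (1) (-1 - 2 * X - 3 * X ^ 2 - 4 * X ^ 3 - 5 * X ^ 4 - 6 * X ^ 5 + 6 * X ^ 6 + 5 * X ^ 7 + 4 * X ^ 8 + 3 * X ^ 9 + 2 * X ^ 10 + X ^ 11) (X ^ 6) (-1) (0) (0)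
    ?_ ?_ ?_ ?_ ?_ ?_
  · exact monic_X_sub_C _
  · rw [Polynomial.map_sub, map_X, map_C]; exact irreducible_X_sub_C _
  · rw [cyclotomic_13]; (try simp only [map_ofNat, map_one, Nat.cast_ofNat, Nat.cast_one]); ring
  · rw [cyclotomic_13]; (try simp only [map_ofNat, map_one, Nat.cast_ofNat, Nat.cast_one]); ring
  · rw [cyclotomic_13]; (try simp only [map_ofNat, map_one, Nat.cast_ofNat, Nat.cast_one]); ring
  · rw [cyclotomic_13]; (try simp only [map_ofNat, map_one, Nat.cast_ofNat, Nat.cast_one]); ring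

theorem principal_13_53 (K : Type*) [Field K] [NumberField K] [IsCyclotomicExtension {13} ℚ K] :
    ∃ P ∈ Ideal.primesOver (Ideal.span {((53 : ℕ) : ℤ)}) (𝓞 K), Submodule.IsPrincipal P := by
  have : Fact (Nat.Prime 53) := ⟨by norm_num⟩
  refine exists_principal_prime_of_cert (n := 13) (K := K) 53
    (X - C 16) (1 - X + X ^ 3) (25 + 10 * X + 19 * X ^ 2 + 3 * X ^ 3 + 2 * X ^ 4 - 8 * X ^ 5 - 2 * X ^ 6 + 5 * X ^ 7 + 22 * X ^ 8 + 33 * X ^ 9 + 37 * X ^ 10 + 24 * X ^ 11) (-8 - 3 * X - 6 * X ^ 2 - X ^ 3 - X ^ 4 + 2 * X ^ 5 - 2 * X ^ 7 - 7 * X ^ 8 - 10 * X ^ 9 - 11 * X ^ 10 - 7 * X ^ 11) (77) (255 + 16 * X + X ^ 2) (-10 - 4 * X + 3 * X ^ 2 + 20 * X ^ 3 - 22 * X ^ 4 - 18 * X ^ 5 + 22 * X ^ 6 - 2 * X ^ 7 + 23 * X ^ 8 + 8 * X ^ 9 + 17 * X ^ 10 + X ^ 11) (-3 - X + X ^ 2 + 6 * X ^ 3 - 7 * X ^ 4 - 5 * X ^ 5 + 7 * X ^ 6 - X ^ 7 + 7 * X ^ 8 + 2 * X ^ 9 + 5 * X ^ 10)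 (-28 + 13 * X + 24 * X ^ 2) (8 - 4 * X - 7 * X ^ 2) (0)
    ?_ ?_ ?_ ?_ ?_ ?_
  · exact monic_X_sub_C _
  · rw [Polynomial.map_sub, map_X, map_C]; exact irreducible_X_sub_C _
  · rw [cyclotomic_13]; (try simp only [map_ofNat, map_one, Nat.cast_ofNat, Nat.cast_one]); ring
  · rw [cyclotomic_13]; (try simp only [map_ofNat, map_one, Nat.cast_ofNat, Nat.cast_one]); ring
  · rw [cyclotomic_13]; (try simp only [map_ofNat, map_one, Nat.cast_ofNat, Nat.cast_one]); ring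
  · rw [cyclotomic_13]; (try simp only [map_ofNat, map_one, Nat.cast_ofNat, Nat.cast_one]); ring

theorem principal_13_79 (K : Type*) [Field K] [NumberField K] [IsCyclotomicExtension {13} ℚ K] :
    ∃ P ∈ Ideal.primesOver (Ideal.span {((79 : ℕ) : ℤ)}) (𝓞 K), Submodule.IsPrincipal P := by
  have : Fact (Nat.Prime 79) := ⟨by norm_num⟩
  refine exists_principal_prime_of_cert (n := 13) (K := K) 79
    (X - C 62) (1 - X - X ^ 4) (62 + 63 * X + 49 * X ^ 2 + 8 * X ^ 3 + 29 * X ^ 4 + 51 * X ^ 5 + 59 * X ^ 6 + 26 * X ^ 7 + 14 * X ^ 8 + 24 * X ^ 9 + 42 * X ^ 10 + 27 * X ^ 11) (-49 - 49 * X - 38 * X ^ 2 - 6 * X ^ 3 - 23 * X ^ 4 - 40 * X ^ 5 - 46 * X ^ 6 - 20 * X ^ 7 - 11 * X ^ 8 - 19 * X ^ 9 - 33 * X ^ 10 - 21 * X ^ 11) (-187043) (-238329 - 3844 * X - 62 * X ^ 2 - X ^ 3) (14 - 24 * X + 34 * X ^ 2 + 12 * X ^ 3 + 4 * X ^ 4 + 37 * X ^ 5 - 30 * X ^ 6 + 39 * X ^ 7 +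 21 * X ^ 8 + 36 * X ^ 9 - 16 * X ^ 10 + X ^ 11) (11 - 19 * X + 27 * X ^ 2 + 9 * X ^ 3 + 3 * X ^ 4 + 29 * X ^ 5 - 24 * X ^ 6 + 31 * X ^ 7 + 16 * X ^ 8 + 28 * X ^ 9 - 13 * X ^ 10 + X ^ 11) (-17 + 18 * X - 15 * X ^ 2 - 27 * X ^ 3) (13 - 14 * X + 12 * X ^ 2 + 21 * X ^ 3) (0)
    ?_ ?_ ?_ ?_ ?_ ?_
  · exact monic_X_sub_C _
  · rw [Polynomial.map_sub, map_X, map_C]; exact irreducible_X_sub_C _
  · rw [cyclotomic_13]; (try simp only [map_ofNat, map_one, Nat.cast_ofNat, Nat.cast_one]); ring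
  · rw [cyclotomic_13]; (try simp only [map_ofNat, map_one, Nat.cast_ofNat, Nat.cast_one]); ring
  · rw [cyclotomic_13]; (try simp only [map_ofNat, map_one, Nat.cast_ofNat, Nat.cast_one]); ring
  · rw [cyclotomic_13]; (try simp only [map_ofNat, map_one, Nat.cast_ofNat, Nat.cast_one]); ring

theorem principal_13_131 (K : Type*) [Field K] [NumberField K] [IsCyclotomicExtension {13} ℚ K] :
    ∃ P ∈ Ideal.primesOver (Ideal.span {((131 : ℕ) : ℤ)}) (𝓞 K), Submodule.IsPrincipal P := by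
  have : Fact (Nat.Prime 131) := ⟨by norm_num⟩
  refine exists_principal_prime_of_cert (n := 13) (K := K) 131
    (X - C 80) (1 - X - X ^ 3) (111 + 78 * X + 17 * X ^ 2 + 67 * X ^ 3 + 84 * X ^ 4 + 40 * X ^ 5 + 46 * X ^ 6 + 69 * X ^ 7 + 48 * X ^ 8 + 33 * X ^ 9 + 41 * X ^ 10 + 28 * X ^ 11) (-68 - 47 * X - 10 * X ^ 2 - 41 * X ^ 3 - 51 * X ^ 4 - 24 * X ^ 5 - 28 * X ^ 6 - 42 * X ^ 7 - 29 * X ^ 8 - 20 * X ^ 9 - 25 * X ^ 10 - 17 * X ^ 11) (-3909) (-6401 - 80 * X - X ^ 2) (18 - 44 * X + 24 * X ^ 2 - 21 * X ^ 3 + 3 * X ^ 4 - 36 * X ^ 5 + 11 * X ^ 6 - 49 * X ^ 7 - 17 * X ^ 8 + 62 * X ^ 9 - 50 * X ^ 10 + X ^ 11) (11 - 27 * X + 15 * X ^ 2 - 13 * X ^ 3 + 2 * X ^ 4 - 22 * X ^ 5 + 7 * X ^ 6 - 30 * X ^ 7 - 10 * X ^ 8 + 38 * X ^ 9 - 31 * X ^ 10 + X ^ 11) (-20 - 13 * X - 28 * X ^ 2) (12 + 8 * X + 17 * X ^ 2) (0)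
    ?_ ?_ ?_ ?_ ?_ ?_
  · exact monic_X_sub_C _
  · rw [Polynomial.map_sub, map_X, map_C]; exact irreducible_X_sub_C _
  · rw [cyclotomic_13]; (try simp only [map_ofNat, map_one, Nat.cast_ofNat, Nat.cast_one]); ring
  · rw [cyclotomic_13]; (try simp only [map_ofNat, map_one, Nat.cast_ofNat, Nat.cast_one]); ring
  · rw [cyclotomic_13]; (try simp only [map_ofNat, map_one, Nat.cast_ofNat, Nat.cast_one]); ring
  · rw [cyclotomic_13]; (try simp only [map_ofNat, map_one, Nat.cast_ofNat, Nat.cast_one]); ring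

theorem principal_13_157 (K : Type*) [Field K] [NumberField K] [IsCyclotomicExtension {13} ℚ K] :
    ∃ P ∈ Ideal.primesOver (Ideal.span {((157 : ℕ) : ℤ)}) (𝓞 K), Submodule.IsPrincipal P := by
  have : Fact (Nat.Prime 157) := ⟨by norm_num⟩
  refine exists_principal_prime_of_cert (n := 13) (K := K) 157
    (X - C 75) (1 - X + X ^ 2 + X ^ 4) (89 + 86 * X + 42 * X ^ 2 + 77 * X ^ 3 + 67 * X ^ 4 + 25 * X ^ 5 + 37 * X ^ 6 + 56 * X ^ 7 + 73 * X ^ 8 + 113 * X ^ 9 + 124 * X ^ 10 + 76 * X ^ 11) (-43 - 41 * X - 20 * X ^ 2 - 37 * X ^ 3 - 32 * X ^ 4 - 12 * X ^ 5 - 18 * X ^ 6 - 27 * X ^ 7 - 35 * X ^ 8 - 54 * X ^ 9 - 59 * X ^ 10 - 36 * X ^ 11) (201568) (421949 + 5626 * X + 75 * X ^ 2 + X ^ 3) (-67 - 3 * X + 46 * X ^ 2 + 32 * X ^ 3 + 36 * X ^ 4 - 10 * X ^ 5 + 48 * X ^ 6 + 9 * X ^ 7 + 65 * X ^ 8 + 49 * X ^ 9 + 76 * X ^ 10 + X ^ 11) (-32 - X + 22 * X ^ 2 + 15 * X ^ 3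 + 17 * X ^ 4 - 5 * X ^ 5 + 23 * X ^ 6 + 4 * X ^ 7 + 31 * X ^ 8 + 23 * X ^ 9 + 36 * X ^ 10) (-68 + 65 * X + 48 * X ^ 2 + 76 * X ^ 3) (32 - 31 * X - 23 * X ^ 2 - 36 * X ^ 3) (0)
    ?_ ?_ ?_ ?_ ?_ ?_
  · exact monic_X_sub_C _
  · rw [Polynomial.map_sub, map_X, map_C]; exact irreducible_X_sub_C _
  · rw [cyclotomic_13]; (try simp only [map_ofNat, map_one, Nat.cast_ofNat, Nat.cast_one]); ring
  · rw [cyclotomic_13]; (try simp only [map_ofNat, map_one, Nat.cast_ofNat, Nat.cast_one]); ring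
  · rw [cyclotomic_13]; (try simp only [map_ofNat, map_one, Nat.cast_ofNat, Nat.cast_one]); ring
  · rw [cyclotomic_13]; (try simp only [map_ofNat, map_one, Nat.cast_ofNat, Nat.cast_one]); ring

theorem exists_principal_prime_over_thirteen (K : Type*) [Field K] [NumberField K]
    [IsCyclotomicExtension {13} ℚ K] (l : ℕ)
    (hl : l = 3 ∨ l = 13 ∨ l = 53 ∨ l = 79 ∨ l = 131 ∨ l = 157) :
    ∃ P ∈ Ideal.primesOver (Ideal.span {(l : ℤ)}) (𝓞 K), Submodule.IsPrincipal P := by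
  rcases hl with rfl | rfl | rfl | rfl | rfl | rfl
  · exact principal_13_3 K
  · exact principal_13_13 K
  · exact principal_13_53 K
  · exact principal_13_79 K
  · exact principal_13_131 K
  · exact principal_13_157 K

end Fermat.Agent.S10.H39
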