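import Mathlib

set_option autoImplicit false
set_option linter.unnecessarySeqFocus false
set_option linter.unreachableTactic false
set_option linter.unusedTactic false

namespace Fermat.Agent.S10.H39

open NumberField Module InfinitePlace Nat Real

theorem eq_of_prime_dvd_pow_7 {p f q : ℕ} (hp : p.Prime) (hq : q.Prime) (h : q ∣ p ^ f) :
    q = p :=
  (Nat.prime_dvd_prime_iff_eq hq hp).mp (hq.dvd_of_dvd_pow h)

theorem key_7 (p f : ℕ) (hp : p.Prime) (hf : 0 < f) (hmod : p ^ f % 7 = 1)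
    (hle : p ^ f ≤ 4) : False := by
  have h2 : 2 ≤ p ^ f := le_trans hp.two_le (Nat.le_self_pow hf.ne' p)
  omega

theorem minkowski_7_lt (K : Type*) [Field K] [NumberField K] [IsCyclotomicExtension {7} ℚ K] :
    (4 / π) ^ nrComplexPlaces K *
      ((finrank ℚ K)! / (finrank ℚ K) ^ (finrank ℚ K) * √|discr K|) < 5 := by
  have : Fact (Nat.Prime 7) := ⟨by norm_num⟩
  rw [IsCyclotomicExtension.Rat.discr_prime 7 K, IsCyclotomicExtension.finrank (n := 7) K
    (Polynomial.cyclotomic.irreducible_rat (by norm_num)),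
    IsCyclotomicExtension.Rat.nrComplexPlaces_eq_totient_div_two 7, totient_prime (by norm_num)]
  norm_num [Nat.factorial]
  have hsqrt : √(16807 : ℝ) ≤ 130 := by
    rw [Real.sqrt_le_iff]
    constructor <;> norm_num
  have hpi : (4 / π) ^ 3 ≤ (4 / 3.1415) ^ 3 := by
    gcongr
    exact pi_gt_d4.le
  calc (4 / π) ^ 3 * (5 / 324 * √(16807 : ℝ))
      ≤ (4 / 3.1415) ^ 3 * (5 / 324 * 130) := by
        gcongr
    _ < 5 := by norm_num

theorem seven_pid (K : Type*) [Field K] [NumberField K] [IsCyclotomicExtension {7} ℚ K] :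
    IsPrincipalIdealRing (𝓞 K) := by
  have : IsGalois ℚ K := IsCyclotomicExtension.isGalois {7} ℚ K
  have hqprime : Fact (Nat.Prime 7) := ⟨by norm_num⟩
  apply RingOfIntegers.isPrincipalIdealRing_of_isPrincipal_of_lt_or_isPrincipal_of_mem_primesOver_of_mem_Icc
  intro p hp hpprime
  have hM : ⌊(4 / π) ^ nrComplexPlaces K *
      ((finrank ℚ K)! / (finrank ℚ K) ^ (finrank ℚ K) * √|discr K|)⌋₊ ≤ 4 := by
    have h := minkowski_7_lt K
    have h' : ⌊(4 / π) ^ nrComplexPlaces K *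
      ((finrank ℚ K)! / (finrank ℚ K) ^ (finrank ℚ K) * √|discr K|)⌋₊ < 5 := by
      rw [Nat.floor_lt (by positivity)]
      exact_mod_cast h
    omega
  rw [Finset.mem_Icc] at hp
  have hpb : p ≤ 4 := hp.2.trans hM
  · have : Fact p.Prime := ⟨hpprime⟩
    have hpq : p ≠ 7 := by omega
    obtain ⟨⟨P, hP1, hP2⟩⟩ := (Ideal.span {(p : ℤ)}).nonempty_primesOver (S := 𝓞 K)
    refine ⟨P, ⟨hP1, hP2⟩, Or.inl ?_⟩
    have hndvd : ¬ p ∣ 7 := by
      intro h
      exact hpq ((Nat.prime_dvd_prime_iff_eq hpprime (by norm_num : Nat.Prime 7)).mp h)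
    rw [IsCyclotomicExtension.Rat.inertiaDeg_eq_of_not_dvd p K P hndvd]
    apply lt_of_le_of_lt hM
    by_contra hcon
    rw [not_lt] at hcon
    have hne0 : (p : ZMod 7) ≠ 0 := by
      rw [Ne, ZMod.natCast_eq_zero_iff]
      intro h
      exact hpq ((Nat.prime_dvd_prime_iff_eq (by norm_num : Nat.Prime 7) hpprime).mp h).symm
    have hfin : IsOfFinOrder ((p : ZMod 7)) :=
      isOfFinOrder_iff_pow_eq_one.mpr ⟨6, by norm_num, ZMod.pow_card_sub_one_eq_one hne0⟩
    have hpos : 0 < orderOf (p : ZMod 7) := hfin.orderOf_pos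
    have hpow : ((p : ZMod 7)) ^ orderOf (p : ZMod 7) = 1 := pow_orderOf_eq_one _
    have hmod : p ^ orderOf (p : ZMod 7) % 7 = 1 := by
      have h1 : ((p ^ orderOf (p : ZMod 7) : ℕ) : ZMod 7) = ((1 : ℕ) : ZMod 7) := by
        push_cast
        exact hpow
      rw [ZMod.natCast_eq_natCast_iff'] at h1
      exact h1
    exact key_7 p _ hpprime hpos hmod hcon

end Fermat.Agent.S10.H39
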