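import Mathlib
import Fermat.Prelude.Def_FLTPrelim_FreyPackage
import Fermat.Agent.S10.KummerCount_helper8
import Fermat.Agent.S10.Dlog_helper8
import Fermat.Agent.S10.CaseI_helper42
import Fermat.Agent.S10.FreyGlue_helper60
import Fermat.Agent.S10.PID7_helper39
import Fermat.Agent.S10.PID11_helper39
import Fermat.Agent.S10.PID13_helper39

set_option autoImplicit false

namespace Fermat.Agent.S10.H08

open NumberField

/-- Kummer's lemma for `p = 5, 7, 11, 13`: a unit of the `p`-th cyclotomic ring of integers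
which is congruent to a rational integer modulo `p` is a `p`-th power. -/
theorem kummer_lemma {p : ℕ} [hpp : Fact p.Prime] (hp : p = 5 ∨ p = 7 ∨ p = 11 ∨ p = 13)
    {K : Type} [Field K] [NumberField K] [IsCyclotomicExtension {p} ℚ K] (u : (𝓞 K)ˣ)
    (h : ∃ n : ℤ, (p : 𝓞 K) ∣ (u : 𝓞 K) - n) : ∃ v : (𝓞 K)ˣ, u = v ^ p := by
  obtain ⟨V, _, _, φ, w, hker, hind⟩ := exists_dlog hp K
  have : NeZero p := ⟨hpp.out.ne_zero⟩
  obtain ⟨S, hS, hrep⟩ := exists_unit_reps K p
  have h2 : 2 < p := by rcases hp with rfl | rfl | rfl | rfl <;> norm_num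
  rw [rank_add_one_of_cyclotomic (p := p) h2 K] at hS
  exact exists_pow_eq_of_map_eq_one φ w hind S hS hrep u (hker u h)

/-- The `p`-th cyclotomic ring of integers is a PID for `p = 5, 7, 11, 13`. -/
theorem pid_small {p : ℕ} (hp : p = 5 ∨ p = 7 ∨ p = 11 ∨ p = 13)
    (K : Type) [Field K] [NumberField K] [IsCyclotomicExtension {p} ℚ K] :
    IsPrincipalIdealRing (𝓞 K) := by
  rcases hp with rfl | rfl | rfl | rfl
  · exact IsCyclotomicExtension.Rat.five_pid K
  · exact H39.seven_pid K
  · exact H39.eleven_pid K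
  · exact H39.thirteen_pid K

set_option backward.isDefEq.respectTransparency false in
/-- There is no Frey package with exponent `5`, `7`, `11` or `13`. -/
theorem freyPackage_false_of_small (P : FreyPackage)
    (hp : P.p = 5 ∨ P.p = 7 ∨ P.p = 11 ∨ P.p = 13) : False := by
  have : Fact P.p.Prime := ⟨P.pp⟩
  have := pid_small hp (CyclotomicField P.p ℚ)
  exact H60.freyPackage_false P rfl (K := CyclotomicField P.p ℚ)
    (fun u hu => kummer_lemma hp u hu) (fun a b c hab h => H42.caseI hp a b c hab h)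

end Fermat.Agent.S10.H08
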