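import Mathlib

set_option autoImplicit false

namespace Fermat.Agent.S10.H68

open Finset

/-- The cofactor of `u + v` in `u ^ p + v ^ p` (for odd `p`). -/
def phi (p : ℕ) (u v : ℤ) : ℤ := ∑ i ∈ range p, u ^ i * (-v) ^ (p - 1 - i)

lemma add_mul_phi {p : ℕ} (hp : Odd p) (u v : ℤ) : (u + v) * phi p u v = u ^ p + v ^ p := by
  have h := Commute.geom_sum₂_mul (Commute.all u (-v)) p
  rw [hp.neg_pow] at h
  unfold phi
  linear_combination h

lemma isCoprime_add_phi {p : ℕ} (hp : p.Prime) (hodd : Odd p) {u v w : ℤ} (huv : IsCoprime u v)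
    (h : u ^ p + v ^ p + w ^ p = 0) (hw : ¬ (p : ℤ) ∣ w) : IsCoprime (u + v) (phi p u v) := by
  have hprod : (u + v) * phi p u v = -(w ^ p) := by
    rw [add_mul_phi hodd]; linear_combination h
  have hpZ : Prime (p : ℤ) := Nat.prime_iff_prime_int.mp hp
  apply isCoprime_of_prime_dvd
  · rintro ⟨h1, -⟩
    rw [h1, zero_mul] at hprod
    have hw0 : w = 0 := by
      have : w ^ p = 0 := by linear_combination hprod
      exact pow_eq_zero_iff hp.ne_zero |>.mp this
    exact hw (hw0 ▸ dvd_zero _)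
  · intro r hr hr1 hr2
    have h3 : r ∣ (p : ℤ) * (-v) ^ (p - 1) := by
      have h4 : r ∣ u - (-v) := by simpa using hr1
      exact (dvd_geom_sum₂_iff_of_dvd_sub h4).mp hr2
    rcases hr.dvd_or_dvd h3 with h4 | h4
    · have h5 : (p : ℤ) ∣ r := by
        rcases (hpZ.irreducible.dvd_iff.mp h4) with h6 | h6
        · exact absurd h6 hr.not_isUnit
        · exact h6.dvd
      have h6 : (p : ℤ) ∣ -(w ^ p) := hprod ▸ (h5.trans hr1).mul_right _
      rw [dvd_neg] at h6
      exact hw (hpZ.dvd_of_dvd_pow h6)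
    · have hv : r ∣ v := by
        have := hr.dvd_of_dvd_pow h4
        rwa [dvd_neg] at this
      have hu : r ∣ u := (dvd_add_left hv).mp hr1
      exact hr.not_isUnit (huv.isUnit_of_dvd' hu hv)

lemma exists_pow_eq {p : ℕ} (hp : p.Prime) (hodd : Odd p) {u v w : ℤ} (huv : IsCoprime u v)
    (h : u ^ p + v ^ p + w ^ p = 0) (hw : ¬ (p : ℤ) ∣ w) :
    (∃ A : ℤ, u + v = A ^ p) ∧ ∃ α : ℤ, phi p u v = α ^ p := by
  have hprod : (u + v) * phi p u v = (-w) ^ p := by
    rw [add_mul_phi hodd, hodd.neg_pow]; linear_combination h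
  exact Int.eq_pow_of_mul_eq_pow_odd (isCoprime_add_phi hp hodd huv h hw) hodd hprod

lemma not_both_zero {q : ℕ} [Fact q.Prime] {x y : ℤ} (hxy : IsCoprime x y)
    (hx : (x : ZMod q) = 0) (hy : (y : ZMod q) = 0) : False := by
  have h1 : (q : ℤ) ∣ x := (ZMod.intCast_zmod_eq_zero_iff_dvd x q).mp hx
  have h2 : (q : ℤ) ∣ y := (ZMod.intCast_zmod_eq_zero_iff_dvd y q).mp hy
  have h3 : IsUnit (q : ℤ) := hxy.isUnit_of_dvd' h1 h2
  have hq : q.Prime := Fact.out
  exact (Nat.prime_iff_prime_int.mp hq).not_isUnit h3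

lemma core {p q : ℕ} [Fact q.Prime] (hp : p.Prime) (hodd : Odd p)
    (h1 : ∀ x y z : ZMod q, x ^ p + y ^ p + z ^ p = 0 → x * y * z = 0)
    (h2 : ∀ x : ZMod q, x ^ p ≠ (p : ZMod q))
    {x y z : ℤ} (hxy : IsCoprime x y) (hyz : IsCoprime y z) (hzx : IsCoprime z x)
    (h : x ^ p + y ^ p + z ^ p = 0)
    (hpx : ¬ (p : ℤ) ∣ x) (hpy : ¬ (p : ℤ) ∣ y) (hpz : ¬ (p : ℤ) ∣ z)
    (hqx : (x : ZMod q) = 0) : False := by
  obtain ⟨⟨A, hA⟩, ⟨α, hα⟩⟩ := exists_pow_eq hp hodd hyz (w := x) (by linear_combination h) hpx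
  obtain ⟨⟨B, hB⟩, -⟩ := exists_pow_eq hp hodd hzx (w := y) (by linear_combination h) hpy
  obtain ⟨⟨C, hC⟩, ⟨γ, hγ⟩⟩ := exists_pow_eq hp hodd hxy (w := z) (by linear_combination h) hpz
  have hA' : (y : ZMod q) + z = (A : ZMod q) ^ p := by exact_mod_cast congrArg (Int.cast : ℤ → ZMod q) hA
  have hB' : (z : ZMod q) + x = (B : ZMod q) ^ p := by exact_mod_cast congrArg (Int.cast : ℤ → ZMod q) hB
  have hC' : (x : ZMod q) + y = (C : ZMod q) ^ p := by exact_mod_cast congrArg (Int.cast : ℤ → ZMod q) hC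
  have hα' : ∑ i ∈ range p, (y : ZMod q) ^ i * (-(z : ZMod q)) ^ (p - 1 - i) = (α : ZMod q) ^ p := by
    have := congrArg (Int.cast : ℤ → ZMod q) hα
    unfold phi at this
    push_cast at this
    exact this
  have hγ' : ∑ i ∈ range p, (x : ZMod q) ^ i * (-(y : ZMod q)) ^ (p - 1 - i) = (γ : ZMod q) ^ p := by
    have := congrArg (Int.cast : ℤ → ZMod q) hγ
    unfold phi at this
    push_cast at this
    exact this
  have hsum : (B : ZMod q) ^ p + (C : ZMod q) ^ p + (-(A : ZMod q)) ^ p = 0 := by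
    rw [hodd.neg_pow, ← hA', ← hB', ← hC', hqx]; ring
  have hprod := h1 _ _ _ hsum
  have hy0 : (y : ZMod q) ≠ 0 := fun hy => not_both_zero hxy hqx hy
  have hz0 : (z : ZMod q) ≠ 0 := fun hz => not_both_zero hzx hz hqx
  rcases mul_eq_zero.mp hprod with hBC | hA0
  · rcases mul_eq_zero.mp hBC with hB0 | hC0
    · rw [hB0, zero_pow hp.ne_zero, hqx, add_zero] at hB'
      exact hz0 hB'
    · rw [hC0, zero_pow hp.ne_zero, hqx, zero_add] at hC'
      exact hy0 hC'
  · have hA0' : (A : ZMod q) = 0 := neg_eq_zero.mp hA0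
    rw [hA0', zero_pow hp.ne_zero] at hA'
    have hzy : -(z : ZMod q) = y := by linear_combination -hA'
    rw [hzy, geom_sum₂_self] at hα'
    have hpos : 0 < p := hp.pos
    have hγ'' : (y : ZMod q) ^ (p - 1) = (γ : ZMod q) ^ p := by
      rw [← hγ', hqx, Finset.sum_eq_single_of_mem 0 (Finset.mem_range.mpr hpos)]
      · have heven : Even (p - 1) := by
          rcases hodd with ⟨k, hk⟩
          exact ⟨k, by omega⟩
        simp [heven.neg_pow]
      · intro i _ hi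
        simp [zero_pow hi]
    have hγ0 : (γ : ZMod q) ≠ 0 := by
      intro h0
      rw [h0, zero_pow hp.ne_zero] at hγ''
      exact hy0 (pow_eq_zero_iff (by have := hp.two_le; omega : p - 1 ≠ 0) |>.mp hγ'')
    apply h2 ((α : ZMod q) / γ)
    rw [div_pow, ← hα', ← hγ'']
    have hne : (y : ZMod q) ^ (p - 1) ≠ 0 := pow_ne_zero _ hy0
    field_simp

theorem sophie_germain {p q : ℕ} [Fact q.Prime] (hp : p.Prime) (hodd : Odd p)
    (h1 : ∀ x y z : ZMod q, x ^ p + y ^ p + z ^ p = 0 → x * y * z = 0)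
    (h2 : ∀ x : ZMod q, x ^ p ≠ (p : ZMod q))
    {x y z : ℤ} (hxy : IsCoprime x y) (h : x ^ p + y ^ p + z ^ p = 0) :
    (p : ℤ) ∣ x * y * z := by
  by_contra hcon
  have hpx : ¬ (p : ℤ) ∣ x := fun hx => hcon ((hx.mul_right y).mul_right z)
  have hpy : ¬ (p : ℤ) ∣ y := fun hy => hcon ((hy.mul_left x).mul_right z)
  have hpz : ¬ (p : ℤ) ∣ z := fun hz => hcon (hz.mul_left (x * y))
  have hyz : IsCoprime y z := by
    apply isCoprime_of_prime_dvd
    · rintro ⟨hy, -⟩
      exact hpy (hy ▸ dvd_zero _)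
    · intro r hr hry hrz
      have hrx : r ∣ x ^ p := by
        have : x ^ p = -(y ^ p + z ^ p) := by linear_combination h
        rw [this, dvd_neg]
        exact dvd_add (dvd_pow hry hp.ne_zero) (dvd_pow hrz hp.ne_zero)
      exact hr.not_isUnit (hxy.isUnit_of_dvd' (hr.dvd_of_dvd_pow hrx) hry)
  have hzx : IsCoprime z x := by
    apply isCoprime_of_prime_dvd
    · rintro ⟨hz, -⟩
      exact hpz (hz ▸ dvd_zero _)
    · intro r hr hrz hrx
      have hry : r ∣ y ^ p := by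
        have : y ^ p = -(x ^ p + z ^ p) := by linear_combination h
        rw [this, dvd_neg]
        exact dvd_add (dvd_pow hrx hp.ne_zero) (dvd_pow hrz hp.ne_zero)
      exact hr.not_isUnit (hxy.isUnit_of_dvd' hrx (hr.dvd_of_dvd_pow hry))
  have hcast : (x : ZMod q) ^ p + (y : ZMod q) ^ p + (z : ZMod q) ^ p = 0 := by
    exact_mod_cast congrArg (Int.cast : ℤ → ZMod q) h
  rcases mul_eq_zero.mp (h1 _ _ _ hcast) with hxy0 | hz0
  · rcases mul_eq_zero.mp hxy0 with hx0 | hy0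
    · exact core hp hodd h1 h2 hxy hyz hzx h hpx hpy hpz hx0
    · exact core hp hodd h1 h2 hyz hzx hxy (by linear_combination h) hpy hpz hpx hy0
  · exact core hp hodd h1 h2 hzx hxy hyz (by linear_combination h) hpz hpx hpy hz0

/-- Reduction of the first auxiliary-prime condition to a finite check on the set of `p`-th powers. -/
lemma cond_one {p q : ℕ} [Fact q.Prime] (hp : p ≠ 0) (S : Finset (ZMod q))
    (hS : ∀ x : ZMod q, x ^ p = 0 ∨ x ^ p ∈ S)
    (hsum : ∀ a ∈ S, ∀ b ∈ S, ∀ c ∈ S, a + b + c ≠ 0) :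
    ∀ x y z : ZMod q, x ^ p + y ^ p + z ^ p = 0 → x * y * z = 0 := by
  intro x y z h
  rcases hS x with hx | hx
  · rw [pow_eq_zero_iff hp |>.mp hx]; simp
  rcases hS y with hy | hy
  · rw [pow_eq_zero_iff hp |>.mp hy]; simp
  rcases hS z with hz | hz
  · rw [pow_eq_zero_iff hp |>.mp hz]; simp
  exact absurd h (hsum _ hx _ hy _ hz)

theorem prime_q11 : Nat.Prime 11 := by norm_num
theorem prime_q23 : Nat.Prime 23 := by norm_num
theorem prime_q29 : Nat.Prime 29 := by norm_num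
theorem prime_q53 : Nat.Prime 53 := by norm_num

theorem caseI_five {x y z : ℤ} (hxy : IsCoprime x y) (h : x ^ 5 + y ^ 5 + z ^ 5 = 0) :
    ((5 : ℕ) : ℤ) ∣ x * y * z :=
  @sophie_germain 5 11 ⟨prime_q11⟩ (by norm_num) (by decide)
    (@cond_one 5 11 ⟨prime_q11⟩ (by norm_num) {1, -1} (by decide +kernel) (by decide +kernel))
    (by decide +kernel) x y z hxy h

theorem caseI_seven {x y z : ℤ} (hxy : IsCoprime x y) (h : x ^ 7 + y ^ 7 + z ^ 7 = 0) :
    ((7 : ℕ) : ℤ) ∣ x * y * z :=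
  @sophie_germain 7 29 ⟨prime_q29⟩ (by norm_num) (by decide)
    (@cond_one 7 29 ⟨prime_q29⟩ (by norm_num) {1, -1, 12, -12} (by decide +kernel)
      (by decide +kernel))
    (by decide +kernel) x y z hxy h

theorem caseI_eleven {x y z : ℤ} (hxy : IsCoprime x y) (h : x ^ 11 + y ^ 11 + z ^ 11 = 0) :
    ((11 : ℕ) : ℤ) ∣ x * y * z :=
  @sophie_germain 11 23 ⟨prime_q23⟩ (by norm_num) (by decide)
    (@cond_one 11 23 ⟨prime_q23⟩ (by norm_num) {1, -1} (by decide +kernel) (by decide +kernel))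
    (by decide +kernel) x y z hxy h

theorem caseI_thirteen {x y z : ℤ} (hxy : IsCoprime x y) (h : x ^ 13 + y ^ 13 + z ^ 13 = 0) :
    ((13 : ℕ) : ℤ) ∣ x * y * z :=
  @sophie_germain 13 53 ⟨prime_q53⟩ (by norm_num) (by decide)
    (@cond_one 13 53 ⟨prime_q53⟩ (by norm_num) {1, -1, 23, -23} (by decide +kernel)
      (by decide +kernel))
    (by decide +kernel) x y z hxy h

/-- First case of Fermat's Last Theorem for the exponents `5, 7, 11, 13`. -/
theorem caseI {p : ℕ} (hp : p = 5 ∨ p = 7 ∨ p = 11 ∨ p = 13) {a b c : ℤ} (hab : IsCoprime a b)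
    (h : a ^ p + b ^ p = c ^ p) : (p : ℤ) ∣ a * b * c := by
  have key : ∀ {n : ℕ}, Odd n → a ^ n + b ^ n = c ^ n → a ^ n + b ^ n + (-c) ^ n = 0 := by
    intro n hn hh
    rw [hn.neg_pow]; linear_combination hh
  have fin : ∀ {n : ℕ}, ((n : ℕ) : ℤ) ∣ a * b * (-c) → ((n : ℕ) : ℤ) ∣ a * b * c := by
    intro n hh
    have : a * b * (-c) = -(a * b * c) := by ring
    rwa [this, dvd_neg] at hh
  rcases hp with rfl | rfl | rfl | rfl
  · exact fin (caseI_five hab (key (by decide) h))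
  · exact fin (caseI_seven hab (key (by decide) h))
  · exact fin (caseI_eleven hab (key (by decide) h))
  · exact fin (caseI_thirteen hab (key (by decide) h))

end Fermat.Agent.S10.H68
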