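import Mathlib

set_option autoImplicit false

open NumberField Polynomial

namespace Fermat.Agent.S10.H09

section generic

variable (p : ℕ) [hp : Fact p.Prime]

/-- The truncated polynomial ring `F_p[t]/(t^(p-2))`. -/
noncomputable abbrev TR : Type := AdjoinRoot ((X : (ZMod p)[X]) ^ (p - 2))

/-- The class of `t`. -/
noncomputable abbrev tt : TR p := AdjoinRoot.root ((X : (ZMod p)[X]) ^ (p - 2))

lemma tt_pow : (tt p) ^ (p - 2) = 0 := by
  have h := AdjoinRoot.eval₂_root ((X : (ZMod p)[X]) ^ (p - 2))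
  simpa using h

/-- the image of zeta in the dual numbers -/
noncomputable abbrev zz : DualNumber (TR p) := TrivSqZeroExt.inl (1 + tt p) + DualNumber.eps

lemma natCast_dual_eq_zero : ((p : ℕ) : DualNumber (TR p)) = 0 := by
  rw [← map_natCast (algebraMap (ZMod p) (DualNumber (TR p))) p, ZMod.natCast_self, map_zero]

lemma zz_sub_one_pow : (zz p - 1) ^ (p - 1) = 0 := by
  have h2 : 2 ≤ p := hp.out.two_le
  have h1 : zz p - 1 = TrivSqZeroExt.inl (tt p) + DualNumber.eps := by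
    ext <;> simp [zz]
  rw [h1]
  ext
  · simp only [TrivSqZeroExt.fst_pow, TrivSqZeroExt.fst_add, TrivSqZeroExt.fst_inl,
      DualNumber.fst_eps, add_zero, TrivSqZeroExt.fst_zero]
    have : p - 1 = (p - 2) + 1 := by omega
    rw [this, pow_succ, tt_pow, zero_mul]
  · rw [TrivSqZeroExt.snd_pow]
    simp only [TrivSqZeroExt.fst_add, TrivSqZeroExt.fst_inl,
      DualNumber.fst_eps, add_zero, TrivSqZeroExt.snd_zero]
    have : (p - 1).pred = p - 2 := by rw [Nat.pred_eq_sub_one]; omega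
    rw [this, tt_pow]
    simp

lemma cyclotomic_zmod_eq : cyclotomic p (ZMod p) = (X - 1) ^ (p - 1) := by
  have h := cyclotomic_mul_prime_pow_eq (ZMod p) (p := p) (m := 1) (by
    intro h; exact hp.out.one_lt.ne' (Nat.dvd_one.mp h)) (k := 1) one_pos
  simpa [cyclotomic_one] using h

lemma aeval_zz_cyclotomic : aeval (zz p) (cyclotomic p ℤ) = 0 := by
  have h1 : aeval (zz p) (cyclotomic p (ZMod p)) = aeval (zz p) (cyclotomic p ℤ) := by
    rw [← map_cyclotomic_int p (ZMod p), ← algebraMap_int_eq, aeval_map_algebraMap]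
  rw [← h1, cyclotomic_zmod_eq]
  simp [zz_sub_one_pow]

section field

variable (K : Type) [Field K] [NumberField K] [IsCyclotomicExtension {p} ℚ K]

/-- the chosen primitive root, as an integer of `K` -/
noncomputable abbrev zetaInt : 𝓞 K := (IsCyclotomicExtension.zeta_spec p ℚ K).toInteger

lemma minpoly_zetaInt : minpoly ℤ (zetaInt p K) = cyclotomic p ℤ := by
  rw [← RingOfIntegers.minpoly_coe]
  exact (cyclotomic_eq_minpoly (IsCyclotomicExtension.zeta_spec p ℚ K) hp.out.pos).symm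

/-- the ring hom to the dual numbers over the truncated polynomial ring -/
noncomputable def psi : 𝓞 K →ₐ[ℤ] DualNumber (TR p) :=
  (IsCyclotomicExtension.zeta_spec p ℚ K).integralPowerBasis.lift (zz p) (by
    rw [IsPrimitiveRoot.integralPowerBasis_gen, minpoly_zetaInt]
    exact aeval_zz_cyclotomic p)

lemma psi_zetaInt : psi p K (zetaInt p K) = zz p := by
  have hg := IsPrimitiveRoot.integralPowerBasis_gen (IsCyclotomicExtension.zeta_spec p ℚ K)
  calc psi p K (zetaInt p K)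
      = psi p K (IsCyclotomicExtension.zeta_spec p ℚ K).integralPowerBasis.gen := by rw [hg]
    _ = zz p := PowerBasis.lift_gen _ _ _

/-- the logarithmic derivative -/
noncomputable def dlog : (𝓞 K)ˣ →* Multiplicative (TR p) where
  toFun u := Multiplicative.ofAdd
    (TrivSqZeroExt.snd (psi p K (u : 𝓞 K)) * TrivSqZeroExt.fst (psi p K ((u⁻¹ : (𝓞 K)ˣ) : 𝓞 K)))
  map_one' := by simp
  map_mul' u v := by
    have hu : TrivSqZeroExt.fst (psi p K (u : 𝓞 K)) *
        TrivSqZeroExt.fst (psi p K ((u⁻¹ : (𝓞 K)ˣ) : 𝓞 K)) = 1 := by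
      rw [← TrivSqZeroExt.fst_mul, ← map_mul, Units.mul_inv, map_one, TrivSqZeroExt.fst_one]
    have hv : TrivSqZeroExt.fst (psi p K (v : 𝓞 K)) *
        TrivSqZeroExt.fst (psi p K ((v⁻¹ : (𝓞 K)ˣ) : 𝓞 K)) = 1 := by
      rw [← TrivSqZeroExt.fst_mul, ← map_mul, Units.mul_inv, map_one, TrivSqZeroExt.fst_one]
    rw [← ofAdd_add]
    congr 1
    simp only [Units.val_mul, mul_inv_rev, map_mul, DualNumber.snd_mul, TrivSqZeroExt.fst_mul]
    linear_combination
      (TrivSqZeroExt.snd (psi p K (v : 𝓞 K)) * TrivSqZeroExt.fst (psi p K ((v⁻¹ : (𝓞 K)ˣ) : 𝓞 K))) * hu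
      + (TrivSqZeroExt.snd (psi p K (u : 𝓞 K)) * TrivSqZeroExt.fst (psi p K ((u⁻¹ : (𝓞 K)ˣ) : 𝓞 K))) * hv

lemma fst_mul_dlog (u : (𝓞 K)ˣ) :
    TrivSqZeroExt.fst (psi p K (u : 𝓞 K)) * Multiplicative.toAdd (dlog p K u) =
      TrivSqZeroExt.snd (psi p K (u : 𝓞 K)) := by
  have hu : TrivSqZeroExt.fst (psi p K (u : 𝓞 K)) *
      TrivSqZeroExt.fst (psi p K ((u⁻¹ : (𝓞 K)ˣ) : 𝓞 K)) = 1 := by
    rw [← TrivSqZeroExt.fst_mul, ← map_mul, Units.mul_inv, map_one, TrivSqZeroExt.fst_one]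
  change TrivSqZeroExt.fst (psi p K (u : 𝓞 K)) *
    (TrivSqZeroExt.snd (psi p K (u : 𝓞 K)) * TrivSqZeroExt.fst (psi p K ((u⁻¹ : (𝓞 K)ˣ) : 𝓞 K))) = _
  linear_combination (TrivSqZeroExt.snd (psi p K (u : 𝓞 K))) * hu

lemma dlog_eq_one_of_congr (u : (𝓞 K)ˣ) (h : ∃ n : ℤ, (p : 𝓞 K) ∣ (u : 𝓞 K) - n) :
    dlog p K u = 1 := by
  obtain ⟨n, x, hx⟩ := h
  have hu : (u : 𝓞 K) = n + p * x := by rw [← hx]; ring
  have h1 : psi p K (u : 𝓞 K) = (n : DualNumber (TR p)) := by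
    rw [hu, map_add, map_mul, map_natCast, map_intCast, natCast_dual_eq_zero, zero_mul, add_zero]
  change Multiplicative.ofAdd _ = 1
  rw [h1, TrivSqZeroExt.snd_intCast, zero_mul]
  rfl

lemma fst_psi_zeta_pow (i : ℕ) :
    TrivSqZeroExt.fst (psi p K (zetaInt p K ^ i)) = (1 + tt p) ^ i := by
  rw [map_pow, psi_zetaInt, TrivSqZeroExt.fst_pow]
  simp [zz]

lemma snd_psi_zeta_pow (i : ℕ) :
    TrivSqZeroExt.snd (psi p K (zetaInt p K ^ i)) = (i : TR p) * (1 + tt p) ^ (i - 1) := by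
  rw [map_pow, psi_zetaInt, TrivSqZeroExt.snd_pow]
  simp [zz, Nat.pred_eq_sub_one]

lemma fst_psi_geom (k : ℕ) :
    TrivSqZeroExt.fst (psi p K (∑ i ∈ Finset.range k, zetaInt p K ^ i)) =
      ∑ i ∈ Finset.range k, (1 + tt p) ^ i := by
  rw [map_sum, TrivSqZeroExt.fst_sum]
  exact Finset.sum_congr rfl fun i _ => fst_psi_zeta_pow p K i

lemma snd_psi_geom (k : ℕ) :
    TrivSqZeroExt.snd (psi p K (∑ i ∈ Finset.range k, zetaInt p K ^ i)) =
      ∑ i ∈ Finset.range k, (i : TR p) * (1 + tt p) ^ (i - 1) := by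
  rw [map_sum, TrivSqZeroExt.snd_sum]
  exact Finset.sum_congr rfl fun i _ => snd_psi_zeta_pow p K i

/-- the unit `zeta` -/
noncomputable def zetaUnit : (𝓞 K)ˣ :=
  ((IsCyclotomicExtension.zeta_spec p ℚ K).toInteger_isPrimitiveRoot.isUnit hp.out.ne_zero).unit

lemma coe_zetaUnit : ((zetaUnit p K : (𝓞 K)ˣ) : 𝓞 K) = zetaInt p K := rfl

/-- the cyclotomic unit `1 + zeta + ... + zeta^(j-1)`, or `1` if `j` is not prime to `p` -/
noncomputable def cycUnit (j : ℕ) : (𝓞 K)ˣ :=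
  if hj : j.Coprime p then
    ((IsCyclotomicExtension.zeta_spec p ℚ K).toInteger_isPrimitiveRoot.geom_sum_isUnit
      hp.out.two_le hj).unit
  else 1

lemma coe_cycUnit {j : ℕ} (hj : j.Coprime p) :
    ((cycUnit p K j : (𝓞 K)ˣ) : 𝓞 K) = ∑ i ∈ Finset.range j, zetaInt p K ^ i := by
  rw [cycUnit, dif_pos hj]
  rfl

end field

lemma coeff_eq_zero_of_sum (b : ℕ → ZMod p)
    (h : ∑ i ∈ Finset.range (p - 2), algebraMap (ZMod p) (TR p) (b i) * (tt p) ^ i = 0) :
    ∀ i < p - 2, b i = 0 := by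
  have h1 : AdjoinRoot.mk ((X : (ZMod p)[X]) ^ (p - 2))
      (∑ i ∈ Finset.range (p - 2), C (b i) * X ^ i) = 0 := by
    rw [← h, map_sum]
    refine Finset.sum_congr rfl fun i _ => ?_
    rw [map_mul, map_pow, AdjoinRoot.mk_X, AdjoinRoot.mk_C]
    rfl
  rw [AdjoinRoot.mk_eq_zero, Polynomial.X_pow_dvd_iff] at h1
  intro i hi
  have h2 := h1 i hi
  rw [Polynomial.finsetSum_coeff] at h2
  simp only [coeff_C_mul, coeff_X_pow] at h2
  simpa [Finset.sum_ite_eq, hi] using h2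

end generic

end Fermat.Agent.S10.H09
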