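import Mathlib
import Fermat.Agent.S10.Dlog_helper9

set_option autoImplicit false

open NumberField Polynomial

namespace Fermat.Agent.S10.H09

section p11

variable [Fact (Nat.Prime 11)] (K : Type) [Field K] [NumberField K] [IsCyclotomicExtension {11} ℚ K]

/-- the explicit units for `p = 11` -/
noncomputable def w11 : Fin 5 → (𝓞 K)ˣ := ![zetaUnit 11 K, cycUnit 11 K 2, cycUnit 11 K 3, cycUnit 11 K 4, cycUnit 11 K 5]

theorem indep11 : LinearIndependent (ZMod 11)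
    (fun i => Multiplicative.toAdd (dlog 11 K (w11 K i))) := by
  rw [Fintype.linearIndependent_iff]
  intro c hc
  simp only [Fin.sum_univ_five, w11, Matrix.cons_val_zero, Matrix.cons_val_one, Matrix.cons_val, Algebra.smul_def] at hc
  have ht : (tt 11) ^ 9 = 0 := tt_pow 11
  have e0 := fst_mul_dlog 11 K (zetaUnit 11 K)
  rw [coe_zetaUnit, ← pow_one (zetaInt 11 K), fst_psi_zeta_pow, snd_psi_zeta_pow] at e0
  norm_num at e0
  have e1 := fst_mul_dlog 11 K (cycUnit 11 K 2)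
  rw [coe_cycUnit 11 K (by norm_num), fst_psi_geom, snd_psi_geom] at e1
  norm_num [Finset.sum_range_succ] at e1
  have e2 := fst_mul_dlog 11 K (cycUnit 11 K 3)
  rw [coe_cycUnit 11 K (by norm_num), fst_psi_geom, snd_psi_geom] at e2
  norm_num [Finset.sum_range_succ] at e2
  have e3 := fst_mul_dlog 11 K (cycUnit 11 K 4)
  rw [coe_cycUnit 11 K (by norm_num), fst_psi_geom, snd_psi_geom] at e3
  norm_num [Finset.sum_range_succ] at e3
  have e4 := fst_mul_dlog 11 K (cycUnit 11 K 5)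
  rw [coe_cycUnit 11 K (by norm_num), fst_psi_geom, snd_psi_geom] at e4
  norm_num [Finset.sum_range_succ] at e4
  have key : algebraMap (ZMod 11) (TR 11) (c 0 * 120 + c 1 * 60 + c 2 * 120 + c 3 * 180 + c 4 * 240) * (tt 11) ^ 0 +
      algebraMap (ZMod 11) (TR 11) (c 0 * 600 + c 1 * 330 + c 2 * 680 + c 3 * 1050 + c 4 * 1440) * (tt 11) ^ 1 +
      algebraMap (ZMod 11) (TR 11) (c 0 * 1450 + c 1 * 860 + c 2 * 1810 + c 3 * 2850 + c 4 * 3980) * (tt 11) ^ 2 +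
      algebraMap (ZMod 11) (TR 11) (c 0 * 2200 + c 1 * 1395 + c 2 * 2980 + c 3 * 4745 + c 4 * 6676) * (tt 11) ^ 3 +
      algebraMap (ZMod 11) (TR 11) (c 0 * 2299 + c 1 * 1552 + c 2 * 3349 + c 3 * 5356 + c 4 * 7524) * (tt 11) ^ 4 +
      algebraMap (ZMod 11) (TR 11) (c 0 * 1717 + c 1 * 1232 + c 2 * 2673 + c 3 * 4268 + c 4 * 5950) * (tt 11) ^ 5 +
      algebraMap (ZMod 11) (TR 11) (c 0 * 923 + c 1 * 704 + c 2 * 1528 + c 3 * 2422 + c 4 * 3341) * (tt 11) ^ 6 +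
      algebraMap (ZMod 11) (TR 11) (c 0 * 351 + c 1 * 285 + c 2 * 615 + c 3 * 963 + c 4 * 1314) * (tt 11) ^ 7 +
      algebraMap (ZMod 11) (TR 11) (c 0 * 90 + c 1 * 78 + c 2 * 166 + c 3 * 256 + c 4 * 346) * (tt 11) ^ 8 = 0 := by
    simp only [map_add, map_mul, map_ofNat, map_one, map_zero]
    generalize algebraMap (ZMod 11) (TR 11) (c 0) = C0 at hc ⊢
    generalize algebraMap (ZMod 11) (TR 11) (c 1) = C1 at hc ⊢
    generalize algebraMap (ZMod 11) (TR 11) (c 2) = C2 at hc ⊢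
    generalize algebraMap (ZMod 11) (TR 11) (c 3) = C3 at hc ⊢
    generalize algebraMap (ZMod 11) (TR 11) (c 4) = C4 at hc ⊢
    generalize Multiplicative.toAdd (dlog 11 K (zetaUnit 11 K)) = d0 at e0 hc
    generalize Multiplicative.toAdd (dlog 11 K (cycUnit 11 K 2)) = d1 at e1 hc
    generalize Multiplicative.toAdd (dlog 11 K (cycUnit 11 K 3)) = d2 at e2 hc
    generalize Multiplicative.toAdd (dlog 11 K (cycUnit 11 K 4)) = d3 at e3 hc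
    generalize Multiplicative.toAdd (dlog 11 K (cycUnit 11 K 5)) = d4 at e4 hc
    generalize tt 11 = t at *
    linear_combination ((1 + 1 * t) * (2 + 1 * t) * (3 + 3 * t + 1 * t ^ 2) * (4 + 6 * t + 4 * t ^ 2 + 1 * t ^ 3) * (5 + 10 * t + 10 * t ^ 2 + 5 * t ^ 3 + 1 * t ^ 4)) * hc
      - C0 * ((2 + 1 * t) * (3 + 3 * t + 1 * t ^ 2) * (4 + 6 * t + 4 * t ^ 2 + 1 * t ^ 3) * (5 + 10 * t + 10 * t ^ 2 + 5 * t ^ 3 + 1 * t ^ 4)) * e0
      - C1 * ((1 + 1 * t) * (3 + 3 * t + 1 * t ^ 2) * (4 + 6 * t + 4 * t ^ 2 + 1 * t ^ 3) * (5 + 10 * t + 10 * t ^ 2 + 5 * t ^ 3 + 1 * t ^ 4)) * e1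
      - C2 * ((1 + 1 * t) * (2 + 1 * t) * (4 + 6 * t + 4 * t ^ 2 + 1 * t ^ 3) * (5 + 10 * t + 10 * t ^ 2 + 5 * t ^ 3 + 1 * t ^ 4)) * e2
      - C3 * ((1 + 1 * t) * (2 + 1 * t) * (3 + 3 * t + 1 * t ^ 2) * (5 + 10 * t + 10 * t ^ 2 + 5 * t ^ 3 + 1 * t ^ 4)) * e3
      - C4 * ((1 + 1 * t) * (2 + 1 * t) * (3 + 3 * t + 1 * t ^ 2) * (4 + 6 * t + 4 * t ^ 2 + 1 * t ^ 3)) * e4
      - (C0 * (14 + 1 * t) + C1 * (13 + 1 * t) + C2 * (27 + 2 * t) + C3 * (41 + 3 * t) + C4 * (55 + 4 * t)) * ht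
  have h11 : ((11 : ℕ) : ZMod 11) = 0 := ZMod.natCast_self 11
  norm_num at h11
  let b : ℕ → ZMod 11 := fun i =>
    if i = 0 then c 0 * 120 + c 1 * 60 + c 2 * 120 + c 3 * 180 + c 4 * 240 else
    if i = 1 then c 0 * 600 + c 1 * 330 + c 2 * 680 + c 3 * 1050 + c 4 * 1440 else
    if i = 2 then c 0 * 1450 + c 1 * 860 + c 2 * 1810 + c 3 * 2850 + c 4 * 3980 else
    if i = 3 then c 0 * 2200 + c 1 * 1395 + c 2 * 2980 + c 3 * 4745 + c 4 * 6676 else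
    if i = 4 then c 0 * 2299 + c 1 * 1552 + c 2 * 3349 + c 3 * 5356 + c 4 * 7524 else
    if i = 5 then c 0 * 1717 + c 1 * 1232 + c 2 * 2673 + c 3 * 4268 + c 4 * 5950 else
    if i = 6 then c 0 * 923 + c 1 * 704 + c 2 * 1528 + c 3 * 2422 + c 4 * 3341 else
    if i = 7 then c 0 * 351 + c 1 * 285 + c 2 * 615 + c 3 * 963 + c 4 * 1314 else
    if i = 8 then c 0 * 90 + c 1 * 78 + c 2 * 166 + c 3 * 256 + c 4 * 346 else
    0
  have hb := coeff_eq_zero_of_sum 11 b (by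
    show ∑ i ∈ Finset.range 9, algebraMap (ZMod 11) (TR 11) (b i) * (tt 11) ^ i = 0
    simpa [Finset.sum_range_succ, b] using key)
  have b0 : c 0 * 120 + c 1 * 60 + c 2 * 120 + c 3 * 180 + c 4 * 240 = 0 := hb 0 (by norm_num)
  have b1 : c 0 * 600 + c 1 * 330 + c 2 * 680 + c 3 * 1050 + c 4 * 1440 = 0 := hb 1 (by norm_num)
  have b2 : c 0 * 1450 + c 1 * 860 + c 2 * 1810 + c 3 * 2850 + c 4 * 3980 = 0 := hb 2 (by norm_num)
  have b3 : c 0 * 2200 + c 1 * 1395 + c 2 * 2980 + c 3 * 4745 + c 4 * 6676 = 0 := hb 3 (by norm_num)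
  have b4 : c 0 * 2299 + c 1 * 1552 + c 2 * 3349 + c 3 * 5356 + c 4 * 7524 = 0 := hb 4 (by norm_num)
  have b5 : c 0 * 1717 + c 1 * 1232 + c 2 * 2673 + c 3 * 4268 + c 4 * 5950 = 0 := hb 5 (by norm_num)
  have b6 : c 0 * 923 + c 1 * 704 + c 2 * 1528 + c 3 * 2422 + c 4 * 3341 = 0 := hb 6 (by norm_num)
  have b7 : c 0 * 351 + c 1 * 285 + c 2 * 615 + c 3 * 963 + c 4 * 1314 = 0 := hb 7 (by norm_num)
  have b8 : c 0 * 90 + c 1 * 78 + c 2 * 166 + c 3 * 256 + c 4 * 346 = 0 := hb 8 (by norm_num)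
  have c0 : c 0 = 0 := by
    linear_combination 5 * b1 + 10 * b3 + 6 * b5 + 2 * b7 - (3273 * c 0 + 2142 * c 1 + 4588 * c 2 + 7294 * c 3 + 10208 * c 4) * h11
  have c1 : c 1 = 0 := by
    linear_combination 8 * b0 + 3 * b1 + 9 * b3 + 10 * b7 - (2370 * c 0 + 1534 * c 1 + 3270 * c 2 + 5175 * c 3 + 7224 * c 4) * h11
  have c2 : c 2 = 0 := by
    linear_combination 1 * b0 + 10 * b1 + 5 * b3 + 2 * b5 + 6 * b7 - (2060 * c 0 + 1319 * c 1 + 2805 * c 2 + 4429 * c 3 + 6164 * c 4) * h11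
  have c3 : c 3 = 0 := by
    linear_combination 7 * b0 + 8 * b1 + 3 * b3 + 10 * b5 + 7 * b7 - (2897 * c 0 + 1960 * c 1 + 4205 * c 2 + 6665 * c 3 + 9266 * c 4) * h11
  have c4 : c 4 = 0 := by
    linear_combination 5 * b1 + 10 * b3 + 5 * b5 + 2 * b7 - (3117 * c 0 + 2030 * c 1 + 4345 * c 2 + 6906 * c 3 + 9667 * c 4) * h11
  intro i
  fin_cases i <;> assumption

end p11

end Fermat.Agent.S10.H09
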