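import Mathlib
import Fermat.Agent.S10.Dlog_helper9

set_option autoImplicit false

open NumberField Polynomial

namespace Fermat.Agent.S10.H09

section p13

variable [Fact (Nat.Prime 13)] (K : Type) [Field K] [NumberField K] [IsCyclotomicExtension {13} ℚ K]

/-- the explicit units for `p = 13` -/
noncomputable def w13 : Fin 6 → (𝓞 K)ˣ := ![zetaUnit 13 K, cycUnit 13 K 2, cycUnit 13 K 3, cycUnit 13 K 4, cycUnit 13 K 5, cycUnit 13 K 6]

theorem indep13 : LinearIndependent (ZMod 13)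
    (fun i => Multiplicative.toAdd (dlog 13 K (w13 K i))) := by
  rw [Fintype.linearIndependent_iff]
  intro c hc
  simp only [Fin.sum_univ_six, w13, Matrix.cons_val_zero, Matrix.cons_val_one, Matrix.cons_val, Algebra.smul_def] at hc
  have ht : (tt 13) ^ 11 = 0 := tt_pow 13
  have e0 := fst_mul_dlog 13 K (zetaUnit 13 K)
  rw [coe_zetaUnit, ← pow_one (zetaInt 13 K), fst_psi_zeta_pow, snd_psi_zeta_pow] at e0
  norm_num at e0
  have e1 := fst_mul_dlog 13 K (cycUnit 13 K 2)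
  rw [coe_cycUnit 13 K (by norm_num), fst_psi_geom, snd_psi_geom] at e1
  norm_num [Finset.sum_range_succ] at e1
  have e2 := fst_mul_dlog 13 K (cycUnit 13 K 3)
  rw [coe_cycUnit 13 K (by norm_num), fst_psi_geom, snd_psi_geom] at e2
  norm_num [Finset.sum_range_succ] at e2
  have e3 := fst_mul_dlog 13 K (cycUnit 13 K 4)
  rw [coe_cycUnit 13 K (by norm_num), fst_psi_geom, snd_psi_geom] at e3
  norm_num [Finset.sum_range_succ] at e3
  have e4 := fst_mul_dlog 13 K (cycUnit 13 K 5)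
  rw [coe_cycUnit 13 K (by norm_num), fst_psi_geom, snd_psi_geom] at e4
  norm_num [Finset.sum_range_succ] at e4
  have e5 := fst_mul_dlog 13 K (cycUnit 13 K 6)
  rw [coe_cycUnit 13 K (by norm_num), fst_psi_geom, snd_psi_geom] at e5
  norm_num [Finset.sum_range_succ] at e5
  have key : algebraMap (ZMod 13) (TR 13) (c 0 * 720 + c 1 * 360 + c 2 * 720 + c 3 * 1080 + c 4 * 1440 + c 5 * 1800) * (tt 13) ^ 0 +
      algebraMap (ZMod 13) (TR 13) (c 0 * 5400 + c 1 * 2880 + c 2 * 5880 + c 3 * 9000 + c 4 * 12240 + c 5 * 15600) * (tt 13) ^ 1 +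
      algebraMap (ZMod 13) (TR 13) (c 0 * 20100 + c 1 * 11310 + c 2 * 23460 + c 3 * 36450 + c 4 * 50280 + c 5 * 64950) * (tt 13) ^ 2 +
      algebraMap (ZMod 13) (TR 13) (c 0 * 48750 + c 1 * 28770 + c 2 * 60430 + c 3 * 94920 + c 4 * 132156 + c 5 * 172030) * (tt 13) ^ 3 +
      algebraMap (ZMod 13) (TR 13) (c 0 * 85514 + c 1 * 52747 + c 2 * 111914 + c 3 * 177141 + c 4 * 247924 + c 5 * 323615) * (tt 13) ^ 4 +
      algebraMap (ZMod 13) (TR 13) (c 0 * 114257 + c 1 * 73512 + c 2 * 157223 + c 3 * 250078 + c 4 * 350660 + c 5 * 457250) * (tt 13) ^ 5 +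
      algebraMap (ZMod 13) (TR 13) (c 0 * 119573 + c 1 * 80159 + c 2 * 172483 + c 3 * 274997 + c 4 * 385236 + c 5 * 500545) * (tt 13) ^ 6 +
      algebraMap (ZMod 13) (TR 13) (c 0 * 99426 + c 1 * 69420 + c 2 * 149995 + c 3 * 239128 + c 4 * 333895 + c 5 * 431656) * (tt 13) ^ 7 +
      algebraMap (ZMod 13) (TR 13) (c 0 * 66014 + c 1 * 48010 + c 2 * 103950 + c 3 * 165322 + c 4 * 229676 + c 5 * 295254) * (tt 13) ^ 8 +
      algebraMap (ZMod 13) (TR 13) (c 0 * 34900 + c 1 * 26452 + c 2 * 57259 + c 3 * 90640 + c 4 * 125139 + c 5 * 159970) * (tt 13) ^ 9 +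
      algebraMap (ZMod 13) (TR 13) (c 0 * 14536 + c 1 * 11492 + c 2 * 24803 + c 3 * 38998 + c 4 * 53475 + c 5 * 68006) * (tt 13) ^ 10 = 0 := by
    simp only [map_add, map_mul, map_ofNat, map_one, map_zero]
    generalize algebraMap (ZMod 13) (TR 13) (c 0) = C0 at hc ⊢
    generalize algebraMap (ZMod 13) (TR 13) (c 1) = C1 at hc ⊢
    generalize algebraMap (ZMod 13) (TR 13) (c 2) = C2 at hc ⊢
    generalize algebraMap (ZMod 13) (TR 13) (c 3) = C3 at hc ⊢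
    generalize algebraMap (ZMod 13) (TR 13) (c 4) = C4 at hc ⊢
    generalize algebraMap (ZMod 13) (TR 13) (c 5) = C5 at hc ⊢
    generalize Multiplicative.toAdd (dlog 13 K (zetaUnit 13 K)) = d0 at e0 hc
    generalize Multiplicative.toAdd (dlog 13 K (cycUnit 13 K 2)) = d1 at e1 hc
    generalize Multiplicative.toAdd (dlog 13 K (cycUnit 13 K 3)) = d2 at e2 hc
    generalize Multiplicative.toAdd (dlog 13 K (cycUnit 13 K 4)) = d3 at e3 hc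
    generalize Multiplicative.toAdd (dlog 13 K (cycUnit 13 K 5)) = d4 at e4 hc
    generalize Multiplicative.toAdd (dlog 13 K (cycUnit 13 K 6)) = d5 at e5 hc
    generalize tt 13 = t at *
    linear_combination ((1 + 1 * t) * (2 + 1 * t) * (3 + 3 * t + 1 * t ^ 2) * (4 + 6 * t + 4 * t ^ 2 + 1 * t ^ 3) * (5 + 10 * t + 10 * t ^ 2 + 5 * t ^ 3 + 1 * t ^ 4) * (6 + 15 * t + 20 * t ^ 2 + 15 * t ^ 3 + 6 * t ^ 4 + 1 * t ^ 5)) * hc
      - C0 * ((2 + 1 * t) * (3 + 3 * t + 1 * t ^ 2) * (4 + 6 * t + 4 * t ^ 2 + 1 * t ^ 3) * (5 + 10 * t + 10 * t ^ 2 + 5 * t ^ 3 + 1 * t ^ 4) * (6 + 15 * t + 20 * t ^ 2 + 15 * t ^ 3 + 6 * t ^ 4 + 1 * t ^ 5)) * e0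
      - C1 * ((1 + 1 * t) * (3 + 3 * t + 1 * t ^ 2) * (4 + 6 * t + 4 * t ^ 2 + 1 * t ^ 3) * (5 + 10 * t + 10 * t ^ 2 + 5 * t ^ 3 + 1 * t ^ 4) * (6 + 15 * t + 20 * t ^ 2 + 15 * t ^ 3 + 6 * t ^ 4 + 1 * t ^ 5)) * e1
      - C2 * ((1 + 1 * t) * (2 + 1 * t) * (4 + 6 * t + 4 * t ^ 2 + 1 * t ^ 3) * (5 + 10 * t + 10 * t ^ 2 + 5 * t ^ 3 + 1 * t ^ 4) * (6 + 15 * t + 20 * t ^ 2 + 15 * t ^ 3 + 6 * t ^ 4 + 1 * t ^ 5)) * e2
      - C3 * ((1 + 1 * t) * (2 + 1 * t) * (3 + 3 * t + 1 * t ^ 2) * (5 + 10 * t + 10 * t ^ 2 + 5 * t ^ 3 + 1 * t ^ 4) * (6 + 15 * t + 20 * t ^ 2 + 15 * t ^ 3 + 6 * t ^ 4 + 1 * t ^ 5)) * e3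
      - C4 * ((1 + 1 * t) * (2 + 1 * t) * (3 + 3 * t + 1 * t ^ 2) * (4 + 6 * t + 4 * t ^ 2 + 1 * t ^ 3) * (6 + 15 * t + 20 * t ^ 2 + 15 * t ^ 3 + 6 * t ^ 4 + 1 * t ^ 5)) * e4
      - C5 * ((1 + 1 * t) * (2 + 1 * t) * (3 + 3 * t + 1 * t ^ 2) * (4 + 6 * t + 4 * t ^ 2 + 1 * t ^ 3) * (5 + 10 * t + 10 * t ^ 2 + 5 * t ^ 3 + 1 * t ^ 4)) * e5
      - (C0 * (4674 + 1121 * t + 189 * t ^ 2 + 20 * t ^ 3 + 1 * t ^ 4) + C1 * (3859 + 968 * t + 171 * t ^ 2 + 19 * t ^ 3 + 1 * t ^ 4) + C2 * (8278 + 2056 * t + 358 * t ^ 2 + 39 * t ^ 3 + 2 * t ^ 4) + C3 * (12905 + 3174 * t + 547 * t ^ 2 + 59 * t ^ 3 + 3 * t ^ 4) + C4 * (17575 + 4295 * t + 736 * t ^ 2 + 79 * t ^ 3 + 4 * t ^ 4) + C5 * (22249 + 5416 * t + 925 * t ^ 2 + 99 * t ^ 3 + 5 * t ^ 4)) * ht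
  have h13 : ((13 : ℕ) : ZMod 13) = 0 := ZMod.natCast_self 13
  norm_num at h13
  let b : ℕ → ZMod 13 := fun i =>
    if i = 0 then c 0 * 720 + c 1 * 360 + c 2 * 720 + c 3 * 1080 + c 4 * 1440 + c 5 * 1800 else
    if i = 1 then c 0 * 5400 + c 1 * 2880 + c 2 * 5880 + c 3 * 9000 + c 4 * 12240 + c 5 * 15600 else
    if i = 2 then c 0 * 20100 + c 1 * 11310 + c 2 * 23460 + c 3 * 36450 + c 4 * 50280 + c 5 * 64950 else
    if i = 3 then c 0 * 48750 + c 1 * 28770 + c 2 * 60430 + c 3 * 94920 + c 4 * 132156 + c 5 * 172030 else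
    if i = 4 then c 0 * 85514 + c 1 * 52747 + c 2 * 111914 + c 3 * 177141 + c 4 * 247924 + c 5 * 323615 else
    if i = 5 then c 0 * 114257 + c 1 * 73512 + c 2 * 157223 + c 3 * 250078 + c 4 * 350660 + c 5 * 457250 else
    if i = 6 then c 0 * 119573 + c 1 * 80159 + c 2 * 172483 + c 3 * 274997 + c 4 * 385236 + c 5 * 500545 else
    if i = 7 then c 0 * 99426 + c 1 * 69420 + c 2 * 149995 + c 3 * 239128 + c 4 * 333895 + c 5 * 431656 else
    if i = 8 then c 0 * 66014 + c 1 * 48010 + c 2 * 103950 + c 3 * 165322 + c 4 * 229676 + c 5 * 295254 else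
    if i = 9 then c 0 * 34900 + c 1 * 26452 + c 2 * 57259 + c 3 * 90640 + c 4 * 125139 + c 5 * 159970 else
    if i = 10 then c 0 * 14536 + c 1 * 11492 + c 2 * 24803 + c 3 * 38998 + c 4 * 53475 + c 5 * 68006 else
    0
  have hb := coeff_eq_zero_of_sum 13 b (by
    show ∑ i ∈ Finset.range 11, algebraMap (ZMod 13) (TR 13) (b i) * (tt 13) ^ i = 0
    simpa [Finset.sum_range_succ, b] using key)
  have b0 : c 0 * 720 + c 1 * 360 + c 2 * 720 + c 3 * 1080 + c 4 * 1440 + c 5 * 1800 = 0 := hb 0 (by norm_num)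
  have b1 : c 0 * 5400 + c 1 * 2880 + c 2 * 5880 + c 3 * 9000 + c 4 * 12240 + c 5 * 15600 = 0 := hb 1 (by norm_num)
  have b2 : c 0 * 20100 + c 1 * 11310 + c 2 * 23460 + c 3 * 36450 + c 4 * 50280 + c 5 * 64950 = 0 := hb 2 (by norm_num)
  have b3 : c 0 * 48750 + c 1 * 28770 + c 2 * 60430 + c 3 * 94920 + c 4 * 132156 + c 5 * 172030 = 0 := hb 3 (by norm_num)
  have b4 : c 0 * 85514 + c 1 * 52747 + c 2 * 111914 + c 3 * 177141 + c 4 * 247924 + c 5 * 323615 = 0 := hb 4 (by norm_num)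
  have b5 : c 0 * 114257 + c 1 * 73512 + c 2 * 157223 + c 3 * 250078 + c 4 * 350660 + c 5 * 457250 = 0 := hb 5 (by norm_num)
  have b6 : c 0 * 119573 + c 1 * 80159 + c 2 * 172483 + c 3 * 274997 + c 4 * 385236 + c 5 * 500545 = 0 := hb 6 (by norm_num)
  have b7 : c 0 * 99426 + c 1 * 69420 + c 2 * 149995 + c 3 * 239128 + c 4 * 333895 + c 5 * 431656 = 0 := hb 7 (by norm_num)
  have b8 : c 0 * 66014 + c 1 * 48010 + c 2 * 103950 + c 3 * 165322 + c 4 * 229676 + c 5 * 295254 = 0 := hb 8 (by norm_num)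
  have b9 : c 0 * 34900 + c 1 * 26452 + c 2 * 57259 + c 3 * 90640 + c 4 * 125139 + c 5 * 159970 = 0 := hb 9 (by norm_num)
  have b10 : c 0 * 14536 + c 1 * 11492 + c 2 * 24803 + c 3 * 38998 + c 4 * 53475 + c 5 * 68006 = 0 := hb 10 (by norm_num)
  have c0 : c 0 = 0 := by
    linear_combination 10 * b0 + 6 * b1 + 10 * b3 + 11 * b5 + 8 * b7 + 6 * b9 - (214518 * c 0 + 140868 * c 1 + 301519 * c 2 + 478594 * c 3 + 668358 * c 4 + 867286 * c 5) * h13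
  have c1 : c 1 = 0 := by
    linear_combination 12 * b0 + 1 * b1 + 5 * b3 + 9 * b5 + 3 * b7 + 9 * b9 - (146037 * c 0 + 96845 * c 1 + 207461 * c 2 + 329262 * c 3 + 459552 * c 4 + 595946 * c 5) * h13
  have c2 : c 2 = 0 := by
    linear_combination 12 * b0 + 10 * b1 + 5 * b3 + 5 * b5 + 7 * b7 + 4 * b9 - (131789 * c 0 + 87406 * c 1 + 187285 * c 2 + 297262 * c 3 + 414737 * c 4 + 537344 * c 5) * h13
  have c3 : c 3 = 0 := by
    linear_combination 10 * b0 + 5 * b1 + 6 * b3 + 12 * b5 + 7 * b7 + 10 * b9 - (210982 * c 0 + 140248 * c 1 + 300647 * c 2 + 477427 * c 3 + 666547 * c 4 + 864344 * c 5) * h13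
  have c4 : c 4 = 0 := by
    linear_combination 11 * b0 + 3 * b1 + 2 * b3 + 5 * b5 + 1 * b9 - (55985 * c 0 + 35704 * c 1 + 76138 * c 2 + 120750 * c 3 + 168870 * c 4 + 219760 * c 5) * h13
  have c5 : c 5 = 0 := by
    linear_combination 11 * b0 + 1 * b1 + 6 * b3 + 4 * b5 + 10 * b7 + 3 * b9 - (143216 * c 0 + 95928 * c 1 + 205923 * c 2 + 327224 * c 3 + 456771 * c 4 + 591773 * c 5) * h13
  intro i
  fin_cases i <;> assumption

end p13

end Fermat.Agent.S10.H09
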