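import Mathlib
import Fermat.Agent.S10.Dlog_helper9

set_option autoImplicit false

open NumberField Polynomial

namespace Fermat.Agent.S10.H09

section p5

variable [Fact (Nat.Prime 5)] (K : Type) [Field K] [NumberField K] [IsCyclotomicExtension {5} ℚ K]

/-- the explicit units for `p = 5` -/
noncomputable def w5 : Fin 2 → (𝓞 K)ˣ := ![zetaUnit 5 K, cycUnit 5 K 2]

theorem indep5 : LinearIndependent (ZMod 5)
    (fun i => Multiplicative.toAdd (dlog 5 K (w5 K i))) := by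
  rw [Fintype.linearIndependent_iff]
  intro c hc
  simp only [Fin.sum_univ_two, w5, Matrix.cons_val_zero, Matrix.cons_val_one, Matrix.cons_val, Algebra.smul_def] at hc
  have ht : (tt 5) ^ 3 = 0 := tt_pow 5
  have e0 := fst_mul_dlog 5 K (zetaUnit 5 K)
  rw [coe_zetaUnit, ← pow_one (zetaInt 5 K), fst_psi_zeta_pow, snd_psi_zeta_pow] at e0
  norm_num at e0
  have e1 := fst_mul_dlog 5 K (cycUnit 5 K 2)
  rw [coe_cycUnit 5 K (by norm_num), fst_psi_geom, snd_psi_geom] at e1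
  norm_num [Finset.sum_range_succ] at e1
  have key : algebraMap (ZMod 5) (TR 5) (c 0 * 2 + c 1 * 1) * (tt 5) ^ 0 +
      algebraMap (ZMod 5) (TR 5) (c 0 * 1 + c 1 * 1) * (tt 5) ^ 1 +
      algebraMap (ZMod 5) (TR 5) (c 0 * 0 + c 1 * 0) * (tt 5) ^ 2 = 0 := by
    simp only [map_add, map_mul, map_ofNat, map_one, map_zero]
    generalize algebraMap (ZMod 5) (TR 5) (c 0) = C0 at hc ⊢
    generalize algebraMap (ZMod 5) (TR 5) (c 1) = C1 at hc ⊢
    generalize Multiplicative.toAdd (dlog 5 K (zetaUnit 5 K)) = d0 at e0 hc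
    generalize Multiplicative.toAdd (dlog 5 K (cycUnit 5 K 2)) = d1 at e1 hc
    generalize tt 5 = t at *
    linear_combination ((1 + 1 * t) * (2 + 1 * t)) * hc
      - C0 * ((2 + 1 * t)) * e0
      - C1 * ((1 + 1 * t)) * e1
      - (C0 * 0 + C1 * 0) * ht
  have h5 : ((5 : ℕ) : ZMod 5) = 0 := ZMod.natCast_self 5
  norm_num at h5
  let b : ℕ → ZMod 5 := fun i =>
    if i = 0 then c 0 * 2 + c 1 * 1 else
    if i = 1 then c 0 * 1 + c 1 * 1 else
    if i = 2 then c 0 * 0 + c 1 * 0 else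
    0
  have hb := coeff_eq_zero_of_sum 5 b (by
    show ∑ i ∈ Finset.range 3, algebraMap (ZMod 5) (TR 5) (b i) * (tt 5) ^ i = 0
    simpa [Finset.sum_range_succ, b] using key)
  have b0 : c 0 * 2 + c 1 * 1 = 0 := hb 0 (by norm_num)
  have b1 : c 0 * 1 + c 1 * 1 = 0 := hb 1 (by norm_num)
  have b2 : c 0 * 0 + c 1 * 0 = 0 := hb 2 (by norm_num)
  have c0 : c 0 = 0 := by
    linear_combination 1 * b0 + 4 * b1 - (1 * c 0 + 1 * c 1) * h5
  have c1 : c 1 = 0 := by
    linear_combination 4 * b0 + 2 * b1 - (2 * c 0 + 1 * c 1) * h5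
  intro i
  fin_cases i <;> assumption

end p5

end Fermat.Agent.S10.H09
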