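import Mathlib
import Fermat.Agent.S10.Dlog_helper9

set_option autoImplicit false

open NumberField Polynomial

namespace Fermat.Agent.S10.H09

section p7

variable [Fact (Nat.Prime 7)] (K : Type) [Field K] [NumberField K] [IsCyclotomicExtension {7} ℚ K]

/-- the explicit units for `p = 7` -/
noncomputable def w7 : Fin 3 → (𝓞 K)ˣ := ![zetaUnit 7 K, cycUnit 7 K 2, cycUnit 7 K 3]

theorem indep7 : LinearIndependent (ZMod 7)
    (fun i => Multiplicative.toAdd (dlog 7 K (w7 K i))) := by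
  rw [Fintype.linearIndependent_iff]
  intro c hc
  simp only [Fin.sum_univ_three, w7, Matrix.cons_val_zero, Matrix.cons_val_one, Matrix.cons_val, Algebra.smul_def] at hc
  have ht : (tt 7) ^ 5 = 0 := tt_pow 7
  have e0 := fst_mul_dlog 7 K (zetaUnit 7 K)
  rw [coe_zetaUnit, ← pow_one (zetaInt 7 K), fst_psi_zeta_pow, snd_psi_zeta_pow] at e0
  norm_num at e0
  have e1 := fst_mul_dlog 7 K (cycUnit 7 K 2)
  rw [coe_cycUnit 7 K (by norm_num), fst_psi_geom, snd_psi_geom] at e1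
  norm_num [Finset.sum_range_succ] at e1
  have e2 := fst_mul_dlog 7 K (cycUnit 7 K 3)
  rw [coe_cycUnit 7 K (by norm_num), fst_psi_geom, snd_psi_geom] at e2
  norm_num [Finset.sum_range_succ] at e2
  have key : algebraMap (ZMod 7) (TR 7) (c 0 * 6 + c 1 * 3 + c 2 * 6) * (tt 7) ^ 0 +
      algebraMap (ZMod 7) (TR 7) (c 0 * 9 + c 1 * 6 + c 2 * 13) * (tt 7) ^ 1 +
      algebraMap (ZMod 7) (TR 7) (c 0 * 5 + c 1 * 4 + c 2 * 9) * (tt 7) ^ 2 +
      algebraMap (ZMod 7) (TR 7) (c 0 * 1 + c 1 * 1 + c 2 * 2) * (tt 7) ^ 3 +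
      algebraMap (ZMod 7) (TR 7) (c 0 * 0 + c 1 * 0 + c 2 * 0) * (tt 7) ^ 4 = 0 := by
    simp only [map_add, map_mul, map_ofNat, map_one, map_zero]
    generalize algebraMap (ZMod 7) (TR 7) (c 0) = C0 at hc ⊢
    generalize algebraMap (ZMod 7) (TR 7) (c 1) = C1 at hc ⊢
    generalize algebraMap (ZMod 7) (TR 7) (c 2) = C2 at hc ⊢
    generalize Multiplicative.toAdd (dlog 7 K (zetaUnit 7 K)) = d0 at e0 hc
    generalize Multiplicative.toAdd (dlog 7 K (cycUnit 7 K 2)) = d1 at e1 hc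
    generalize Multiplicative.toAdd (dlog 7 K (cycUnit 7 K 3)) = d2 at e2 hc
    generalize tt 7 = t at *
    linear_combination ((1 + 1 * t) * (2 + 1 * t) * (3 + 3 * t + 1 * t ^ 2)) * hc
      - C0 * ((2 + 1 * t) * (3 + 3 * t + 1 * t ^ 2)) * e0
      - C1 * ((1 + 1 * t) * (3 + 3 * t + 1 * t ^ 2)) * e1
      - C2 * ((1 + 1 * t) * (2 + 1 * t)) * e2
      - (C0 * 0 + C1 * 0 + C2 * 0) * ht
  have h7 : ((7 : ℕ) : ZMod 7) = 0 := ZMod.natCast_self 7
  norm_num at h7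
  let b : ℕ → ZMod 7 := fun i =>
    if i = 0 then c 0 * 6 + c 1 * 3 + c 2 * 6 else
    if i = 1 then c 0 * 9 + c 1 * 6 + c 2 * 13 else
    if i = 2 then c 0 * 5 + c 1 * 4 + c 2 * 9 else
    if i = 3 then c 0 * 1 + c 1 * 1 + c 2 * 2 else
    if i = 4 then c 0 * 0 + c 1 * 0 + c 2 * 0 else
    0
  have hb := coeff_eq_zero_of_sum 7 b (by
    show ∑ i ∈ Finset.range 5, algebraMap (ZMod 7) (TR 7) (b i) * (tt 7) ^ i = 0
    simpa [Finset.sum_range_succ, b] using key)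
  have b0 : c 0 * 6 + c 1 * 3 + c 2 * 6 = 0 := hb 0 (by norm_num)
  have b1 : c 0 * 9 + c 1 * 6 + c 2 * 13 = 0 := hb 1 (by norm_num)
  have b2 : c 0 * 5 + c 1 * 4 + c 2 * 9 = 0 := hb 2 (by norm_num)
  have b3 : c 0 * 1 + c 1 * 1 + c 2 * 2 = 0 := hb 3 (by norm_num)
  have b4 : c 0 * 0 + c 1 * 0 + c 2 * 0 = 0 := hb 4 (by norm_num)
  have c0 : c 0 = 0 := by
    linear_combination 5 * b0 + 6 * b3 - (5 * c 0 + 3 * c 1 + 6 * c 2) * h7
  have c1 : c 1 = 0 := by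
    linear_combination 4 * b0 + 5 * b1 + 1 * b3 - (10 * c 0 + 6 * c 1 + 13 * c 2) * h7
  have c2 : c 2 = 0 := by
    linear_combination 6 * b0 + 1 * b1 + 4 * b3 - (7 * c 0 + 4 * c 1 + 8 * c 2) * h7
  intro i
  fin_cases i <;> assumption

end p7

end Fermat.Agent.S10.H09
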