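import Mathlib
import Fermat.Agent.S10.Dlog_helper9
import Fermat.Agent.S10.Dlog5_helper9
import Fermat.Agent.S10.Dlog7_helper9
import Fermat.Agent.S10.Dlog11_helper9
import Fermat.Agent.S10.Dlog13_helper9

set_option autoImplicit false

open NumberField Polynomial

namespace Fermat.Agent.S10.H09

/-- For `p ∈ {5, 7, 11, 13}` there is a homomorphism from the units of the `p`-th cyclotomic
integers to an `F_p`-vector space which kills every unit congruent to a rational integer
modulo `p` and takes `(p - 1) / 2` linearly independent values. -/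
theorem exists_dlog {p : ℕ} [Fact p.Prime] (hp : p = 5 ∨ p = 7 ∨ p = 11 ∨ p = 13)
    (K : Type) [Field K] [NumberField K] [IsCyclotomicExtension {p} ℚ K] :
    ∃ (V : Type) (_ : AddCommGroup V) (_ : Module (ZMod p) V)
      (φ : (𝓞 K)ˣ →* Multiplicative V) (w : Fin ((p - 1) / 2) → (𝓞 K)ˣ),
      (∀ u : (𝓞 K)ˣ, (∃ n : ℤ, (p : 𝓞 K) ∣ (u : 𝓞 K) - n) → φ u = 1) ∧
      LinearIndependent (ZMod p) (fun i => Multiplicative.toAdd (φ (w i))) := by
  rcases hp with rfl | rfl | rfl | rfl
  · exact ⟨TR 5, inferInstance, inferInstance, dlog 5 K, w5 K, dlog_eq_one_of_congr 5 K, indep5 K⟩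
  · exact ⟨TR 7, inferInstance, inferInstance, dlog 7 K, w7 K, dlog_eq_one_of_congr 7 K, indep7 K⟩
  · exact ⟨TR 11, inferInstance, inferInstance, dlog 11 K, w11 K, dlog_eq_one_of_congr 11 K,
      indep11 K⟩
  · exact ⟨TR 13, inferInstance, inferInstance, dlog 13 K, w13 K, dlog_eq_one_of_congr 13 K,
      indep13 K⟩

end Fermat.Agent.S10.H09
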