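import Mathlib

set_option autoImplicit false

namespace Fermat.Agent.S10.H96

open NumberField Polynomial InfinitePlace Nat Real cyclotomic Ideal RingOfIntegers
  IsCyclotomicExtension IsCyclotomicExtension.Rat NumberField.Ideal

theorem exists_primesOver_lt_pow {ℓ : ℕ} [hℓ : Fact ℓ.Prime] (K : Type*) [Field K] [NumberField K]
    [IsCyclotomicExtension {ℓ} ℚ K] (q : ℕ) [hq : Fact q.Prime] (hqℓ : q ≠ ℓ) (B : ℕ)
    (h : ∀ f, 0 < f → (q ^ f) % ℓ = 1 → B < q ^ f) :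
    ∃ P ∈ primesOver (span {(q : ℤ)}) (𝓞 K), B < q ^ P.inertiaDeg ℤ := by
  obtain ⟨⟨P, hP1, hP2⟩⟩ := (span {(q : ℤ)}).nonempty_primesOver (S := 𝓞 K)
  refine ⟨P, ⟨hP1, hP2⟩, ?_⟩
  have hndvd : ¬ q ∣ ℓ := fun hd => hqℓ ((Nat.prime_dvd_prime_iff_eq hq.out hℓ.out).mp hd)
  have hf : P.inertiaDeg ℤ = orderOf (q : ZMod ℓ) :=
    IsCyclotomicExtension.Rat.inertiaDeg_eq_of_not_dvd q K P hndvd
  have hpos : 0 < P.inertiaDeg ℤ := Ideal.inertiaDeg_pos P ℤ
  apply h _ hpos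
  have h1 : ((q : ZMod ℓ)) ^ (P.inertiaDeg ℤ) = 1 := by
    rw [hf]; exact pow_orderOf_eq_one _
  have h2 : ((q ^ (P.inertiaDeg ℤ) : ℕ) : ZMod ℓ) = ((1 : ℕ) : ZMod ℓ) := by
    push_cast; exact h1
  have h3 := (ZMod.natCast_eq_natCast_iff' _ _ _).mp h2
  rw [h3]
  exact Nat.one_mod_eq_one.mpr hℓ.out.ne_one

theorem exists_primesOver_isPrincipal_self {ℓ : ℕ} [hℓ : Fact ℓ.Prime] (K : Type*) [Field K]
    [NumberField K] [hK : IsCyclotomicExtension {ℓ} ℚ K] :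
    ∃ P ∈ primesOver (span {(ℓ : ℤ)}) (𝓞 K), Submodule.IsPrincipal P := by
  obtain ⟨⟨P, hP1, hP2⟩⟩ := (span {(ℓ : ℤ)}).nonempty_primesOver (S := 𝓞 K)
  refine ⟨P, ⟨hP1, hP2⟩, ?_⟩
  rw [IsCyclotomicExtension.Rat.eq_span_zeta_sub_one_of_liesOver' ℓ K hK.zeta_spec P]
  exact ⟨⟨_, rfl⟩⟩

theorem seven_pid (K : Type*) [Field K] [NumberField K] [IsCyclotomicExtension {7} ℚ K] :
    IsPrincipalIdealRing (𝓞 K) := by
  have h7 : Fact (Nat.Prime 7) := ⟨by norm_num⟩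
  have hgal : IsGalois ℚ K := IsCyclotomicExtension.isGalois {7} ℚ K
  have hM : ⌊(4 / π) ^ nrComplexPlaces K *
      ((Module.finrank ℚ K)! / (Module.finrank ℚ K) ^ (Module.finrank ℚ K) * √|discr K|)⌋₊ ≤ 4 := by
    rw [IsCyclotomicExtension.Rat.discr_prime 7 K, IsCyclotomicExtension.finrank (n := 7) K
      (irreducible_rat (by simp)), IsCyclotomicExtension.Rat.nrComplexPlaces_eq_totient_div_two 7,
      totient_prime (by norm_num)]
    refine Nat.lt_succ_iff.mp ((Nat.floor_lt (by positivity)).mpr ?_)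
    norm_num [Nat.factorial]
    have hpi : (4 / π) ^ 3 ≤ (4 / 3.14) ^ 3 := by
      gcongr
      exact Real.pi_gt_d2.le
    have hsq : √(16807 : ℝ) < 129.65 := by
      rw [Real.sqrt_lt' (by norm_num)]
      norm_num
    calc (4 / π) ^ 3 * (5 / 324 * √16807) ≤ (4 / 3.14) ^ 3 * (5 / 324 * 129.65) := by gcongr
      _ < 5 := by norm_num
  apply RingOfIntegers.isPrincipalIdealRing_of_isPrincipal_of_lt_or_isPrincipal_of_mem_primesOver_of_mem_Icc
  intro q hq hqp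
  have hq4 : q ≤ 4 := (Finset.mem_Icc.mp hq).2.trans hM
  have : Fact q.Prime := ⟨hqp⟩
  have hq7 : q ≠ 7 := by omega
  obtain ⟨P, hP, hlt⟩ := exists_primesOver_lt_pow K q hq7 4 (by
    intro f hf h1
    by_contra hle
    have h2 : 2 ≤ q ^ f := le_trans hqp.two_le (Nat.le_self_pow hf.ne' q)
    omega)
  exact ⟨P, hP, Or.inl (lt_of_le_of_lt hM hlt)⟩

theorem exists_primesOver_isPrincipal_of_data {ℓ : ℕ} [hℓ : Fact ℓ.Prime] (K : Type*) [Field K]
    [NumberField K] [hK : IsCyclotomicExtension {ℓ} ℚ K] (q : ℕ) [hq : Fact q.Prime]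
    (Q A B G U V C₁ C₂ H E : ℤ[X])
    (hQmonic : Q.Monic)
    (hQirr : Irreducible (Q.map (Int.castRingHom (ZMod q))))
    (hQdvd : Q * H = cyclotomic ℓ ℤ + (q : ℤ[X]) * E)
    (hAB : A * B = (q : ℤ[X]) + C₁ * cyclotomic ℓ ℤ)
    (hAG : A * G = Q + C₂ * cyclotomic ℓ ℤ)
    (hA : A = (q : ℤ[X]) * U + Q * V) :
    ∃ P ∈ primesOver (span {(q : ℤ)}) (𝓞 K), Submodule.IsPrincipal P := by
  have hℓ0 : NeZero ℓ := ⟨hℓ.out.ne_zero⟩
  let θ : 𝓞 K := (zeta_spec ℓ ℚ K).toInteger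
  have hexp : ¬ q ∣ exponent θ := by
    rw [exponent_eq_one_iff.mpr <| adjoin_singleton_eq_top (zeta_spec ℓ ℚ K)]
    exact hq.out.not_dvd_one
  have hmin : minpoly ℤ θ = cyclotomic ℓ ℤ := by
    rw [cyclotomic_eq_minpoly (zeta_spec ℓ ℚ K) (NeZero.pos _),
      ← (zeta_spec ℓ ℚ K).coe_toInteger, ← RingOfIntegers.minpoly_coe θ]
    rfl
  have hθ : aeval θ (cyclotomic ℓ ℤ) = 0 := by
    rw [← hmin]; exact minpoly.aeval ℤ θ
  have hQ : Q.map (Int.castRingHom (ZMod q)) ∈ monicFactorsMod θ q := by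
    rw [Multiset.mem_toFinset, Polynomial.mem_normalizedFactors_iff
      (map_monic_ne_zero (minpoly.monic θ.isIntegral)), hmin, map_cyclotomic]
    refine ⟨hQirr, hQmonic.map _, ?_⟩
    have h1 := congrArg (Polynomial.map (Int.castRingHom (ZMod q))) hQdvd
    rw [Polynomial.map_mul, Polynomial.map_add, map_cyclotomic, Polynomial.map_mul,
      Polynomial.map_natCast, ← map_natCast (C : ZMod q →+* (ZMod q)[X]), ZMod.natCast_self,
      map_zero, zero_mul, add_zero] at h1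
    exact ⟨_, h1.symm⟩
  refine ⟨span {(q : 𝓞 K), aeval θ Q}, ?_, ?_⟩
  · rw [← primesOverSpanEquivMonicFactorsMod_symm_apply_eq_span hexp hQ]
    exact ((primesOverSpanEquivMonicFactorsMod hexp).symm ⟨_, hQ⟩).prop
  · have h1 : (q : 𝓞 K) = aeval θ A * aeval θ B := by
      have := congrArg (aeval θ) hAB
      rw [map_mul, map_add, map_mul, hθ, mul_zero, add_zero, map_natCast] at this
      exact this.symm
    have h2 : aeval θ Q = aeval θ A * aeval θ G := by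
      have := congrArg (aeval θ) hAG
      rw [map_mul, map_add, map_mul, hθ, mul_zero, add_zero] at this
      exact this.symm
    have h3 : aeval θ A = (q : 𝓞 K) * aeval θ U + aeval θ Q * aeval θ V := by
      have := congrArg (aeval θ) hA
      rwa [map_add, map_mul, map_mul, map_natCast] at this
    refine ⟨⟨aeval θ A, le_antisymm ?_ ?_⟩⟩
    · rw [Ideal.submodule_span_eq, Ideal.span_le]
      intro x hx
      rcases hx with rfl | hx
      · rw [h1]; exact Ideal.mul_mem_right _ _ (Ideal.subset_span rfl)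
      · rw [Set.mem_singleton_iff.mp hx, h2]
        exact Ideal.mul_mem_right _ _ (Ideal.subset_span rfl)
    · rw [Ideal.submodule_span_eq, Ideal.span_le, Set.singleton_subset_iff, SetLike.mem_coe, h3]
      exact Ideal.add_mem _ (Ideal.mul_mem_right _ _ (Ideal.subset_span (by simp)))
        (Ideal.mul_mem_right _ _ (Ideal.subset_span (by simp)))

theorem exists_primesOver_isPrincipal_11_23 (K : Type*) [Field K]
    [NumberField K] [hK : IsCyclotomicExtension {11} ℚ K] :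
    ∃ P ∈ primesOver (span {((23 : ℕ) : ℤ)}) (𝓞 K), Submodule.IsPrincipal P := by
  have h11 : Fact (Nat.Prime 11) := ⟨by norm_num⟩
  have h23 : Fact (Nat.Prime 23) := ⟨by norm_num⟩
  refine exists_primesOver_isPrincipal_of_data (ℓ := 11) K 23
    (X - 4)
    (1 + X + X ^ 3)
    (-2 - 14 * X - 17 * X ^ 2 - 12 * X ^ 3 - 5 * X ^ 4 - 9 * X ^ 5 - 10 * X ^ 6 - 16 * X ^ 7 - 6 * X ^ 8 - 15 * X ^ 9)
    (1 + 3 * X + 3 * X ^ 2 + 2 * X ^ 3 + X ^ 4 + 2 * X ^ 5 + 2 * X ^ 6 + 3 * X ^ 7 + X ^ 8 + 3 * X ^ 9)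
    3
    (17 + 4 * X + X ^ 2)
    (-25 + 9 * X - 15 * X ^ 2)
    (5 - 2 * X + 3 * X ^ 2)
    (-6 + 4 * X - 5 * X ^ 2 + 10 * X ^ 3 + 8 * X ^ 4 - 4 * X ^ 5 - 7 * X ^ 6 - 2 * X ^ 7 + 5 * X ^ 8 + X ^ 9)
    (1 - X + X ^ 2 - 2 * X ^ 3 - X ^ 4 + X ^ 5 + X ^ 6 - X ^ 8)
    ?_ ?_ ?_ ?_ ?_ ?_
  · simpa using monic_X_sub_C (4 : ℤ)
  · have : (X - 4 : ℤ[X]).map (Int.castRingHom (ZMod 23)) = X - C (4 : ZMod 23) := by
      simp [map_ofNat (C : ZMod 23 →+* (ZMod 23)[X])]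
    rw [this]; exact irreducible_X_sub_C _
  · rw [cyclotomic_prime ℤ 11]; simp only [Finset.sum_range_succ, Finset.sum_range_zero]; push_cast; ring
  · rw [cyclotomic_prime ℤ 11]; simp only [Finset.sum_range_succ, Finset.sum_range_zero]; push_cast; ring
  · rw [cyclotomic_prime ℤ 11]; simp only [Finset.sum_range_succ, Finset.sum_range_zero]; ring
  · push_cast; ring

theorem lt_pow_of_sq {ℓ q B f : ℕ} (hq2 : B < q ^ 2) (hf : 0 < f) (hq1 : q % ℓ ≠ 1)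
    (h1 : q ^ f % ℓ = 1) : B < q ^ f := by
  rcases (show f = 1 ∨ 2 ≤ f by omega) with rfl | h2
  · rw [pow_one] at h1; exact absurd h1 hq1
  · have hq0 : 0 < q := by
      rcases Nat.eq_zero_or_pos q with rfl | h
      · simp at hq1 h1
        rw [zero_pow (by omega)] at h1
        simp at h1
      · exact h
    exact lt_of_lt_of_le hq2 (Nat.pow_le_pow_right hq0 h2)

theorem small_prime_aux {ℓ q B f n : ℕ} (hq : 2 ≤ q) (hB : B < q ^ n)
    (h : ∀ k, k < n → 0 < k → q ^ k % ℓ ≠ 1) (hf : 0 < f) (h1 : q ^ f % ℓ = 1) : B < q ^ f := by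
  by_contra hle
  have hfn : f < n := by
    by_contra hfn
    exact hle (lt_of_lt_of_le hB (Nat.pow_le_pow_right (by omega) (by omega)))
  exact h f hfn hf h1

theorem aux11 (q : ℕ) (hq : q.Prime) (hq58 : q ≤ 58) (h11 : q ≠ 11) (h23 : q ≠ 23) (f : ℕ)
    (hf : 0 < f) (h1 : q ^ f % 11 = 1) : 58 < q ^ f := by
  by_cases hq8 : 8 ≤ q
  · refine lt_pow_of_sq (by nlinarith) hf ?_ h1
    intro h
    have : q = 12 ∨ q = 34 ∨ q = 45 ∨ q = 56 := by omega
    rcases this with rfl | rfl | rfl | rfl <;> norm_num at hq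
  · have hq2 := hq.two_le
    interval_cases q
    · exact small_prime_aux (n := 6) (by norm_num) (by norm_num) (by decide) hf h1
    · exact small_prime_aux (n := 4) (by norm_num) (by norm_num) (by decide) hf h1
    · norm_num at hq
    · exact small_prime_aux (n := 3) (by norm_num) (by norm_num) (by decide) hf h1
    · norm_num at hq
    · exact small_prime_aux (n := 3) (by norm_num) (by norm_num) (by decide) hf h1

theorem eleven_pid (K : Type*) [Field K] [NumberField K] [IsCyclotomicExtension {11} ℚ K] :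
    IsPrincipalIdealRing (𝓞 K) := by
  have h11 : Fact (Nat.Prime 11) := ⟨by norm_num⟩
  have hgal : IsGalois ℚ K := IsCyclotomicExtension.isGalois {11} ℚ K
  have hM : ⌊(4 / π) ^ nrComplexPlaces K *
      ((Module.finrank ℚ K)! / (Module.finrank ℚ K) ^ (Module.finrank ℚ K) * √|discr K|)⌋₊ ≤ 58 := by
    rw [IsCyclotomicExtension.Rat.discr_prime 11 K, IsCyclotomicExtension.finrank (n := 11) K
      (irreducible_rat (by simp)), IsCyclotomicExtension.Rat.nrComplexPlaces_eq_totient_div_two 11,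
      totient_prime (by norm_num)]
    refine Nat.lt_succ_iff.mp ((Nat.floor_lt (by positivity)).mpr ?_)
    norm_num [Nat.factorial]
    have hpi : (4 / π) ^ 5 ≤ (4 / 3.1415) ^ 5 := by
      gcongr
      exact Real.pi_gt_d4.le
    have hsq : √(2357947691 : ℝ) < 48558.71 := by
      rw [Real.sqrt_lt' (by norm_num)]
      norm_num
    calc (4 / π) ^ 5 * (567 / 1562500 * √2357947691)
        ≤ (4 / 3.1415) ^ 5 * (567 / 1562500 * 48558.71) := by gcongr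
      _ < 59 := by norm_num
  apply RingOfIntegers.isPrincipalIdealRing_of_isPrincipal_of_lt_or_isPrincipal_of_mem_primesOver_of_mem_Icc
  intro q hq hqp
  have hq58 : q ≤ 58 := (Finset.mem_Icc.mp hq).2.trans hM
  have : Fact q.Prime := ⟨hqp⟩
  by_cases hq11 : q = 11
  · subst hq11
    obtain ⟨P, hP, hP'⟩ := exists_primesOver_isPrincipal_self (ℓ := 11) K
    exact ⟨P, hP, Or.inr hP'⟩
  by_cases hq23 : q = 23
  · subst hq23
    obtain ⟨P, hP, hP'⟩ := exists_primesOver_isPrincipal_11_23 K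
    exact ⟨P, hP, Or.inr hP'⟩
  obtain ⟨P, hP, hlt⟩ := exists_primesOver_lt_pow K q hq11 58
    (fun f hf h1 => aux11 q hqp hq58 hq11 hq23 f hf h1)
  exact ⟨P, hP, Or.inl (lt_of_le_of_lt hM hlt)⟩

theorem exists_primesOver_isPrincipal_13_53 (K : Type*) [Field K]
    [NumberField K] [hK : IsCyclotomicExtension {13} ℚ K] :
    ∃ P ∈ primesOver (span {((53 : ℕ) : ℤ)}) (𝓞 K), Submodule.IsPrincipal P := by
  have h13 : Fact (Nat.Prime 13) := ⟨by norm_num⟩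
  have h53 : Fact (Nat.Prime 53) := ⟨by norm_num⟩
  refine exists_primesOver_isPrincipal_of_data (ℓ := 13) K 53
    (X + 17)
    (1 + X + X ^ 3)
    (1 - 24 * X - 35 * X ^ 2 - 25 * X ^ 3 - 10 * X ^ 4 - 14 * X ^ 5 - 20 * X ^ 6 - 29 * X ^ 7 - 16 * X ^ 8 - 23 * X ^ 9 - 7 * X ^ 10 - 36 * X ^ 11)
    (1 - 7 * X - 11 * X ^ 2 - 8 * X ^ 3 - 3 * X ^ 4 - 4 * X ^ 5 - 6 * X ^ 6 - 9 * X ^ 7 - 5 * X ^ 8 - 7 * X ^ 9 - 2 * X ^ 10 - 11 * X ^ 11)
    (-93)
    (290 - 17 * X + X ^ 2)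
    (-52 + 29 * X - 36 * X ^ 2)
    (-16 + 9 * X - 11 * X ^ 2)
    (25 - 17 * X + 26 * X ^ 2 + 11 * X ^ 3 + 15 * X ^ 4 + 21 * X ^ 5 - 23 * X ^ 6 + 17 * X ^ 7 + 24 * X ^ 8 + 8 * X ^ 9 - 16 * X ^ 10 + X ^ 11)
    (8 - 5 * X + 8 * X ^ 2 + 4 * X ^ 3 + 5 * X ^ 4 + 7 * X ^ 5 - 7 * X ^ 6 + 5 * X ^ 7 + 8 * X ^ 8 + 3 * X ^ 9 - 5 * X ^ 10)
    ?_ ?_ ?_ ?_ ?_ ?_
  · simpa using monic_X_add_C (17 : ℤ)
  · have : (X + 17 : ℤ[X]).map (Int.castRingHom (ZMod 53)) = X - C (-17 : ZMod 53) := by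
      simp [map_ofNat (C : ZMod 53 →+* (ZMod 53)[X])]
    rw [this]; exact irreducible_X_sub_C _
  · rw [cyclotomic_prime ℤ 13]; simp only [Finset.sum_range_succ, Finset.sum_range_zero]; push_cast; ring
  · rw [cyclotomic_prime ℤ 13]; simp only [Finset.sum_range_succ, Finset.sum_range_zero]; push_cast; ring
  · rw [cyclotomic_prime ℤ 13]; simp only [Finset.sum_range_succ, Finset.sum_range_zero]; ring
  · push_cast; ring

theorem exists_primesOver_isPrincipal_13_79 (K : Type*) [Field K]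
    [NumberField K] [hK : IsCyclotomicExtension {13} ℚ K] :
    ∃ P ∈ primesOver (span {((79 : ℕ) : ℤ)}) (𝓞 K), Submodule.IsPrincipal P := by
  have h13 : Fact (Nat.Prime 13) := ⟨by norm_num⟩
  have h79 : Fact (Nat.Prime 79) := ⟨by norm_num⟩
  refine exists_primesOver_isPrincipal_of_data (ℓ := 13) K 79
    (X + 15)
    (1 + X - X ^ 4)
    (24 - 25 * X - 27 * X ^ 2 + 10 * X ^ 3 - 3 * X ^ 4 - 39 * X ^ 5 - 5 * X ^ 6 - 2 * X ^ 7 - 18 * X ^ 8 - 38 * X ^ 9 + 16 * X ^ 10 - 35 * X ^ 11)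
    (5 - 4 * X - 5 * X ^ 2 + 2 * X ^ 3 - 7 * X ^ 5 - X ^ 6 - 3 * X ^ 8 - 7 * X ^ 9 + 3 * X ^ 10 - 6 * X ^ 11)
    (-641)
    (3376 - 225 * X + 15 * X ^ 2 - X ^ 3)
    (-55 + 54 * X - 51 * X ^ 2 + 35 * X ^ 3)
    (-10 + 10 * X - 9 * X ^ 2 + 6 * X ^ 3)
    (-21 + 12 * X - 6 * X ^ 2 + 11 * X ^ 3 - 27 * X ^ 4 - 35 * X ^ 5 + 34 * X ^ 6 - 18 * X ^ 7 - 4 * X ^ 8 - 26 * X ^ 9 - 14 * X ^ 10 + X ^ 11)
    (-4 + 2 * X - X ^ 2 + 2 * X ^ 3 - 5 * X ^ 4 - 7 * X ^ 5 + 6 * X ^ 6 - 3 * X ^ 7 - X ^ 8 - 5 * X ^ 9 - 3 * X ^ 10)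
    ?_ ?_ ?_ ?_ ?_ ?_
  · simpa using monic_X_add_C (15 : ℤ)
  · have : (X + 15 : ℤ[X]).map (Int.castRingHom (ZMod 79)) = X - C (-15 : ZMod 79) := by
      simp [map_ofNat (C : ZMod 79 →+* (ZMod 79)[X])]
    rw [this]; exact irreducible_X_sub_C _
  · rw [cyclotomic_prime ℤ 13]; simp only [Finset.sum_range_succ, Finset.sum_range_zero]; push_cast; ring
  · rw [cyclotomic_prime ℤ 13]; simp only [Finset.sum_range_succ, Finset.sum_range_zero]; push_cast; ring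
  · rw [cyclotomic_prime ℤ 13]; simp only [Finset.sum_range_succ, Finset.sum_range_zero]; ring
  · push_cast; ring

theorem exists_primesOver_isPrincipal_13_131 (K : Type*) [Field K]
    [NumberField K] [hK : IsCyclotomicExtension {13} ℚ K] :
    ∃ P ∈ primesOver (span {((131 : ℕ) : ℤ)}) (𝓞 K), Submodule.IsPrincipal P := by
  have h13 : Fact (Nat.Prime 13) := ⟨by norm_num⟩
  have h131 : Fact (Nat.Prime 131) := ⟨by norm_num⟩
  refine exists_primesOver_isPrincipal_of_data (ℓ := 13) K 131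
    (X + 51)
    (1 - X - X ^ 3)
    (111 + 78 * X + 17 * X ^ 2 + 67 * X ^ 3 + 84 * X ^ 4 + 40 * X ^ 5 + 46 * X ^ 6 + 69 * X ^ 7 + 48 * X ^ 8 + 33 * X ^ 9 + 41 * X ^ 10 + 28 * X ^ 11)
    (43 + 31 * X + 7 * X ^ 2 + 26 * X ^ 3 + 33 * X ^ 4 + 16 * X ^ 5 + 18 * X ^ 6 + 27 * X ^ 7 + 19 * X ^ 8 + 13 * X ^ 9 + 16 * X ^ 10 + 11 * X ^ 11)
    1013
    (-2602 + 51 * X - X ^ 2)
    (-20 - 13 * X - 28 * X ^ 2)
    (-8 - 5 * X - 11 * X ^ 2)
    (18 - 44 * X + 24 * X ^ 2 - 21 * X ^ 3 + 3 * X ^ 4 - 36 * X ^ 5 + 11 * X ^ 6 - 49 * X ^ 7 - 17 * X ^ 8 + 62 * X ^ 9 - 50 * X ^ 10 + X ^ 11)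
    (7 - 17 * X + 9 * X ^ 2 - 8 * X ^ 3 + X ^ 4 - 14 * X ^ 5 + 4 * X ^ 6 - 19 * X ^ 7 - 7 * X ^ 8 + 24 * X ^ 9 - 19 * X ^ 10)
    ?_ ?_ ?_ ?_ ?_ ?_
  · simpa using monic_X_add_C (51 : ℤ)
  · have : (X + 51 : ℤ[X]).map (Int.castRingHom (ZMod 131)) = X - C (-51 : ZMod 131) := by
      simp [map_ofNat (C : ZMod 131 →+* (ZMod 131)[X])]
    rw [this]; exact irreducible_X_sub_C _
  · rw [cyclotomic_prime ℤ 13]; simp only [Finset.sum_range_succ, Finset.sum_range_zero]; push_cast; ring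
  · rw [cyclotomic_prime ℤ 13]; simp only [Finset.sum_range_succ, Finset.sum_range_zero]; push_cast; ring
  · rw [cyclotomic_prime ℤ 13]; simp only [Finset.sum_range_succ, Finset.sum_range_zero]; ring
  · push_cast; ring

theorem exists_primesOver_isPrincipal_13_157 (K : Type*) [Field K]
    [NumberField K] [hK : IsCyclotomicExtension {13} ℚ K] :
    ∃ P ∈ primesOver (span {((157 : ℕ) : ℤ)}) (𝓞 K), Submodule.IsPrincipal P := by
  have h13 : Fact (Nat.Prime 13) := ⟨by norm_num⟩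
  have h157 : Fact (Nat.Prime 157) := ⟨by norm_num⟩
  refine exists_primesOver_isPrincipal_of_data (ℓ := 13) K 157
    (X - 75)
    (1 - X + X ^ 2 + X ^ 4)
    (89 + 86 * X + 42 * X ^ 2 + 77 * X ^ 3 + 67 * X ^ 4 + 25 * X ^ 5 + 37 * X ^ 6 + 56 * X ^ 7 + 73 * X ^ 8 + 113 * X ^ 9 + 124 * X ^ 10 + 76 * X ^ 11)
    (-43 - 41 * X - 20 * X ^ 2 - 37 * X ^ 3 - 32 * X ^ 4 - 12 * X ^ 5 - 18 * X ^ 6 - 27 * X ^ 7 - 35 * X ^ 8 - 54 * X ^ 9 - 59 * X ^ 10 - 36 * X ^ 11)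
    201568
    (421949 + 5626 * X + 75 * X ^ 2 + X ^ 3)
    (-68 + 65 * X + 48 * X ^ 2 + 76 * X ^ 3)
    (32 - 31 * X - 23 * X ^ 2 - 36 * X ^ 3)
    (-67 - 3 * X + 46 * X ^ 2 + 32 * X ^ 3 + 36 * X ^ 4 - 10 * X ^ 5 + 48 * X ^ 6 + 9 * X ^ 7 + 65 * X ^ 8 + 49 * X ^ 9 + 76 * X ^ 10 + X ^ 11)
    (32 + X - 22 * X ^ 2 - 15 * X ^ 3 - 17 * X ^ 4 + 5 * X ^ 5 - 23 * X ^ 6 - 4 * X ^ 7 - 31 * X ^ 8 - 23 * X ^ 9 - 36 * X ^ 10)
    ?_ ?_ ?_ ?_ ?_ ?_
  · simpa using monic_X_sub_C (75 : ℤ)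
  · have : (X - 75 : ℤ[X]).map (Int.castRingHom (ZMod 157)) = X - C (75 : ZMod 157) := by
      simp [map_ofNat (C : ZMod 157 →+* (ZMod 157)[X])]
    rw [this]; exact irreducible_X_sub_C _
  · rw [cyclotomic_prime ℤ 13]; simp only [Finset.sum_range_succ, Finset.sum_range_zero]; push_cast; ring
  · rw [cyclotomic_prime ℤ 13]; simp only [Finset.sum_range_succ, Finset.sum_range_zero]; push_cast; ring
  · rw [cyclotomic_prime ℤ 13]; simp only [Finset.sum_range_succ, Finset.sum_range_zero]; ring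
  · push_cast; ring

theorem no_root_cubic3 : ∀ x : ZMod 3, x ^ 3 - x - 1 ≠ 0 := by decide

theorem exists_primesOver_isPrincipal_13_3 (K : Type*) [Field K]
    [NumberField K] [hK : IsCyclotomicExtension {13} ℚ K] :
    ∃ P ∈ primesOver (span {((3 : ℕ) : ℤ)}) (𝓞 K), Submodule.IsPrincipal P := by
  have h13 : Fact (Nat.Prime 13) := ⟨by norm_num⟩
  have h3 : Fact (Nat.Prime 3) := ⟨by norm_num⟩
  refine exists_primesOver_isPrincipal_of_data (ℓ := 13) K 3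
    (X ^ 3 - X - 1)
    (1 + X - X ^ 3)
    (-1 - X ^ 2 - X ^ 3 - 2 * X ^ 5 - X ^ 7 - 2 * X ^ 8 + X ^ 9 - 3 * X ^ 10)
    (-1)
    0
    (-1)
    (-4 + 3 * X)
    0
    (-1 - X ^ 2 - X ^ 3 + X ^ 5 - X ^ 7 + X ^ 8 + X ^ 9)
    (-X ^ 5 - X ^ 6 - X ^ 9 - X ^ 10)
    ?_ ?_ ?_ ?_ ?_ ?_
  · monicity!
  · have hmap : (X ^ 3 - X - 1 : ℤ[X]).map (Int.castRingHom (ZMod 3)) = X ^ 3 - X - 1 := by
      simp
    rw [hmap]
    have hdeg : (X ^ 3 - X - 1 : (ZMod 3)[X]).natDegree = 3 := by compute_degree!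
    refine irreducible_of_degree_le_three_of_not_isRoot (by rw [hdeg]; decide) ?_
    intro x hx
    rw [IsRoot.def, eval_sub, eval_sub, eval_pow, eval_X, eval_one] at hx
    exact no_root_cubic3 x hx
  · rw [cyclotomic_prime ℤ 13]; simp only [Finset.sum_range_succ, Finset.sum_range_zero]; push_cast; ring
  · rw [cyclotomic_prime ℤ 13]; simp only [Finset.sum_range_succ, Finset.sum_range_zero]; push_cast; ring
  · rw [cyclotomic_prime ℤ 13]; simp only [Finset.sum_range_succ, Finset.sum_range_zero]; ring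
  · push_cast; ring

theorem aux13 (q : ℕ) (hq : q.Prime) (hq306 : q ≤ 306) (h13 : q ≠ 13) (h3 : q ≠ 3)
    (h53 : q ≠ 53) (h79 : q ≠ 79) (h131 : q ≠ 131) (h157 : q ≠ 157) (f : ℕ)
    (hf : 0 < f) (h1 : q ^ f % 13 = 1) : 306 < q ^ f := by
  by_cases hq18 : 18 ≤ q
  · refine lt_pow_of_sq (by nlinarith) hf ?_ h1
    intro h
    have : q = 27 ∨ q = 40 ∨ q = 66 ∨ q = 92 ∨ q = 105 ∨ q = 118 ∨ q = 144 ∨ q = 170 ∨ q = 183 ∨
        q = 196 ∨ q = 209 ∨ q = 222 ∨ q = 235 ∨ q = 248 ∨ q = 261 ∨ q = 274 ∨ q = 287 ∨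
        q = 300 := by omega
    rcases this with rfl | rfl | rfl | rfl | rfl | rfl | rfl | rfl | rfl | rfl | rfl | rfl | rfl |
      rfl | rfl | rfl | rfl | rfl <;> norm_num at hq
  · have hq2 := hq.two_le
    interval_cases q
    · exact small_prime_aux (n := 9) (by norm_num) (by norm_num) (by decide) hf h1
    · exact absurd rfl h3
    · norm_num at hq
    · exact small_prime_aux (n := 4) (by norm_num) (by norm_num) (by decide) hf h1
    · norm_num at hq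
    · exact small_prime_aux (n := 3) (by norm_num) (by norm_num) (by decide) hf h1
    · norm_num at hq
    · norm_num at hq
    · norm_num at hq
    · exact small_prime_aux (n := 3) (by norm_num) (by norm_num) (by decide) hf h1
    · norm_num at hq
    · exact absurd rfl h13
    · norm_num at hq
    · norm_num at hq
    · norm_num at hq
    · exact small_prime_aux (n := 3) (by norm_num) (by norm_num) (by decide) hf h1

theorem thirteen_pid (K : Type*) [Field K] [NumberField K] [IsCyclotomicExtension {13} ℚ K] :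
    IsPrincipalIdealRing (𝓞 K) := by
  have h13 : Fact (Nat.Prime 13) := ⟨by norm_num⟩
  have hgal : IsGalois ℚ K := IsCyclotomicExtension.isGalois {13} ℚ K
  have hM : ⌊(4 / π) ^ nrComplexPlaces K *
      ((Module.finrank ℚ K)! / (Module.finrank ℚ K) ^ (Module.finrank ℚ K) * √|discr K|)⌋₊ ≤ 306 := by
    rw [IsCyclotomicExtension.Rat.discr_prime 13 K, IsCyclotomicExtension.finrank (n := 13) K
      (irreducible_rat (by simp)), IsCyclotomicExtension.Rat.nrComplexPlaces_eq_totient_div_two 13,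
      totient_prime (by norm_num)]
    refine Nat.lt_succ_iff.mp ((Nat.floor_lt (by positivity)).mpr ?_)
    norm_num [Nat.factorial]
    have hpi : (4 / π) ^ 6 ≤ (4 / 3.1415) ^ 6 := by
      gcongr
      exact Real.pi_gt_d4.le
    have hsq : √(1792160394037 : ℝ) < 1338715.95 := by
      rw [Real.sqrt_lt' (by norm_num)]
      norm_num
    calc (4 / π) ^ 6 * (1925 / 35831808 * √1792160394037)
        ≤ (4 / 3.1415) ^ 6 * (1925 / 35831808 * 1338715.95) := by gcongr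
      _ < 307 := by norm_num
  apply RingOfIntegers.isPrincipalIdealRing_of_isPrincipal_of_lt_or_isPrincipal_of_mem_primesOver_of_mem_Icc
  intro q hq hqp
  have hq306 : q ≤ 306 := (Finset.mem_Icc.mp hq).2.trans hM
  have : Fact q.Prime := ⟨hqp⟩
  by_cases hq13 : q = 13
  · subst hq13
    obtain ⟨P, hP, hP'⟩ := exists_primesOver_isPrincipal_self (ℓ := 13) K
    exact ⟨P, hP, Or.inr hP'⟩
  by_cases hq3 : q = 3
  · subst hq3
    obtain ⟨P, hP, hP'⟩ := exists_primesOver_isPrincipal_13_3 K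
    exact ⟨P, hP, Or.inr hP'⟩
  by_cases hq53 : q = 53
  · subst hq53
    obtain ⟨P, hP, hP'⟩ := exists_primesOver_isPrincipal_13_53 K
    exact ⟨P, hP, Or.inr hP'⟩
  by_cases hq79 : q = 79
  · subst hq79
    obtain ⟨P, hP, hP'⟩ := exists_primesOver_isPrincipal_13_79 K
    exact ⟨P, hP, Or.inr hP'⟩
  by_cases hq131 : q = 131
  · subst hq131
    obtain ⟨P, hP, hP'⟩ := exists_primesOver_isPrincipal_13_131 K
    exact ⟨P, hP, Or.inr hP'⟩
  by_cases hq157 : q = 157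
  · subst hq157
    obtain ⟨P, hP, hP'⟩ := exists_primesOver_isPrincipal_13_157 K
    exact ⟨P, hP, Or.inr hP'⟩
  obtain ⟨P, hP, hlt⟩ := exists_primesOver_lt_pow K q hq13 306
    (fun f hf h1 => aux13 q hqp hq306 hq13 hq3 hq53 hq79 hq131 hq157 f hf h1)
  exact ⟨P, hP, Or.inl (lt_of_le_of_lt hM hlt)⟩

end Fermat.Agent.S10.H96
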