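import Mathlib
import Fermat.Agent.S10.PrimeGen11_helper39

set_option autoImplicit false

namespace Fermat.Agent.S10.H77

open NumberField Polynomial InfinitePlace Nat Real cyclotomic Ideal Module

theorem minkowski_eleven_lt (K : Type*) [Field K] [NumberField K]
    [IsCyclotomicExtension {11} ℚ K] :
    (4 / π) ^ nrComplexPlaces K *
      ((finrank ℚ K)! / (finrank ℚ K) ^ (finrank ℚ K) * √|discr K|) < 59 := by
  have : Fact (Nat.Prime 11) := ⟨by norm_num⟩
  rw [IsCyclotomicExtension.Rat.discr_prime 11 K, IsCyclotomicExtension.finrank (n := 11) K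
    (irreducible_rat (by simp)), IsCyclotomicExtension.Rat.nrComplexPlaces_eq_totient_div_two 11,
    totient_prime (by norm_num)]
  have hfact : ((11 - 1)! : ℝ) = 3628800 := by
    have : (11 - 1)! = 3628800 := by decide
    rw [this]; norm_num
  have habs : |((((-1 : ℤ) ^ ((11 - 1) / 2) * ((11 : ℕ) : ℤ) ^ (11 - 2) : ℤ)) : ℝ)| = (11 : ℝ) ^ 9 := by
    norm_num
  have h1 : (4 / π) ^ 5 ≤ (4 / 3.1415 : ℝ) ^ 5 := by
    gcongr
    exact pi_gt_d4.le
  have h2 : √((11 : ℝ) ^ 9) ≤ 11 ^ 4 * 3.3167 := by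
    rw [Real.sqrt_le_left (by positivity)]
    norm_num
  rw [habs, hfact]
  have h3 : ((11 - 1) / 2 : ℕ) = 5 := by norm_num
  rw [h3]
  calc (4 / π) ^ 5 * (3628800 / ((11 - 1 : ℕ) : ℝ) ^ (11 - 1) * √((11 : ℝ) ^ 9))
      ≤ (4 / 3.1415 : ℝ) ^ 5 * (3628800 / ((11 - 1 : ℕ) : ℝ) ^ (11 - 1) * (11 ^ 4 * 3.3167)) := by
        gcongr
    _ < 59 := by norm_num

theorem lt_pow_orderOf_eleven (p : ℕ) (hp : 2 ≤ p) (B m : ℕ) (hB : B < p ^ m)
    (h : ∀ j, j < m → 0 < j → (p : ZMod 11) ^ j ≠ 1) (h10 : (p : ZMod 11) ^ 10 = 1) :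
    B < p ^ orderOf (p : ZMod 11) := by
  have hpos : 0 < orderOf (p : ZMod 11) :=
    Nat.pos_of_dvd_of_pos (orderOf_dvd_of_pow_eq_one h10) (by norm_num)
  have hm : m ≤ orderOf (p : ZMod 11) := by
    by_contra hlt
    exact h _ (not_le.mp hlt) hpos (pow_orderOf_eq_one _)
  calc B < p ^ m := hB
    _ ≤ p ^ orderOf (p : ZMod 11) := Nat.pow_le_pow_right (by omega) hm

theorem eleven_pid (K : Type*) [Field K] [NumberField K] [IsCyclotomicExtension {11} ℚ K] :
    IsPrincipalIdealRing (𝓞 K) := by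
  have : Fact (Nat.Prime 11) := ⟨by norm_num⟩
  have : IsGalois ℚ K := IsCyclotomicExtension.isGalois {11} ℚ K
  have hM : ⌊(4 / π) ^ nrComplexPlaces K *
      ((finrank ℚ K)! / (finrank ℚ K) ^ (finrank ℚ K) * √|discr K|)⌋₊ ≤ 58 := by
    have h := minkowski_eleven_lt K
    have h' : ⌊(4 / π) ^ nrComplexPlaces K *
      ((finrank ℚ K)! / (finrank ℚ K) ^ (finrank ℚ K) * √|discr K|)⌋₊ < 59 :=
      (Nat.floor_lt (by positivity)).mpr (by exact_mod_cast h)
    omega
  refine RingOfIntegers.isPrincipalIdealRing_of_isPrincipal_of_lt_or_isPrincipal_of_mem_primesOver_of_mem_Icc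
    (fun p hp hpp => ?_)
  have hp58 : p ≤ 58 := (Finset.mem_Icc.mp hp).2.trans hM
  by_cases h11 : p = 11 ∨ p = 23
  · obtain ⟨P, hP, hprin⟩ := H39.exists_principal_prime_over_eleven K p h11
    exact ⟨P, hP, Or.inr hprin⟩
  · have : Fact p.Prime := ⟨hpp⟩
    obtain ⟨⟨P, hP1, hP2⟩⟩ := (span {(p : ℤ)}).nonempty_primesOver (S := 𝓞 K)
    refine ⟨P, ⟨hP1, hP2⟩, Or.inl ?_⟩
    have hnd : ¬ p ∣ 11 := by
      intro hd
      have := (Nat.prime_dvd_prime_iff_eq hpp (by norm_num)).mp hd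
      exact h11 (Or.inl this)
    rw [IsCyclotomicExtension.Rat.inertiaDeg_eq_of_not_dvd p K P hnd]
    refine lt_of_le_of_lt hM ?_
    obtain ⟨h11a, h11b⟩ := not_or.mp h11
    interval_cases p <;> first
      | (exfalso; revert hpp; decide)
      | (exfalso; exact h11a rfl)
      | (exfalso; exact h11b rfl)
      | exact lt_pow_orderOf_eleven _ (by decide) 58 2 (by decide) (by decide) (by decide)
      | exact lt_pow_orderOf_eleven _ (by decide) 58 3 (by decide) (by decide) (by decide)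
      | exact lt_pow_orderOf_eleven _ (by decide) 58 4 (by decide) (by decide) (by decide)
      | exact lt_pow_orderOf_eleven _ (by decide) 58 6 (by decide) (by decide) (by decide)

end Fermat.Agent.S10.H77
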